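import Fermat.Agent.S27.LocalHom

/-!
# S27 leaf [G2]: torsion count for a discrete cocompact kernel (interface for block C)
-/

set_option autoImplicit false

open Module Metric

namespace Fermat.Agent.S27

theorem finrank_real_fin_complex (g : ℕ) : finrank ℝ (Fin g → ℂ) = 2 * g := by
  rw [Module.finrank_pi_fintype]
  simp [Complex.finrank_real_complex, mul_comm]

variable {E : Type*} [NormedAddCommGroup E] [NormedSpace ℝ E] [FiniteDimensional ℝ E]
variable {G : Type*} [AddCommGroup G]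

/-- `φ : E →+ G` onto, no kernel in a ball, `G = φ K` for a compact `K`:
then `#G[n] = n ^ dim_ℝ E`. -/
theorem card_torsion_of_discrete_cocompact (φ : E →+ G)
    (r : ℝ) (hr : 0 < r) (hker : ∀ u : E, ‖u‖ < r → φ u = 0 → u = 0)
    (K : Set E) (hK : IsCompact K) (hcov : ∀ γ : G, ∃ u ∈ K, φ u = γ) (n : ℕ) (hn : 0 < n) :
    Nat.card {γ : G // n • γ = 0} = n ^ finrank ℝ E := by
  refine card_torsion_of_lattice φ (fun γ => ?_) (discreteTopology_ker_of_ball φ hr hker) K hK
    (fun x => ?_) n hn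
  · obtain ⟨u, _, hu⟩ := hcov γ
    exact ⟨u, hu⟩
  · obtain ⟨u, hu, hφ⟩ := hcov (φ x)
    exact ⟨u, hu, hφ.symm⟩

/-- the complex version: `E = ℂ^g`. -/
theorem card_torsion_complex_of_discrete_cocompact {g : ℕ} (φ : (Fin g → ℂ) →+ G)
    (r : ℝ) (hr : 0 < r) (hker : ∀ u : Fin g → ℂ, ‖u‖ < r → φ u = 0 → u = 0)
    (K : Set (Fin g → ℂ)) (hK : IsCompact K) (hcov : ∀ γ : G, ∃ u ∈ K, φ u = γ)
    (n : ℕ) (hn : 0 < n) :
    Nat.card {γ : G // n • γ = 0} = n ^ (2 * g) := by
  rw [← finrank_real_fin_complex g]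
  exact card_torsion_of_discrete_cocompact φ r hr hker K hK hcov n hn

end Fermat.Agent.S27
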