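import Mathlib

/-!
# S27 leaf (LC): torsion count in a quotient of a real vector space by a lattice

`E` a finite dimensional real normed space, `e : E →+ G` a surjective homomorphism onto an abelian
group whose kernel is discrete and cocompact.  Then `G` has exactly `n ^ dim E` points killed by `n`.
-/

set_option autoImplicit false

open Module Submodule

namespace Fermat.Agent.S27

section LatticeCount

variable {E : Type*} [NormedAddCommGroup E] [NormedSpace ℝ E] [FiniteDimensional ℝ E]

/-- A subgroup `L` of `E` such that `E = K + L` for a compact set `K` spans `E` over `ℝ`. -/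
theorem span_eq_top_of_cocompact (L : AddSubgroup E) (K : Set E) (hK : IsCompact K)
    (hKL : ∀ x : E, ∃ k ∈ K, x - k ∈ L) : span ℝ (L : Set E) = ⊤ := by
  by_contra hne
  obtain ⟨f, hf0, hfW⟩ := Submodule.exists_le_ker_of_lt_top _ (lt_top_iff_ne_top.mpr hne)
  have hfc : Continuous f := f.continuous_of_finiteDimensional
  obtain ⟨C, hC⟩ := (hK.image hfc).isBounded.exists_norm_le
  have hbound : ∀ x : E, ‖f x‖ ≤ C := by
    intro x
    obtain ⟨k, hk, hxk⟩ := hKL x
    have h0 : f (x - k) = 0 := by
      have : x - k ∈ LinearMap.ker f := hfW (subset_span hxk)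
      simpa using this
    have : f x = f k := by
      rw [map_sub, sub_eq_zero] at h0; exact h0
    rw [this]
    exact hC _ ⟨k, hk, rfl⟩
  obtain ⟨v, hv⟩ : ∃ v, f v ≠ 0 := by
    by_contra h
    push Not at h
    exact hf0 (LinearMap.ext h)
  have h1 := hbound (((C + 1) / f v) • v)
  rw [map_smul, smul_eq_mul, div_mul_cancel₀ _ hv] at h1
  have hC0 : 0 ≤ C := le_trans (norm_nonneg _) (hbound 0)
  rw [Real.norm_of_nonneg (by linarith)] at h1
  linarith

variable {G : Type*} [AddCommGroup G]

/-- **Lattice count.**  If `e : E →+ G` is onto with discrete, cocompact kernel, then the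
`n`-torsion of `G` has `n ^ dim_ℝ E` elements. -/
theorem card_torsion_of_lattice (e : E →+ G) (he : Function.Surjective e)
    (hdisc : DiscreteTopology e.ker)
    (K : Set E) (hK : IsCompact K) (hKe : ∀ x : E, ∃ k ∈ K, e x = e k)
    (n : ℕ) (hn : 0 < n) :
    Nat.card {x : G // n • x = 0} = n ^ finrank ℝ E := by
  classical
  have : NeZero n := ⟨hn.ne'⟩
  set L : Submodule ℤ E := AddSubgroup.toIntSubmodule e.ker with hL
  have hmemL : ∀ x : E, x ∈ L ↔ e x = 0 := fun x => by
    rw [hL]; exact AddMonoidHom.mem_ker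
  have : DiscreteTopology L := hdisc
  have : IsZLattice ℝ L := ⟨by
    have := span_eq_top_of_cocompact e.ker K hK (fun x => by
      obtain ⟨k, hk, hxk⟩ := hKe x
      exact ⟨k, hk, by rw [AddMonoidHom.mem_ker, map_sub, hxk, sub_self]⟩)
    simpa [hL] using this⟩
  have : Module.Free ℤ L := ZLattice.module_free ℝ L
  have : Module.Finite ℤ L := ZLattice.module_finite ℝ L
  let b := Module.Free.chooseBasis ℤ L
  let B := b.ofZLatticeBasis ℝ L
  have hcard : Fintype.card (Module.Free.ChooseBasisIndex ℤ L) = finrank ℝ E := by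
    rw [← ZLattice.rank ℝ L, Module.finrank_eq_card_chooseBasisIndex]
  have hmem : ∀ v : E, e v = 0 ↔ ∀ i, ∃ m : ℤ, B.repr v i = m := by
    intro v
    have hspan : v ∈ L ↔ v ∈ span ℤ (Set.range B) := by
      rw [b.ofZLatticeBasis_span ℝ L]
    rw [← hmemL, hspan, Basis.mem_span_iff_repr_mem]
    constructor
    · intro h i
      obtain ⟨m, hm⟩ := h i
      exact ⟨m, by rw [← hm]; simp⟩
    · intro h i
      obtain ⟨m, hm⟩ := h i
      exact ⟨m, by rw [hm]; simp⟩
  have hnR : (n : ℝ) ≠ 0 := by exact_mod_cast hn.ne'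
  -- the parametrisation
  let vec : (Module.Free.ChooseBasisIndex ℤ L → ZMod n) → E :=
    fun c => ∑ i, (((c i).val : ℝ) / n) • B i
  have hrepr : ∀ c i, B.repr (vec c) i = ((c i).val : ℝ) / n := by
    intro c i
    simp only [vec, map_sum, map_smul, Basis.repr_self, Finsupp.coe_finset_sum, Finsupp.coe_smul,
      Finset.sum_apply, Pi.smul_apply, smul_eq_mul]
    rw [Finset.sum_eq_single i]
    · simp
    · intro j _ hj
      simp [Finsupp.single_apply, hj]
    · intro h; exact absurd (Finset.mem_univ i) h
  have htors : ∀ c, n • e (vec c) = 0 := by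
    intro c
    rw [← map_nsmul, hmem]
    intro i
    refine ⟨((c i).val : ℤ), ?_⟩
    rw [map_nsmul, Finsupp.smul_apply, hrepr, nsmul_eq_mul]
    push_cast
    field_simp
  let F : (Module.Free.ChooseBasisIndex ℤ L → ZMod n) → {x : G // n • x = 0} :=
    fun c => ⟨e (vec c), htors c⟩
  have hinj : Function.Injective F := by
    intro c c' hcc
    have h0 : e (vec c - vec c') = 0 := by
      have : e (vec c) = e (vec c') := congrArg Subtype.val hcc
      rw [map_sub, this, sub_self]
    rw [hmem] at h0
    funext i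
    obtain ⟨m, hm⟩ := h0 i
    rw [map_sub, Finsupp.sub_apply, hrepr, hrepr, ← sub_div, div_eq_iff hnR] at hm
    have hm' : ((c i).val : ℤ) - ((c' i).val : ℤ) = m * n := by exact_mod_cast hm
    have h1 : ((c i).val : ℤ) < n := by exact_mod_cast ZMod.val_lt (c i)
    have h2 : ((c' i).val : ℤ) < n := by exact_mod_cast ZMod.val_lt (c' i)
    have h3 : (0 : ℤ) ≤ (c i).val := by positivity
    have h4 : (0 : ℤ) ≤ (c' i).val := by positivity
    have hnZ : (0 : ℤ) < n := by exact_mod_cast hn
    have hm0 : m = 0 := by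
      by_contra hne
      rcases lt_or_gt_of_ne hne with h | h
      · have : m * n ≤ -1 * n := by
          apply mul_le_mul_of_nonneg_right _ hnZ.le
          omega
        linarith
      · have : 1 * (n : ℤ) ≤ m * n := by
          apply mul_le_mul_of_nonneg_right _ hnZ.le
          omega
        linarith
    rw [hm0, zero_mul, sub_eq_zero] at hm'
    apply ZMod.val_injective n
    exact_mod_cast hm'
  have hsurj : Function.Surjective F := by
    rintro ⟨x, hx⟩
    obtain ⟨v, rfl⟩ := he x
    rw [← map_nsmul, hmem] at hx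
    choose m hm using hx
    refine ⟨fun i => (m i : ZMod n), Subtype.ext ?_⟩
    show e (vec _) = e v
    rw [← sub_eq_zero, ← map_sub, hmem]
    intro i
    rw [map_sub, Finsupp.sub_apply, hrepr]
    have hmi := hm i
    rw [map_nsmul, Finsupp.smul_apply, nsmul_eq_mul] at hmi
    have hv : B.repr v i = (m i : ℝ) / n := by
      rw [eq_div_iff hnR, mul_comm]; exact hmi
    have hdvd : (n : ℤ) ∣ (((m i : ZMod n).val : ℤ) - m i) := by
      rw [← ZMod.intCast_zmod_eq_zero_iff_dvd]
      push_cast
      simp
    obtain ⟨k, hk⟩ := hdvd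
    refine ⟨k, ?_⟩
    rw [hv, ← sub_div, div_eq_iff hnR]
    have : (((m i : ZMod n).val : ℝ) - (m i : ℝ)) = (n : ℝ) * k := by exact_mod_cast hk
    rw [this, mul_comm]
  rw [← Nat.card_congr (Equiv.ofBijective F ⟨hinj, hsurj⟩), Nat.card_eq_fintype_card,
    Fintype.card_fun, ZMod.card, hcard]

end LatticeCount

end Fermat.Agent.S27
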