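import Fermat.Agent.S27.ExpMain
import Fermat.Agent.S27.LatticeCount
import Fermat.Agent.S27.Lattice

/-!
# S27 / WPs C6, C7 : surjectivity, cocompactness, the count over `ℂ`
-/

set_option autoImplicit false

open AlgebraicCurve WithZero Topology Metric

namespace Fermat.Agent.S27

variable {F : Type*} [Field F] [Algebra ℂ F] [IsFF ℂ F] {g : ℕ}

/-- **C6.** all differences of places are in the range of `φ`
(classes of `R ~ R' ↔ pd R R' ∈ range φ` are open; a function with a single pole, compactness and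
the open mapping theorem show that there is only one class). -/
theorem pd_mem_range (b : Fin g → WD ℂ F) (φ : (Fin g → ℂ) →+ Pic0 ℂ F)
    (hφ : ∀ P : Place ℂ F, ∃ ch : Chart F, ch.P = P ∧
      ∀ z ∈ ch.dom, φ (ch.I b z) = pd (ch.Q z) P) (R R' : Place ℂ F) :
    pd R R' ∈ Set.range φ := by
  classical
  -- membership in the range is constant along a chart
  have hiff : ∀ (P : Place ℂ F) (ch : Chart F), ch.P = P →
      (∀ z ∈ ch.dom, φ (ch.I b z) = pd (ch.Q z) P) → ∀ z ∈ ch.dom,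
      (pd (ch.Q z) R' ∈ Set.range φ ↔ pd P R' ∈ Set.range φ) := by
    intro P ch _ hch z hz
    have h1 : pd (ch.Q z) R' = φ (ch.I b z) + pd P R' := by
      rw [hch z hz, pd_add_pd]
    constructor
    · rintro ⟨u, hu⟩
      refine ⟨u - ch.I b z, ?_⟩
      rw [map_sub, hu, h1]
      abel
    · rintro ⟨u, hu⟩
      exact ⟨ch.I b z + u, by rw [map_add, hu, h1]⟩
  set Z : Set (Place ℂ F) := {P | pd P R' ∉ Set.range φ} with hZ
  have hZclosed : IsClosed Z := by
    rw [← isOpen_compl_iff, isOpen_iff_mem_nhds]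
    intro P hP
    obtain ⟨ch, hchP, hch⟩ := hφ P
    have hP' : pd P R' ∈ Set.range φ := not_not.1 hP
    refine Filter.mem_of_superset (ch.isOpen_img.mem_nhds ⟨ch.c, ch.center_mem, hchP⟩) ?_
    rintro _ ⟨z, hz, rfl⟩
    exact not_not.2 ((hiff P ch hchP hch z hz).2 hP')
  obtain ⟨f, hfpole, hfreg⟩ := exists_single_pole R'
  have hR'Z : R' ∉ Z := by
    intro h
    apply h
    exact ⟨0, by rw [map_zero, pd_self]⟩
  have hreg : ∀ v ∈ Z, v.adicValuation f ≤ 1 := by
    intro v hv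
    apply hfreg
    rintro rfl
    exact hR'Z hv
  have hfnc : f ∉ Set.range (algebraMap ℂ F) := by
    rintro ⟨c, rfl⟩
    exact hfpole ((adic_le_one_iff_mem R').2 (R'.algebraMap_mem' c))
  have hcomp : IsCompact ((fun v => val v f) '' Z) := isCompact_val_image f hZclosed hreg
  have hopen : IsOpen ((fun v => val v f) '' Z) := by
    rw [isOpen_iff_mem_nhds]
    rintro _ ⟨P, hP, rfl⟩
    obtain ⟨ch, hchP, hch⟩ := hφ P
    have hreg' : (ch.Q ch.c).adicValuation f ≤ 1 := by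
      have : ch.Q ch.c = P := hchP
      rw [this]
      exact hreg P hP
    have h1 := ch.val_image_mem_nhds hfnc ch.center_mem hreg'
      (isOpen_ball.mem_nhds ch.center_mem : ch.dom ∈ 𝓝 ch.c)
    have h2 : ch.Q ch.c = P := hchP
    rw [h2] at h1
    refine Filter.mem_of_superset h1 ?_
    rintro _ ⟨z, hz, rfl⟩
    refine ⟨ch.Q z, ?_, rfl⟩
    intro hmem
    exact hP ((hiff P ch hchP hch z hz).1 hmem)
  have hclopen : IsClopen ((fun v => val v f) '' Z) := ⟨hcomp.isClosed, hopen⟩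
  rcases isClopen_iff.1 hclopen with h | h
  · rw [Set.image_eq_empty] at h
    by_contra hR
    have : R ∈ Z := hR
    rw [h] at this
    exact this
  · rw [h] at hcomp
    exact absurd hcomp (noncompact_univ ℂ)

/-- **C7a.** uniformly bounded preimages (finite subcover by half-size charts). -/
theorem exists_bound_pd (b : Fin g → WD ℂ F) (φ : (Fin g → ℂ) →+ Pic0 ℂ F)
    (hφ : ∀ P : Place ℂ F, ∃ ch : Chart F, ch.P = P ∧
      ∀ z ∈ ch.dom, φ (ch.I b z) = pd (ch.Q z) P) (R₀ : Place ℂ F) :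
    ∃ C : ℝ, ∀ R : Place ℂ F, ∃ u : Fin g → ℂ, ‖u‖ ≤ C ∧ φ u = pd R R₀ := by
  classical
  choose ch hchP hch using hφ
  have hsub : ∀ P, ball (ch P).c ((ch P).r / 2) ⊆ ball (ch P).c (ch P).r := fun P =>
    ball_subset_ball (by linarith [(ch P).r_pos])
  have hN : ∀ P, (ch P).Q '' ball (ch P).c ((ch P).r / 2) ∈ 𝓝 P := by
    intro P
    refine ((ch P).isOpen_image _ _ (hsub P)).mem_nhds ⟨(ch P).c, ?_, hchP P⟩
    exact mem_ball_self (by linarith [(ch P).r_pos])
  obtain ⟨T, hT⟩ := exists_finite_nhds_subcover _ hN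
  -- bounds in each chart
  have hbd : ∀ P, ∃ C : ℝ, 0 ≤ C ∧ ∀ z ∈ ball (ch P).c ((ch P).r / 2), ‖(ch P).I b z‖ ≤ C := by
    intro P
    have hsub' : closedBall (ch P).c ((ch P).r / 2) ⊆ (ch P).dom :=
      closedBall_subset_ball (by linarith [(ch P).r_pos])
    have hc : IsCompact ((ch P).I b '' closedBall (ch P).c ((ch P).r / 2)) :=
      (isCompact_closedBall _ _).image_of_continuousOn (((ch P).continuousOn_I b).mono hsub')
    obtain ⟨C, hC⟩ := hc.isBounded.exists_norm_le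
    refine ⟨max C 0, le_max_right _ _, fun z hz => ?_⟩
    exact (hC _ ⟨z, ball_subset_closedBall hz, rfl⟩).trans (le_max_left _ _)
  choose C hC0 hC using hbd
  have hu : ∀ P, ∃ u : Fin g → ℂ, φ u = pd P R₀ := fun P =>
    pd_mem_range b φ (fun P => ⟨ch P, hchP P, hch P⟩) P R₀
  choose u hu using hu
  refine ⟨∑ P ∈ T, (C P + ‖u P‖), fun R => ?_⟩
  obtain ⟨P, hPT, z, hz, rfl⟩ := hT R
  refine ⟨(ch P).I b z + u P, ?_, ?_⟩
  · calc ‖(ch P).I b z + u P‖ ≤ ‖(ch P).I b z‖ + ‖u P‖ := norm_add_le _ _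
      _ ≤ C P + ‖u P‖ := by linarith [hC P z hz]
      _ ≤ ∑ P ∈ T, (C P + ‖u P‖) :=
        Finset.single_le_sum (f := fun P => C P + ‖u P‖)
          (fun Q _ => add_nonneg (hC0 Q) (norm_nonneg _)) hPT
  · rw [map_add, hch P z (hsub P hz), hu, pd_add_pd]

/-- **C7b.** surjectivity with bounded preimages. -/
theorem exists_bound (hg : genusFF ℂ F = g) (b : Fin g → WD ℂ F) (φ : (Fin g → ℂ) →+ Pic0 ℂ F)
    (hφ : ∀ P : Place ℂ F, ∃ ch : Chart F, ch.P = P ∧
      ∀ z ∈ ch.dom, φ (ch.I b z) = pd (ch.Q z) P) :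
    ∃ C : ℝ, ∀ x : Pic0 ℂ F, ∃ u : Fin g → ℂ, ‖u‖ ≤ C ∧ φ u = x := by
  classical
  have : Infinite (Place ℂ F) := infinite_places ℂ F
  obtain ⟨R₀⟩ : Nonempty (Place ℂ F) := inferInstance
  obtain ⟨C, hC⟩ := exists_bound_pd b φ hφ R₀
  refine ⟨g * C, fun x => ?_⟩
  obtain ⟨R, rfl⟩ := exists_sum_pd hg (fun _ => R₀) x
  choose u hu1 hu2 using fun j => hC (R j)
  refine ⟨∑ j, u j, ?_, ?_⟩
  · calc ‖∑ j, u j‖ ≤ ∑ j, ‖u j‖ := norm_sum_le _ _
      _ ≤ ∑ _j : Fin g, C := Finset.sum_le_sum fun j _ => hu1 j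
      _ = g * C := by simp
  · rw [map_sum]
    exact Finset.sum_congr rfl fun j _ => hu2 j

/-- **the count over `ℂ`.** -/
theorem card_torsion_complex (n : ℕ) (hn : 0 < n) :
    Nat.card (Pic0.torsion ℂ F n) = n ^ (2 * genusFF ℂ F) := by
  obtain ⟨b, hb⟩ : ∃ b : Fin (genusFF ℂ F) → WD ℂ F, LinearIndependent ℂ b :=
    exists_linearIndependent_of_le_finrank (finrank_WD (K := ℂ) (F := F)).ge
  obtain ⟨φ, ⟨ε, hε, hker⟩, hφ⟩ := exists_exp rfl b hb
  obtain ⟨C, hC⟩ := exists_bound rfl b φ hφ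
  rw [torsion_card_eq]
  refine card_torsion_complex_of_discrete_cocompact φ ε hε hker (closedBall 0 C)
    (isCompact_closedBall _ _) (fun γ => ?_) n hn
  obtain ⟨u, hu, rfl⟩ := hC γ
  exact ⟨u, by simpa using hu, rfl⟩

end Fermat.Agent.S27
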