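import Mathlib

/-!
# S27 / WP D13 : small fields embed into `ℂ`; small algebraically closed subfields
-/

set_option autoImplicit false

namespace Fermat.Agent.S27

open Cardinal in
/-- a countable field of characteristic zero embeds into `ℂ`. -/
theorem exists_ringHom_complex (k : Type*) [Field k] [CharZero k] [Countable k] :
    Nonempty (k →+* ℂ) := by
  let P := MvPolynomial ℂ k
  let F := FractionRing P
  let L := AlgebraicClosure F
  have hinj : Function.Injective (algebraMap k L) := (algebraMap k L).injective
  have : CharZero L := charZero_of_injective_algebraMap hinj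
  have hP : #P = Cardinal.lift #ℂ := by
    have h1 : #P = max (max (Cardinal.lift #k) (Cardinal.lift #ℂ)) ℵ₀ :=
      MvPolynomial.cardinalMk_eq_max_lift
    have h2 : #k ≤ ℵ₀ := Cardinal.mk_le_aleph0
    rw [h1, max_eq_left, max_eq_right]
    · simp only [Cardinal.lift_uzero]
      exact h2.trans (by simpa using Cardinal.aleph0_le_continuum)
    · exact le_max_of_le_right (by simpa using Cardinal.aleph0_le_continuum)
  have hF : #F = #P := IsFractionRing.cardinalMk (R := P) F
  have hL1 : #L ≤ max #F ℵ₀ := Algebra.IsAlgebraic.cardinalMk_le_max F L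
  have hL2 : #F ≤ #L := Cardinal.mk_le_of_injective (algebraMap F L).injective
  have hC : ℵ₀ < Cardinal.lift #ℂ := by
    simp only [Cardinal.mk_complex, Cardinal.lift_continuum]
    exact Cardinal.aleph0_lt_continuum
  have hL : #L = Cardinal.lift #ℂ := by
    apply le_antisymm
    · rw [hF, hP] at hL1
      exact hL1.trans (max_le le_rfl hC.le)
    · rw [← hP, ← hF]; exact hL2
  have hKL : Nonempty (L ≃ ℂ) := by
    apply Cardinal.lift_mk_eq'.1
    rw [hL]
    simp
  obtain ⟨e⟩ := IsAlgClosed.ringEquiv_of_equiv_of_charZero (K := L) (L := ℂ) (hL ▸ hC) hKL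
  exact ⟨(e : L →+* ℂ).comp (algebraMap k L)⟩

open Cardinal in
/-- every finite subset of an algebraically closed field of characteristic zero is contained in a
countable algebraically closed subfield. -/
theorem exists_small_subfield {K : Type*} [Field K] [IsAlgClosed K] [CharZero K] (S : Finset K) :
    ∃ k : Subfield K, IsAlgClosed k ∧ Countable k ∧ ∀ s ∈ S, s ∈ k := by
  let F : Subfield K := Subfield.closure (S : Set K)
  let M : IntermediateField F K := algebraicClosure F K
  have hF : #F ≤ ℵ₀ := by
    refine (Subfield.cardinalMk_closure_le_max (S : Set K)).trans (max_le ?_ le_rfl)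
    exact Cardinal.mk_le_aleph0
  have hM : #M ≤ ℵ₀ :=
    (Algebra.IsAlgebraic.cardinalMk_le_max F M).trans (max_le hF le_rfl)
  refine ⟨M.toSubfield, ?_, ?_, fun s hs => ?_⟩
  · exact (inferInstance : IsAlgClosure F M).isAlgClosed
  · exact Cardinal.mk_le_aleph0_iff.1 hM
  · exact M.algebraMap_mem ⟨s, Subfield.subset_closure hs⟩

end Fermat.Agent.S27
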