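import Mathlib

/-!
# S27 / WP D2 : automorphisms of an algebraically closed field over an algebraically closed subfield
-/

set_option autoImplicit false

namespace Fermat.Agent.S27

/-- translation automorphism of a polynomial ring. -/
noncomputable def mvTranslate {ι k : Type*} [CommRing k] (d : ι → k) :
    MvPolynomial ι k ≃ₐ[k] MvPolynomial ι k :=
  AlgEquiv.ofAlgHom
    (MvPolynomial.aeval fun i => MvPolynomial.X i + MvPolynomial.C (d i))
    (MvPolynomial.aeval fun i => MvPolynomial.X i - MvPolynomial.C (d i))
    (by ext i; simp)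
    (by ext i; simp)

theorem mvTranslate_X {ι k : Type*} [CommRing k] (d : ι → k) (i : ι) :
    mvTranslate d (MvPolynomial.X i) = MvPolynomial.X i + MvPolynomial.C (d i) := by
  simp [mvTranslate]

variable {k K : Type*} [Field k] [Field K] [Algebra k K] [IsAlgClosed k] [IsAlgClosed K]

omit [IsAlgClosed K] in
theorem transcendental_of_not_mem_range (a : K) (ha : a ∉ Set.range (algebraMap k K)) :
    Transcendental k a := by
  intro halg
  apply ha
  have hint : IsIntegral k a := halg.isIntegral
  have hdeg : (minpoly k a).degree = 1 :=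
    IsAlgClosed.degree_eq_one_of_irreducible k (minpoly.irreducible hint)
  exact minpoly.mem_range_of_degree_eq_one k a hdeg

/-- an element outside `k` can be moved to `a + c` for every `c` in `k`. -/
theorem exists_aut_add (a : K) (ha : a ∉ Set.range (algebraMap k K)) (c : k) :
    ∃ σ : K ≃ₐ[k] K, σ a = a + algebraMap k K c := by
  classical
  have htr : Transcendental k a := transcendental_of_not_mem_range a ha
  have hind : AlgebraicIndepOn k id ({a} : Set K) :=
    algebraicIndependent_unique_type_iff.mpr htr
  obtain ⟨t, hat, ht⟩ := exists_isTranscendenceBasis_superset hind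
  let i₀ : t := ⟨a, hat (Set.mem_singleton a)⟩
  let v : t → K := fun x => x
  have hcl : IsAlgClosure (Algebra.adjoin k (Set.range v)) K :=
    IsAlgClosed.isAlgClosure_of_transcendence_basis v ht
  let T := mvTranslate (Pi.single i₀ c : t → k)
  let e : Algebra.adjoin k (Set.range v) ≃ₐ[k] Algebra.adjoin k (Set.range v) :=
    ht.1.aevalEquiv.symm.trans (T.trans ht.1.aevalEquiv)
  let σ : K ≃+* K := IsAlgClosure.equivOfEquiv K K e.toRingEquiv
  have hσ : ∀ s, σ (algebraMap (Algebra.adjoin k (Set.range v)) K s) =
      algebraMap (Algebra.adjoin k (Set.range v)) K (e s) := fun s =>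
    IsAlgClosure.equivOfEquiv_algebraMap K K e.toRingEquiv s
  refine ⟨AlgEquiv.ofRingEquiv (f := σ) fun x => ?_, ?_⟩
  · have h1 := hσ (algebraMap k _ x)
    rw [AlgEquiv.commutes, ← IsScalarTower.algebraMap_apply] at h1
    exact h1
  · have h1 := hσ (ht.1.aevalEquiv (MvPolynomial.X i₀))
    have h2 : e (ht.1.aevalEquiv (MvPolynomial.X i₀)) =
        ht.1.aevalEquiv (MvPolynomial.X i₀ + MvPolynomial.C c) := by
      simp [e, T, mvTranslate_X]
    rw [h2, ht.1.algebraMap_aevalEquiv, ht.1.algebraMap_aevalEquiv] at h1
    simpa [i₀] using h1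

theorem fixed_of_aut [CharZero k] (a : K) (h : ∀ σ : K ≃ₐ[k] K, σ a = a) :
    a ∈ Set.range (algebraMap k K) := by
  by_contra ha
  obtain ⟨σ, hσ⟩ := exists_aut_add a ha 1
  rw [h σ] at hσ
  simp at hσ

/-- an element with finite orbit lies in `k`. -/
theorem mem_range_of_finite_orbit [CharZero k] (a : K)
    (h : (Set.range fun σ : K ≃ₐ[k] K => σ a).Finite) : a ∈ Set.range (algebraMap k K) := by
  by_contra ha
  have hinf : (Set.range fun σ : K ≃ₐ[k] K => σ a).Infinite := by
    refine Set.infinite_of_injective_forall_mem (f := fun c : k => a + algebraMap k K c) ?_ ?_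
    · intro c d hcd
      exact (algebraMap k K).injective (add_left_cancel hcd)
    · intro c
      obtain ⟨σ, hσ⟩ := exists_aut_add a ha c
      exact ⟨σ, hσ⟩
  exact hinf h

end Fermat.Agent.S27
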