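import Mathlib

/-!
# S27 / WP D1 : rationality of stable subspaces (Bourbaki, Algebre II §8 no 7)

`k ⊆ K` fields, `G` a group of automorphisms of `K` with fixed field `k`
(hypothesis `hfix`).  A `K`-subspace of `ι →₀ K` stable under the coordinatewise action of `G`
is spanned by its vectors with coordinates in `k`.
-/

set_option autoImplicit false

namespace Fermat.Agent.S27

variable {k K : Type*} [Field k] [Field K] [Algebra k K]

/-- a nonzero vector of a stable subspace dominates a nonzero rational vector of it. -/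
theorem exists_rational_support_subset {ι : Type*}
    (hfix : ∀ a : K, (∀ σ : K ≃ₐ[k] K, σ a = a) → a ∈ Set.range (algebraMap k K))
    (W : Submodule K (ι →₀ K))
    (hW : ∀ σ : K ≃ₐ[k] K, ∀ w ∈ W, Finsupp.mapRange σ (map_zero σ) w ∈ W) :
    ∀ (n : ℕ) (w : ι →₀ K), w ∈ W → w ≠ 0 → w.support.card ≤ n →
      ∃ u ∈ W, u ≠ 0 ∧ u.support ⊆ w.support ∧ ∀ i, u i ∈ Set.range (algebraMap k K) := by
  classical
  intro n
  induction n with
  | zero =>
    intro w _ hw0 hc
    exact absurd (by simpa using hc) hw0
  | succ n ih =>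
    intro w hw hw0 hc
    obtain ⟨i₀, hi₀⟩ := Finsupp.support_nonempty_iff.mpr hw0
    have hwi₀ : w i₀ ≠ 0 := Finsupp.mem_support_iff.mp hi₀
    set w' := (w i₀)⁻¹ • w with hw'
    have hw'W : w' ∈ W := W.smul_mem _ hw
    have hw'i : w' i₀ = 1 := by simp [hw', hwi₀]
    have hsupp : w'.support ⊆ w.support := Finsupp.support_smul
    by_cases hall : ∀ σ : K ≃ₐ[k] K, Finsupp.mapRange σ (map_zero σ) w' = w'
    · refine ⟨w', hw'W, ?_, hsupp, fun i => hfix _ (fun σ => ?_)⟩
      · intro h
        rw [h] at hw'i
        simp at hw'i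
      · have := DFunLike.congr_fun (hall σ) i
        simpa using this
    · push Not at hall
      obtain ⟨σ, hσ⟩ := hall
      set v := Finsupp.mapRange σ (map_zero σ) w' - w' with hv
      have hvW : v ∈ W := W.sub_mem (hW σ w' hw'W) hw'W
      have hv0 : v ≠ 0 := sub_ne_zero.mpr hσ
      have hvs : v.support ⊆ w.support.erase i₀ := by
        intro i hi
        rw [Finset.mem_erase]
        constructor
        · rintro rfl
          simp [hv, hw'i] at hi
        · by_contra hiw
          have h0 : w' i = 0 := by simp [hw', Finsupp.notMem_support_iff.mp hiw]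
          simp [hv, h0] at hi
      have hcard : v.support.card ≤ n := by
        have := Finset.card_le_card hvs
        rw [Finset.card_erase_of_mem hi₀] at this
        omega
      obtain ⟨u, huW, hu0, hus, hur⟩ := ih v hvW hv0 hcard
      exact ⟨u, huW, hu0, hus.trans (hvs.trans (Finset.erase_subset _ _)), hur⟩

theorem span_rational_of_stable {ι : Type*}
    (hfix : ∀ a : K, (∀ σ : K ≃ₐ[k] K, σ a = a) → a ∈ Set.range (algebraMap k K))
    (W : Submodule K (ι →₀ K))
    (hW : ∀ σ : K ≃ₐ[k] K, ∀ w ∈ W, Finsupp.mapRange σ (map_zero σ) w ∈ W) :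
    Submodule.span K {w : ι →₀ K | w ∈ W ∧ ∀ i, w i ∈ Set.range (algebraMap k K)} = W := by
  classical
  apply le_antisymm
  · exact Submodule.span_le.mpr fun w hw => hw.1
  · suffices H : ∀ (n : ℕ) (w : ι →₀ K), w ∈ W → w.support.card ≤ n →
        w ∈ Submodule.span K {w : ι →₀ K | w ∈ W ∧ ∀ i, w i ∈ Set.range (algebraMap k K)} from
      fun w hw => H _ w hw le_rfl
    intro n
    induction n with
    | zero =>
      intro w _ hc
      have : w = 0 := by simpa using hc
      rw [this]
      exact zero_mem _
    | succ n ih =>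
      intro w hw hc
      by_cases hw0 : w = 0
      · rw [hw0]
        exact zero_mem _
      obtain ⟨u, huW, hu0, hus, hur⟩ :=
        exists_rational_support_subset hfix W hW _ w hw hw0 le_rfl
      obtain ⟨i₀, hi₀⟩ := Finsupp.support_nonempty_iff.mpr hu0
      have hui₀ : u i₀ ≠ 0 := Finsupp.mem_support_iff.mp hi₀
      set v := w - (w i₀ / u i₀) • u with hv
      have hvW : v ∈ W := W.sub_mem hw (W.smul_mem _ huW)
      have hvs : v.support ⊆ w.support.erase i₀ := by
        intro i hi
        rw [Finset.mem_erase]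
        constructor
        · rintro rfl
          simp [hv, hui₀] at hi
        · by_contra hiw
          have h0 : w i = 0 := Finsupp.notMem_support_iff.mp hiw
          have h1 : u i = 0 := Finsupp.notMem_support_iff.mp fun h => hiw (hus h)
          simp [hv, h0, h1] at hi
      have hcard : v.support.card ≤ n := by
        have := Finset.card_le_card hvs
        rw [Finset.card_erase_of_mem (hus hi₀)] at this
        omega
      have h1 := ih v hvW hcard
      have h2 : w = v + (w i₀ / u i₀) • u := by simp [hv]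
      rw [h2]
      exact add_mem h1 (Submodule.smul_mem _ _ (Submodule.subset_span ⟨huW, hur⟩))

/-- function version, for finite index types. -/
theorem span_rational_of_stable_fun {ι : Type*} [Finite ι]
    (hfix : ∀ a : K, (∀ σ : K ≃ₐ[k] K, σ a = a) → a ∈ Set.range (algebraMap k K))
    (W : Submodule K (ι → K))
    (hW : ∀ σ : K ≃ₐ[k] K, ∀ w ∈ W, (fun i => σ (w i)) ∈ W) :
    Submodule.span K {w : ι → K | w ∈ W ∧ ∀ i, w i ∈ Set.range (algebraMap k K)} = W := by
  classical
  apply le_antisymm
  · exact Submodule.span_le.mpr fun w hw => hw.1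
  · let e : (ι →₀ K) ≃ₗ[K] (ι → K) := Finsupp.linearEquivFunOnFinite K K ι
    have he : ∀ (w : ι →₀ K) i, e w i = w i := fun w i => rfl
    let W' : Submodule K (ι →₀ K) := W.comap e.toLinearMap
    have hW' : ∀ σ : K ≃ₐ[k] K, ∀ w ∈ W', Finsupp.mapRange σ (map_zero σ) w ∈ W' := by
      intro σ w hw
      exact hW σ (e w) hw
    have key := span_rational_of_stable hfix W' hW'
    intro w hw
    have h1 : e.symm w ∈ W' := by
      change e (e.symm w) ∈ W
      simpa using hw
    rw [← key] at h1
    have h2 : e (e.symm w) ∈ Submodule.map e.toLinearMap (Submodule.span K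
        {w : ι →₀ K | w ∈ W' ∧ ∀ i, w i ∈ Set.range (algebraMap k K)}) :=
      Submodule.mem_map_of_mem h1
    rw [LinearEquiv.apply_symm_apply, Submodule.map_span] at h2
    refine Submodule.span_mono ?_ h2
    rintro _ ⟨u, ⟨hu1, hu2⟩, rfl⟩
    exact ⟨hu1, hu2⟩

/-- consequence: a basis of `W` with coordinates in `k`. -/
theorem exists_rational_basis_fun {ι : Type*} [Finite ι]
    (hfix : ∀ a : K, (∀ σ : K ≃ₐ[k] K, σ a = a) → a ∈ Set.range (algebraMap k K))
    (W : Submodule K (ι → K))
    (hW : ∀ σ : K ≃ₐ[k] K, ∀ w ∈ W, (fun i => σ (w i)) ∈ W) :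
    ∃ w : Fin (Module.finrank K W) → (ι → K), LinearIndependent K w ∧ (∀ j, w j ∈ W) ∧
      ∀ j i, w j i ∈ Set.range (algebraMap k K) := by
  classical
  have key := span_rational_of_stable_fun hfix W hW
  obtain ⟨b, hbS, hbspan, hbli⟩ := exists_linearIndependent K
    {w : ι → K | w ∈ W ∧ ∀ i, w i ∈ Set.range (algebraMap k K)}
  rw [key] at hbspan
  have hfin : Finite b := hbli.finite
  have _ := Fintype.ofFinite b
  have hcard : Fintype.card b = Module.finrank K W := by
    rw [← hbspan, finrank_span_set_eq_card hbli, Set.toFinset_card]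
  let f : Fin (Module.finrank K W) ≃ b := (Fintype.equivFinOfCardEq hcard).symm
  refine ⟨fun j => (f j : ι → K), ?_, fun j => (hbS (f j).2).1, fun j i => (hbS (f j).2).2 i⟩
  exact hbli.comp f f.injective

end Fermat.Agent.S27
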