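import Mathlib

/-!
# S27 / WP D3 : tensor products of domains over an algebraically closed field are domains
-/

set_option autoImplicit false

open scoped TensorProduct

namespace Fermat.Agent.S27

/-- Weak Nullstellensatz: a nonzero element of a finite type domain over an algebraically closed
field is nonzero at some `k`-point. -/
theorem exists_algHom_apply_ne_zero (k B : Type*) [Field k] [IsAlgClosed k]
    [CommRing B] [IsDomain B] [Algebra k B] [Algebra.FiniteType k B] (b : B) (hb : b ≠ 0) :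
    ∃ φ : B →ₐ[k] k, φ b ≠ 0 := by
  have hJ : IsJacobsonRing B := isJacobsonRing_of_finiteType (A := k)
  have h0 : (⊥ : Ideal B).jacobson = ⊥ :=
    hJ.out (Ideal.isPrime_bot (α := B)).isRadical
  have hb' : b ∉ (⊥ : Ideal B).jacobson := by rw [h0]; simpa using hb
  rw [Ideal.jacobson, Ideal.mem_sInf] at hb'
  push Not at hb'
  obtain ⟨m, ⟨-, hm⟩, hbm⟩ := hb'
  let _ : Field (B ⧸ m) := Ideal.Quotient.field m
  have hfin : Module.Finite k (B ⧸ m) := finite_of_finite_type_of_isJacobsonRing k (B ⧸ m)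
  have hbij : Function.Bijective (algebraMap k (B ⧸ m)) :=
    IsAlgClosed.algebraMap_bijective_of_isIntegral
  let e : k ≃ₐ[k] (B ⧸ m) := AlgEquiv.ofBijective (Algebra.ofId k (B ⧸ m)) hbij
  refine ⟨e.symm.toAlgHom.comp (Ideal.Quotient.mkₐ k m), ?_⟩
  intro h
  apply hbm
  have : (Ideal.Quotient.mkₐ k m) b = 0 := by
    have h2 : e.symm ((Ideal.Quotient.mkₐ k m) b) = 0 := h
    simpa using h2
  exact Ideal.Quotient.eq_zero_iff_mem.mp this

/-- The finite type case of `isDomain_tensor_of_isAlgClosed`, zero divisor part. -/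
theorem tensor_mul_eq_zero_of_finiteType (k A B : Type*) [Field k] [IsAlgClosed k]
    [CommRing A] [IsDomain A] [Algebra k A] [CommRing B] [IsDomain B] [Algebra k B]
    [Algebra.FiniteType k B] (x y : A ⊗[k] B) (hxy : x * y = 0) : x = 0 ∨ y = 0 := by
  classical
  by_contra hcon
  push Not at hcon
  obtain ⟨hx, hy⟩ := hcon
  let 𝒜 := Module.Basis.ofVectorSpace k A
  let E := TensorProduct.equivFinsuppOfBasisLeft (N := B) 𝒜
  have hEx : E x ≠ 0 := fun h => hx (by simpa using h)
  have hEy : E y ≠ 0 := fun h => hy (by simpa using h)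
  obtain ⟨i, hi⟩ := Finsupp.ne_iff.mp hEx
  obtain ⟨j, hj⟩ := Finsupp.ne_iff.mp hEy
  simp only [Finsupp.coe_zero, Pi.zero_apply] at hi hj
  obtain ⟨φ, hφ⟩ := exists_algHom_apply_ne_zero k B (E x i * E y j) (mul_ne_zero hi hj)
  let Ψ : A ⊗[k] B →ₐ[k] A :=
    Algebra.TensorProduct.lift (AlgHom.id k A) ((Algebra.ofId k A).comp φ)
      (fun _ _ => Commute.all _ _)
  have key : ∀ (z : A ⊗[k] B) (l), 𝒜.repr (Ψ z) l = φ (E z l) := by
    intro z l
    induction z using TensorProduct.induction_on with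
    | zero => simp
    | tmul a b =>
      have h1 : Ψ (a ⊗ₜ b) = φ b • a := by
        simp [Ψ, Algebra.ofId_apply, Algebra.smul_def, mul_comm]
      rw [h1]
      simp [E, mul_comm]
    | add z w hz hw => simp [hz, hw]
  have hΨ : Ψ x * Ψ y = 0 := by rw [← map_mul, hxy, map_zero]
  rw [map_mul] at hφ
  rcases mul_eq_zero.mp hΨ with h | h
  · have := key x i
    rw [h] at this
    simp at this
    exact hφ (by rw [← this, zero_mul])
  · have := key y j
    rw [h] at this
    simp at this
    exact hφ (by rw [← this, mul_zero])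

/-- Every element of `A ⊗ B` comes from `A ⊗ B₀` with `B₀ ⊆ B` a finitely generated subalgebra. -/
theorem exists_fg_subalgebra_mem_range (k A B : Type*) [Field k]
    [CommRing A] [Algebra k A] [CommRing B] [Algebra k B] (x : A ⊗[k] B) :
    ∃ B₀ : Subalgebra k B, B₀.FG ∧
      ∀ B₁ : Subalgebra k B, B₀ ≤ B₁ →
        x ∈ (Algebra.TensorProduct.map (AlgHom.id k A) B₁.val).range := by
  induction x using TensorProduct.induction_on with
  | zero => exact ⟨⊥, Subalgebra.fg_bot, fun B₁ _ => zero_mem _⟩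
  | tmul a b =>
    refine ⟨Algebra.adjoin k {b}, by simpa using Subalgebra.fg_adjoin_finset (R := k) {b},
      fun B₁ h => ⟨a ⊗ₜ ⟨b, h (Algebra.subset_adjoin (Set.mem_singleton b))⟩, by simp⟩⟩
  | add z w hz hw =>
    obtain ⟨B₀, h0, H0⟩ := hz
    obtain ⟨B₀', h0', H0'⟩ := hw
    exact ⟨B₀ ⊔ B₀', h0.sup h0', fun B₁ h =>
      add_mem (H0 B₁ (le_sup_left.trans h)) (H0' B₁ (le_sup_right.trans h))⟩

theorem isDomain_tensor_of_isAlgClosed (k A B : Type*) [Field k] [IsAlgClosed k]
    [CommRing A] [IsDomain A] [Algebra k A] [CommRing B] [IsDomain B] [Algebra k B] :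
    IsDomain (A ⊗[k] B) := by
  have hnt : Nontrivial (A ⊗[k] B) :=
    Algebra.TensorProduct.nontrivial_of_algebraMap_injective_of_flat_left k A B
      (algebraMap k B).injective
  have hnz : NoZeroDivisors (A ⊗[k] B) := by
    refine ⟨fun {x y} hxy => ?_⟩
    obtain ⟨B₀, h0, H0⟩ := exists_fg_subalgebra_mem_range k A B x
    obtain ⟨B₀', h0', H0'⟩ := exists_fg_subalgebra_mem_range k A B y
    let B₁ := B₀ ⊔ B₀'
    have hfg : B₁.FG := h0.sup h0'
    have : Algebra.FiniteType k B₁ := (Subalgebra.fg_iff_finiteType B₁).mp hfg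
    obtain ⟨x₁, rfl⟩ := H0 B₁ le_sup_left
    obtain ⟨y₁, rfl⟩ := H0' B₁ le_sup_right
    have hinj : Function.Injective (Algebra.TensorProduct.map (AlgHom.id k A) B₁.val) := by
      have := Module.Flat.lTensor_preserves_injective_linearMap (M := A) B₁.val.toLinearMap
        Subtype.val_injective
      exact this
    have h1 : x₁ * y₁ = 0 := hinj (by rw [map_mul, map_zero]; exact hxy)
    rcases tensor_mul_eq_zero_of_finiteType k A B₁ x₁ y₁ h1 with h | h
    · left; rw [h]; exact map_zero _
    · right; rw [h]; exact map_zero _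
  exact NoZeroDivisors.to_isDomain _

end Fermat.Agent.S27
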