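import Fermat.Agent.S27.BC.LPic
import Fermat.Agent.S27.BC.Field
import Fermat.Agent.S27.Embed
import Fermat.Agent.S27.CountC
import Fermat.Agent.S27.Up.Small
import Fermat.Agent.S27.Up.Model

/-!
# S27 / WPs D14, D15, D16 : from `ℂ` to an arbitrary algebraically closed field of characteristic 0
-/

set_option autoImplicit false

open AlgebraicCurve WithZero IntermediateField

namespace Fermat.Agent.S27

/-- **D14.** the count for constant fields which embed into `ℂ`. -/
theorem card_torsion_small (k F₀ : Type*) [Field k] [IsAlgClosed k] [CharZero k] [Field F₀]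
    [Algebra k F₀] [IsFF k F₀] (hk : Nonempty (k →+* ℂ)) (n : ℕ) (hn : 0 < n) :
    Nat.card (Pic0.torsion k F₀ n) = n ^ (2 * genusFF k F₀) :=
  card_torsion_small_proof k F₀ hk n hn

variable (K F : Type*) [Field K] [Field F] [Algebra K F] [IsAlgClosed K] [CharZero K] [IsFF K F]

/-- **D15.** `F/K` is defined over every algebraically closed subfield containing a suitable finite
set `C` of constants. -/
theorem exists_model : ∃ (C : Finset K) (t y : F), t ∉ Set.range (algebraMap K F) ∧
    ∀ k : Subfield K, IsAlgClosed k → (∀ c ∈ C, c ∈ k) →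
      IsFF k (adjoin k ({t, y} : Set F)) ∧ IsBC k K (adjoin k ({t, y} : Set F)) F :=
  Model.exists_model_aux K F

/-- **D16.** the count in general. -/
theorem card_torsion (n : ℕ) (hn : 0 < n) :
    Nat.card (Pic0.torsion K F n) = n ^ (2 * genusFF K F) := by
  classical
  obtain ⟨C, t, y, ht, hmodel⟩ := exists_model K F
  -- the count over a small model, and rationality of finitely many places
  have key : ∀ W : Finset (Place K F), ∃ R : Set (Pic0 K F), R.ncard = n ^ (2 * genusFF K F) ∧
      (Finite (Pic0.torsion K F n) → Nat.card (Pic0.torsion K F n) = n ^ (2 * genusFF K F)) ∧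
      ∀ D : Divisor K F, Divisor.degree D = 0 → (∀ w ∈ D.support, w ∈ W) → n • dcl D = 0 →
        dcl D ∈ R := by
    intro W
    obtain ⟨k, hk1, hk2, hk3⟩ := exists_small_subfield (C ∪ W.image fun w => val w t)
    obtain ⟨h1, h2⟩ := hmodel k hk1 (fun c hc => hk3 c (Finset.mem_union_left _ hc))
    have hcount : Nat.card (Pic0.torsion k (adjoin k ({t, y} : Set F)) n) =
        n ^ (2 * genusFF K F) := by
      rw [genusFF_bc k K (adjoin k ({t, y} : Set F)) F]
      exact card_torsion_small k _ (exists_ringHom_complex k) n hn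
    refine ⟨ratTorsion k (adjoin k ({t, y} : Set F)) (K := K) (F := F) n, ?_, ?_, ?_⟩
    · rw [ncard_ratTorsion, hcount]
    · intro hfin
      rw [← card_torsion_bc k K (adjoin k ({t, y} : Set F)) F n hfin, hcount]
    · intro D hD hW hn0
      refine ⟨hn0, ?_⟩
      have ht0 : t ∈ adjoin k ({t, y} : Set F) := subset_adjoin _ _ (by simp)
      have hrat : ∀ w ∈ D.support, ∃ v : Place k (adjoin k ({t, y} : Set F)),
          w = extPlace K F v := by
        intro w hw
        refine rational_of_val w (x := ⟨t, ht0⟩) ?_ (Or.inr ?_)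
        · rintro ⟨c, hc⟩
          apply ht
          refine ⟨(c : K), ?_⟩
          have := congrArg Subtype.val hc
          exact this
        · refine ⟨⟨val w t, hk3 _ (Finset.mem_union_right _ ?_)⟩, rfl⟩
          exact Finset.mem_image.2 ⟨w, hW w hw, rfl⟩
      obtain ⟨D₀, rfl⟩ := exists_eq_extDiv D hrat
      exact ⟨D₀, by rw [← degree_extDiv (K := K) (F := F) D₀]; exact hD, rfl⟩
  have hpos : 0 < n ^ (2 * genusFF K F) := pow_pos hn _
  -- finiteness
  have hfin : (Pic0.torsion K F n : Set (Pic0 K F)).Finite := by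
    by_contra hinf
    obtain ⟨s, hs, hcard⟩ := Set.Infinite.exists_subset_card_eq hinf (n ^ (2 * genusFF K F) + 1)
    choose D hD0 hD using fun x : Pic0 K F => dcl_surjective x
    obtain ⟨R, hR, -, hmem⟩ := key (s.biUnion fun x => (D x).support)
    have hRfin : R.Finite := Set.finite_of_ncard_pos (hR ▸ hpos)
    have hsub : (s : Set (Pic0 K F)) ⊆ R := by
      intro x hx
      have h1 : n • x = 0 := by
        have := Pic0.mem_torsion.1 (hs hx)
        rwa [natCast_zsmul] at this
      have := hmem (D x) (hD0 x) (fun w hw => Finset.mem_biUnion.2 ⟨x, hx, hw⟩)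
        (by rw [hD x]; exact h1)
      rwa [hD x] at this
    have := Set.ncard_le_ncard hsub hRfin
    rw [Set.ncard_coe_finset, hcard, hR] at this
    omega
  obtain ⟨R, -, h, -⟩ := key ∅
  exact h hfin

end Fermat.Agent.S27
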