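import Fermat.Agent.S27.Defs

/-!
# S27 / RR1 core (owner: helper43)

Riemann-Roch "part 1" for the Prelude objects `repartitions`, `repartitionsOf`, `H1`, `genusFF`,
with all inputs as explicit hypotheses (`RRHyp`): no hypothesis on the characteristic, no parameter.
-/

set_option autoImplicit false

open AlgebraicCurve WithZero Module

namespace Fermat.Agent.S27.Core

section LinAlg

variable {k M : Type*} [Field k] [AddCommGroup M] [Module k M]

/-- enlarging a subspace by one new vector lowers the codimension by one. -/
theorem finrank_quot_sup_span {U : Submodule k M} {x : M} (hx : x ∉ U)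
    [FiniteDimensional k (M ⧸ (U ⊔ Submodule.span k {x}))] :
    FiniteDimensional k (M ⧸ U) ∧
      finrank k (M ⧸ U) = finrank k (M ⧸ (U ⊔ Submodule.span k {x})) + 1 := by
  set W := U ⊔ Submodule.span k {x} with hW
  have hUW : U ≤ W := le_sup_left
  have hmap : Submodule.map U.mkQ W = Submodule.span k {U.mkQ x} := by
    rw [hW, Submodule.map_sup, Submodule.map_span, Set.image_singleton]
    have : Submodule.map U.mkQ U = ⊥ := by
      rw [← le_bot_iff]
      rintro _ ⟨y, hy, rfl⟩
      simpa using hy
    rw [this, bot_sup_eq]
  have hne : U.mkQ x ≠ 0 := by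
    simpa using hx
  let e := Submodule.quotientQuotientEquivQuotient U W hUW
  have h1 : FiniteDimensional k ((M ⧸ U) ⧸ Submodule.map U.mkQ W) :=
    Module.Finite.equiv e.symm
  have h2 : FiniteDimensional k (Submodule.map U.mkQ W) := by
    rw [hmap]; infer_instance
  have h3 : FiniteDimensional k (M ⧸ U) :=
    Module.Finite.of_submodule_quotient (Submodule.map U.mkQ W)
  refine ⟨h3, ?_⟩
  have h4 := Submodule.finrank_quotient_add_finrank (Submodule.map U.mkQ W)
  have h5 : finrank k (Submodule.map U.mkQ W) = 1 := by
    rw [hmap]; exact finrank_span_singleton hne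
  rw [← h4, h5, e.finrank_eq]

theorem finrank_sup_span_of_not_mem {U : Submodule k M} {x : M} (hx : x ∉ U)
    [FiniteDimensional k U] :
    finrank k ↥(U ⊔ Submodule.span k {x}) = finrank k U + 1 := by
  have hx0 : x ≠ 0 := fun h => hx (h ▸ U.zero_mem)
  have h := Submodule.finrank_sup_add_finrank_inf_eq U (Submodule.span k {x})
  have hd : U ⊓ Submodule.span k {x} = ⊥ :=
    ((Submodule.disjoint_span_singleton' hx0).mpr hx).eq_bot
  rw [hd, finrank_bot, finrank_span_singleton hx0] at h
  simpa using h

end LinAlg

variable {K F : Type*} [Field K] [Field F] [Algebra K F]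

theorem lt_exp_add_one_iff {x : ℤᵐ⁰} {n : ℤ} : x < exp (n + 1) ↔ x ≤ exp n := by
  rw [exp_add]; exact lt_mul_exp_iff_le exp_ne_zero

/-- induction on effective divisors. -/
theorem induction_nonneg {P : Divisor K F → Prop} (h0 : P 0)
    (hs : ∀ (G : Divisor K F) (v : Place K F), 0 ≤ G → P G → P (G + Finsupp.single v 1)) :
    ∀ G : Divisor K F, 0 ≤ G → P G := by
  classical
  have key : ∀ (n : ℕ) (G : Divisor K F), 0 ≤ G → (G.sum fun _ a => a) = n → P G := by
    intro n
    induction n with
    | zero =>
      intro G hG hsum
      have : G = 0 := by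
        ext v
        by_contra hv
        have hv' : v ∈ G.support := Finsupp.mem_support_iff.mpr hv
        have h1 : G v ≤ G.sum fun _ a => a :=
          Finset.single_le_sum (f := fun w => G w) (fun w _ => hG w) hv'
        have h2 : 0 ≤ G v := hG v
        rw [hsum] at h1
        simp only [Finsupp.coe_zero, Pi.zero_apply] at hv
        push_cast at h1
        omega
      rw [this]; exact h0
    | succ n ih =>
      intro G hG hsum
      have hne : G ≠ 0 := by
        rintro rfl
        simp at hsum
        omega
      obtain ⟨v, hv⟩ := Finsupp.support_nonempty_iff.mpr hne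
      have hv0 : G v ≠ 0 := Finsupp.mem_support_iff.mp hv
      have hvpos : 1 ≤ G v := by
        have : 0 ≤ G v := hG v
        omega
      set G' : Divisor K F := G - Finsupp.single v 1 with hG'
      have hGG' : G = G' + Finsupp.single v 1 := by rw [hG']; abel
      have hG'0 : 0 ≤ G' := by
        intro w
        rw [hG']
        by_cases hw : w = v
        · subst hw; simp; omega
        · have : (Finsupp.single v (1 : ℤ)) w = 0 := Finsupp.single_eq_of_ne (by simpa using hw)
          simp only [Finsupp.coe_zero, Pi.zero_apply, Finsupp.coe_sub, Pi.sub_apply, this, sub_zero]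
          exact hG w
      have hsum' : (G'.sum fun _ a => a) = n := by
        have h1 : (G.sum fun _ a => a) = (G'.sum fun _ a => a) +
            ((Finsupp.single v (1 : ℤ)).sum fun _ a => a) := by
          conv_lhs => rw [hGG']
          exact Finsupp.sum_add_index' (fun _ => rfl) (fun _ _ _ => rfl)
        rw [Finsupp.sum_single_index rfl, hsum] at h1
        push_cast at h1
        omega
      rw [hGG']
      exact hs G' v hG'0 (ih G' hG'0 hsum')
  intro G hG
  have hnn : 0 ≤ G.sum fun _ a => a := Finset.sum_nonneg fun w _ => hG w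
  exact key (G.sum fun _ a => a).toNat G hG (Int.toNat_of_nonneg hnn).symm

/-- upward induction. -/
theorem induction_up {P : Divisor K F → Prop} (D : Divisor K F) (h0 : P D)
    (hs : ∀ (E : Divisor K F) (v : Place K F), D ≤ E → P E → P (E + Finsupp.single v 1)) :
    ∀ E : Divisor K F, D ≤ E → P E := by
  intro E hE
  have := induction_nonneg (P := fun G => P (D + G)) (by simpa using h0)
    (fun G v hG hP => by
      have := hs (D + G) v (le_add_of_nonneg_right hG) hP
      rwa [add_assoc] at this) (E - D) (sub_nonneg.mpr hE)
  simpa using this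

/-- downward induction. -/
theorem induction_down {P : Divisor K F → Prop} (E : Divisor K F) (h0 : P E)
    (hs : ∀ (D : Divisor K F) (v : Place K F), P (D + Finsupp.single v 1) → P D) :
    ∀ D : Divisor K F, D ≤ E → P D := by
  intro D hD
  have := induction_nonneg (P := fun G => P (E - G)) (by simpa using h0)
    (fun G v _ hP => by
      apply hs (E - (G + Finsupp.single v 1)) v
      have : E - (G + Finsupp.single v 1) + Finsupp.single v 1 = E - G := by abel
      rwa [this]) (E - D) (sub_nonneg.mpr hD)
  simpa using this

/-! ### Adeles -/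

theorem single_apply_self (v : Place K F) (f : F) :
    ((single v f : ↥(repartitions K F)) : Place K F → F) v = f := by
  classical
  show singleFun v f v = f
  unfold singleFun
  simp

theorem single_apply_of_ne {v w : Place K F} (h : w ≠ v) (f : F) :
    ((single v f : ↥(repartitions K F)) : Place K F → F) w = 0 := by
  classical
  show singleFun v f w = 0
  unfold singleFun
  exact Pi.single_eq_of_ne h _

theorem add_single_apply_self (D : Divisor K F) (v : Place K F) :
    (D + Finsupp.single v 1 : Divisor K F) v = D v + 1 := by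
  simp

theorem add_single_apply_of_ne (D : Divisor K F) {v w : Place K F} (h : w ≠ v) :
    (D + Finsupp.single v 1 : Divisor K F) w = D w := by
  have : (Finsupp.single v (1 : ℤ)) w = 0 := Finsupp.single_eq_of_ne (by simpa using h)
  simp [this]

theorem le_add_single (D : Divisor K F) (v : Place K F) : D ≤ D + Finsupp.single v 1 := by
  apply le_add_of_nonneg_right
  intro w
  classical
  rw [Finsupp.single_apply]
  split_ifs <;> simp

/-- the constant repartition. -/
noncomputable def const (f : F) : ↥(repartitions K F) := algebraMap F _ f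

theorem const_apply (f : F) (v : Place K F) :
    ((const f : ↥(repartitions K F)) : Place K F → F) v = f := rfl

theorem const_mem (f : F) : (const f : ↥(repartitions K F)) ∈ principalRepartitions K F :=
  mem_principalRepartitions_iff.mpr ⟨f, rfl⟩

/-- `U D = A(D) + F`. -/
noncomputable abbrev U (D : Divisor K F) : Submodule K ↥(repartitions K F) :=
  repartitionsOf D ⊔ principalRepartitions K F

theorem U_mono {D E : Divisor K F} (h : D ≤ E) : U D ≤ U E :=
  sup_le_sup_right (repartitionsOf_mono h) _

theorem L_mono {D E : Divisor K F} (h : D ≤ E) : riemannRochSpace D ≤ riemannRochSpace E :=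
  fun _ hf v => (hf v).trans (exp_le_exp.mpr (Finsupp.le_def.mp h v))

theorem smul_coe_apply (c : K) (α : ↥(repartitions K F)) (v : Place K F) :
    ((c • α : ↥(repartitions K F)) : Place K F → F) v = algebraMap K F c * (α : Place K F → F) v := by
  rw [← Algebra.smul_def]
  rfl

/-- "residue fields are `K`". -/
def HasValues (K F : Type*) [Field K] [Field F] [Algebra K F] : Prop :=
  ∀ (v : Place K F) (f : F), v.adicValuation f ≤ 1 →
    ∃ c : K, v.adicValuation (f - algebraMap K F c) < 1

/-- approximation of `a` by a multiple of `s` when `v a ≤ v s`. -/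
theorem HasValues.approx (hv : HasValues K F) (v : Place K F) {a s : F} {n : ℤ}
    (hs : v.adicValuation s = exp (n + 1)) (ha : v.adicValuation a ≤ exp (n + 1)) :
    ∃ c : K, v.adicValuation (a - algebraMap K F c * s) ≤ exp n := by
  have hs0 : s ≠ 0 := by
    rintro rfl
    simp at hs
  have h1 : v.adicValuation (a / s) ≤ 1 := by
    rw [map_div₀, hs]
    exact div_le_one_of_le₀ ha zero_le
  obtain ⟨c, hc⟩ := hv v _ h1
  refine ⟨c, ?_⟩
  rw [← lt_exp_add_one_iff]
  have h2 : a - algebraMap K F c * s = (a / s - algebraMap K F c) * s := by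
    field_simp
  rw [h2, map_mul, hs]
  calc v.adicValuation (a / s - algebraMap K F c) * exp (n + 1) < 1 * exp (n + 1) :=
        mul_lt_mul_of_pos_right hc exp_pos
    _ = exp (n + 1) := one_mul _

theorem single_mem_add_single (D : Divisor K F) (v : Place K F) {s : F}
    (hs : v.adicValuation s = exp (D v + 1)) :
    single v s ∈ repartitionsOf (D + Finsupp.single v 1) := by
  intro w
  by_cases hw : w = v
  · subst hw
    rw [single_apply_self, add_single_apply_self, hs]
  · rw [single_apply_of_ne hw]; simp

/-- `A(D + v)` is spanned by `A(D)` and one more repartition. -/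
theorem repartitionsOf_add_single (hv : HasValues K F) (D : Divisor K F) (v : Place K F) {s : F}
    (hs : v.adicValuation s = exp (D v + 1)) :
    repartitionsOf (D + Finsupp.single v 1) = repartitionsOf D ⊔ Submodule.span K {single v s} := by
  apply le_antisymm
  · intro α hα
    have hαv : v.adicValuation ((α : Place K F → F) v) ≤ exp (D v + 1) := by
      have := hα v
      rwa [add_single_apply_self] at this
    obtain ⟨c, hc⟩ := hv.approx v hs hαv
    have h1 : α - c • single v s ∈ repartitionsOf D := by
      intro w
      show w.adicValuation ((α : Place K F → F) w -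
        ((c • single v s : ↥(repartitions K F)) : Place K F → F) w) ≤ _
      rw [smul_coe_apply]
      by_cases hw : w = v
      · subst hw
        rw [single_apply_self]; exact hc
      · rw [single_apply_of_ne hw, mul_zero, sub_zero]
        have := hα w
        rwa [add_single_apply_of_ne D hw] at this
    have h2 : α = (α - c • single v s) + c • single v s := by abel
    rw [h2]
    exact Submodule.add_mem_sup h1
      (Submodule.smul_mem _ _ (Submodule.mem_span_singleton_self _))
  · apply sup_le (repartitionsOf_mono (le_add_single D v))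
    rw [Submodule.span_singleton_le_iff_mem]
    exact single_mem_add_single D v hs

theorem U_add_single (hv : HasValues K F) (D : Divisor K F) (v : Place K F) {s : F}
    (hs : v.adicValuation s = exp (D v + 1)) :
    U (D + Finsupp.single v 1) = U D ⊔ Submodule.span K {single v s} := by
  unfold U
  rw [repartitionsOf_add_single hv D v hs, sup_right_comm]

/-- an element of `L(D+v)` outside `L(D)` has exact pole order at `v`. -/
theorem adic_eq_of_mem_of_not_mem {D : Divisor K F} {v : Place K F} {f : F}
    (hf : f ∈ riemannRochSpace (D + Finsupp.single v 1)) (hf' : f ∉ riemannRochSpace D) :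
    v.adicValuation f = exp (D v + 1) := by
  have h1 : ¬ v.adicValuation f ≤ exp (D v) := by
    intro h
    apply hf'
    intro w
    by_cases hw : w = v
    · subst hw; exact h
    · have := hf w
      rwa [add_single_apply_of_ne D hw] at this
  have h2 : v.adicValuation f ≤ exp (D v + 1) := by
    have := hf v
    rwa [add_single_apply_self] at this
  rw [← lt_exp_add_one_iff] at h1
  exact le_antisymm h2 (not_lt.mp h1)

theorem L_add_single_le (hv : HasValues K F) {D : Divisor K F} {v : Place K F} {f₀ : F}
    (hf : f₀ ∈ riemannRochSpace (D + Finsupp.single v 1)) (hf' : f₀ ∉ riemannRochSpace D) :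
    riemannRochSpace (D + Finsupp.single v 1) = riemannRochSpace D ⊔ Submodule.span K {f₀} := by
  have hs := adic_eq_of_mem_of_not_mem hf hf'
  apply le_antisymm
  · intro f hfL
    have hfv : v.adicValuation f ≤ exp (D v + 1) := by
      have := hfL v
      rwa [add_single_apply_self] at this
    obtain ⟨c, hc⟩ := hv.approx v hs hfv
    have h1 : f - c • f₀ ∈ riemannRochSpace D := by
      intro w
      by_cases hw : w = v
      · subst hw
        rw [Algebra.smul_def]; exact hc
      · have h3 : f - c • f₀ ∈ riemannRochSpace (D + Finsupp.single v 1) :=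
          Submodule.sub_mem _ hfL (Submodule.smul_mem _ _ hf)
        have := h3 w
        rwa [add_single_apply_of_ne D hw] at this
    have h2 : f = (f - c • f₀) + c • f₀ := by abel
    rw [h2]
    exact Submodule.add_mem_sup h1
      (Submodule.smul_mem _ _ (Submodule.mem_span_singleton_self _))
  · apply sup_le (L_mono (le_add_single D v))
    rw [Submodule.span_singleton_le_iff_mem]
    exact hf

/-- the new repartition is in `A(D) + F` iff `L(D + v)` is bigger than `L(D)`. -/
theorem single_mem_U_iff (hv : HasValues K F) (D : Divisor K F) (v : Place K F) {s : F}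
    (hs : v.adicValuation s = exp (D v + 1)) :
    single v s ∈ U D ↔ ∃ f ∈ riemannRochSpace (D + Finsupp.single v 1), f ∉ riemannRochSpace D := by
  constructor
  · intro h
    obtain ⟨β, hβ, γ, hγ, hsum⟩ := Submodule.mem_sup.mp h
    obtain ⟨f, hf⟩ := mem_principalRepartitions_iff.mp hγ
    have hpt : ∀ w : Place K F, (β : Place K F → F) w + f =
        ((single v s : ↥(repartitions K F)) : Place K F → F) w := by
      intro w
      rw [← hsum]
      show _ = (β : Place K F → F) w + (γ : Place K F → F) w
      rw [hf]
    have hfv : v.adicValuation f = exp (D v + 1) := by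
      have h1 := hpt v
      rw [single_apply_self] at h1
      have h2 : f = s - (β : Place K F → F) v := by rw [← h1]; ring
      rw [h2, Valuation.map_sub_eq_of_lt_left, hs]
      rw [hs, lt_exp_add_one_iff]
      exact hβ v
    refine ⟨f, ?_, ?_⟩
    · intro w
      by_cases hw : w = v
      · subst hw
        rw [add_single_apply_self, hfv]
      · have h1 := hpt w
        rw [single_apply_of_ne hw] at h1
        have h2 : f = - (β : Place K F → F) w := by
          rw [eq_neg_iff_add_eq_zero, add_comm]; exact h1
        rw [h2, Valuation.map_neg, add_single_apply_of_ne D hw]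
        exact hβ w
    · intro hfD
      have := hfD v
      rw [hfv, exp_le_exp] at this
      omega
  · rintro ⟨f, hf, hf'⟩
    have hfv := adic_eq_of_mem_of_not_mem hf hf'
    obtain ⟨c, hc⟩ := hv.approx v hs hfv.le
    have hc0 : c ≠ 0 := by
      rintro rfl
      rw [map_zero, zero_mul, sub_zero, hfv, exp_le_exp] at hc
      omega
    have h1 : const f - c • single v s ∈ repartitionsOf D := by
      intro w
      show w.adicValuation (((const f : ↥(repartitions K F)) : Place K F → F) w -
        ((c • single v s : ↥(repartitions K F)) : Place K F → F) w) ≤ _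
      rw [smul_coe_apply, const_apply]
      by_cases hw : w = v
      · subst hw
        rw [single_apply_self]; exact hc
      · rw [single_apply_of_ne hw, mul_zero, sub_zero]
        have := hf w
        rwa [add_single_apply_of_ne D hw] at this
    have h2 : c • single v s ∈ U D := by
      have : c • single v s = const f - (const f - c • single v s) := by abel
      rw [this]
      exact Submodule.sub_mem _ (Submodule.mem_sup_right (const_mem f))
        (Submodule.mem_sup_left h1)
    exact (Submodule.smul_mem_iff _ hc0).mp h2

theorem exists_adic_eq_exp (v : Place K F) (n : ℤ) : ∃ s : F, v.adicValuation s = exp n := by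
  obtain ⟨t, ht0, -, ht⟩ := S24.Place.exists_uniformizer v
  refine ⟨t ^ (-n), ?_⟩
  rw [map_zpow₀, v.adicValuation_eq_exp_neg_ord ht0, ht, ← exp_zsmul]
  simp

theorem mem_repartitions_iff_of
    (hfp : ∀ f : F, {v : Place K F | ¬ v.adicValuation f ≤ 1}.Finite) {α : Place K F → F} :
    α ∈ repartitions K F ↔ {v : Place K F | ¬ v.adicValuation (α v) ≤ 1}.Finite := by
  refine ⟨fun hα => ?_, mem_repartitions_of_finite⟩
  unfold repartitions at hα
  induction hα using Algebra.adjoin_induction with
  | mem x hx => exact hx
  | algebraMap f => exact hfp f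
  | add x y _ _ hx hy =>
    apply (hx.union hy).subset
    intro v hv
    by_contra hcon
    simp only [Set.mem_union, Set.mem_ofPred_eq, not_or, not_not] at hcon
    exact hv ((Valuation.map_add _ _ _).trans (max_le hcon.1 hcon.2))
  | mul x y _ _ hx hy =>
    apply (hx.union hy).subset
    intro v hv
    by_contra hcon
    simp only [Set.mem_union, Set.mem_ofPred_eq, not_or, not_not] at hcon
    apply hv
    show v.adicValuation (x v * y v) ≤ 1
    rw [map_mul]
    exact mul_le_one' hcon.1 hcon.2

/-- every repartition lies in some `A(D)`. -/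
theorem exists_mem_repartitionsOf_of
    (hfp : ∀ f : F, {v : Place K F | ¬ v.adicValuation f ≤ 1}.Finite)
    (α : ↥(repartitions K F)) (D₀ : Divisor K F) :
    ∃ D : Divisor K F, D₀ ≤ D ∧ α ∈ repartitionsOf D := by
  classical
  have hfin := (mem_repartitions_iff_of hfp).mp α.2
  let D₁ : Divisor K F := Finsupp.onFinset hfin.toFinset
    (fun v => if v.adicValuation ((α : Place K F → F) v) ≤ 1 then 0
      else - v.ord ((α : Place K F → F) v))
    (fun v hv => by
      rw [Set.Finite.mem_toFinset]
      intro hle
      exact hv (if_pos hle))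
  refine ⟨D₀ ⊔ D₁, le_sup_left, fun v => ?_⟩
  have h1 : v.adicValuation ((α : Place K F → F) v) ≤ exp (D₁ v) := by
    show _ ≤ exp (if v.adicValuation ((α : Place K F → F) v) ≤ 1 then 0
      else - v.ord ((α : Place K F → F) v))
    split_ifs with hle
    · simpa using hle
    · rw [v.adicValuation_le_exp_iff]
      right; simp
  apply h1.trans
  rw [exp_le_exp, Finsupp.sup_apply]
  exact le_sup_right

/-! ### The inputs -/

/-- the inputs of Riemann-Roch, part 1. -/
structure RRHyp (K F : Type*) [Field K] [Field F] [Algebra K F] : Prop where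
  finite_poles : ∀ f : F, {v : Place K F | ¬ v.adicValuation f ≤ 1}.Finite
  values : HasValues K F
  deg_one : ∀ v : Place K F, v.deg = 1
  finite_L : ∀ D : Divisor K F, FiniteDimensional K (riemannRochSpace D)
  finrank_L_zero : finrank K (riemannRochSpace (0 : Divisor K F)) = 1
  bound : ∃ γ : ℤ, ∀ D : Divisor K F, Divisor.degree D - finrank K (riemannRochSpace D) ≤ γ

/-- `δ D = deg D - l(D)`. -/
noncomputable def delta (D : Divisor K F) : ℤ :=
  Divisor.degree D - finrank K (riemannRochSpace D)

namespace RRHyp

variable (h : RRHyp K F)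
include h

theorem degree_add_single (D : Divisor K F) (v : Place K F) :
    Divisor.degree (D + Finsupp.single v 1) = Divisor.degree D + 1 := by
  rw [map_add, Divisor.degree_single, h.deg_one]; simp

/-- the basic dichotomy. -/
theorem step (D : Divisor K F) (v : Place K F) :
    (delta (D + Finsupp.single v 1) = delta D ∧ U (D + Finsupp.single v 1) = U D) ∨
    (delta (D + Finsupp.single v 1) = delta D + 1 ∧
      ∃ σ : ↥(repartitions K F), σ ∉ U D ∧
        U (D + Finsupp.single v 1) = U D ⊔ Submodule.span K {σ}) := by
  obtain ⟨s, hs⟩ := exists_adic_eq_exp v (D v + 1)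
  have hU := U_add_single h.values D v hs
  have hiff := single_mem_U_iff h.values D v hs
  by_cases hex : ∃ f ∈ riemannRochSpace (D + Finsupp.single v 1), f ∉ riemannRochSpace D
  · left
    have hmem := hiff.mpr hex
    obtain ⟨f, hf, hf'⟩ := hex
    constructor
    · have hL := L_add_single_le h.values hf hf'
      have := h.finite_L D
      unfold delta
      rw [hL, finrank_sup_span_of_not_mem hf', h.degree_add_single]
      push_cast; ring
    · rw [hU]
      apply sup_eq_left.mpr
      rw [Submodule.span_singleton_le_iff_mem]
      exact hmem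
  · right
    have hnmem : single v s ∉ U D := fun hm => hex (hiff.mp hm)
    refine ⟨?_, single v s, hnmem, hU⟩
    have hL : riemannRochSpace (D + Finsupp.single v 1) = riemannRochSpace D := by
      apply le_antisymm _ (L_mono (le_add_single D v))
      intro f hf
      by_contra hf'
      exact hex ⟨f, hf, hf'⟩
    unfold delta
    rw [hL, h.degree_add_single]
    ring

theorem delta_le_add_single (D : Divisor K F) (v : Place K F) :
    delta D ≤ delta (D + Finsupp.single v 1) := by
  rcases h.step D v with ⟨h1, -⟩ | ⟨h1, -⟩ <;> omega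

theorem delta_mono {D E : Divisor K F} (hDE : D ≤ E) : delta D ≤ delta E :=
  induction_up (P := fun E => delta D ≤ delta E) D le_rfl
    (fun E v _ hP => hP.trans (h.delta_le_add_single E v)) E hDE

/-- one step for `H1`. -/
theorem H1_step (D : Divisor K F) (v : Place K F)
    (hfin : FiniteDimensional K (H1 (D + Finsupp.single v 1))) :
    FiniteDimensional K (H1 D) ∧
      (finrank K (H1 D) : ℤ) + delta D =
        finrank K (H1 (D + Finsupp.single v 1)) + delta (D + Finsupp.single v 1) := by
  rcases h.step D v with ⟨h1, h2⟩ | ⟨h1, σ, hσ, h2⟩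
  · let e := Submodule.quotEquivOfEq _ _ h2
    refine ⟨Module.Finite.equiv e, ?_⟩
    rw [h1, e.finrank_eq]
  · let e := Submodule.quotEquivOfEq _ _ h2
    have : FiniteDimensional K (↥(repartitions K F) ⧸ (U D ⊔ Submodule.span K {σ})) :=
      Module.Finite.equiv e
    obtain ⟨h3, h4⟩ := finrank_quot_sup_span hσ
    refine ⟨h3, ?_⟩
    rw [h1, e.finrank_eq, h4]
    push_cast; ring

theorem mem_repartitions_iff {α : Place K F → F} :
    α ∈ repartitions K F ↔ {v : Place K F | ¬ v.adicValuation (α v) ≤ 1}.Finite :=
  mem_repartitions_iff_of h.finite_poles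

/-- every repartition lies in some `A(D)`. -/
theorem exists_mem_repartitionsOf (α : ↥(repartitions K F)) (D₀ : Divisor K F) :
    ∃ D : Divisor K F, D₀ ≤ D ∧ α ∈ repartitionsOf D :=
  exists_mem_repartitionsOf_of h.finite_poles α D₀

/-- a divisor at which `δ` is maximal. -/
theorem exists_max : ∃ B : Divisor K F, ∀ D : Divisor K F, delta D ≤ delta B := by
  obtain ⟨γ, hγ⟩ := h.bound
  obtain ⟨m, ⟨B, hB⟩, hm⟩ := Int.exists_greatest_of_bdd
    (P := fun z => ∃ D : Divisor K F, delta D = z)
    ⟨γ, by rintro z ⟨D, rfl⟩; exact hγ D⟩ ⟨_, 0, rfl⟩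
  exact ⟨B, fun D => by rw [hB]; exact hm _ ⟨D, rfl⟩⟩

theorem U_eq_top_of_max {B : Divisor K F} (hB : ∀ D : Divisor K F, delta D ≤ delta B) :
    U B = ⊤ := by
  have key : ∀ E : Divisor K F, B ≤ E → U E = U B := by
    apply induction_up (P := fun E => U E = U B) B rfl
    intro E v hBE hP
    rcases h.step E v with ⟨-, h2⟩ | ⟨h1, -⟩
    · rw [h2, hP]
    · exfalso
      have h3 := h.delta_mono hBE
      have h4 := hB (E + Finsupp.single v 1)
      omega
  rw [eq_top_iff]
  intro α _
  obtain ⟨E, hBE, hα⟩ := h.exists_mem_repartitionsOf α B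
  rw [← key E hBE]
  exact Submodule.mem_sup_left hα

omit h in
theorem H1_of_U_eq_top {E : Divisor K F} (hE : U E = ⊤) :
    FiniteDimensional K (H1 E) ∧ finrank K (H1 E) = 0 := by
  have : Subsingleton (H1 E) := Submodule.Quotient.subsingleton_iff.mpr hE
  exact ⟨inferInstance, finrank_zero_of_subsingleton⟩

/-- the main statement, in terms of a maximum of `δ`. -/
theorem H1_main {B : Divisor K F} (hB : ∀ D : Divisor K F, delta D ≤ delta B)
    (D : Divisor K F) :
    FiniteDimensional K (H1 D) ∧ (finrank K (H1 D) : ℤ) + delta D = delta B := by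
  have hBtop := h.U_eq_top_of_max hB
  have hE : U (D ⊔ B) = ⊤ := top_le_iff.mp (hBtop ▸ U_mono le_sup_right)
  have hdE : delta (D ⊔ B) = delta B := le_antisymm (hB _) (h.delta_mono le_sup_right)
  apply induction_down
    (P := fun D => FiniteDimensional K (H1 D) ∧ (finrank K (H1 D) : ℤ) + delta D = delta B)
    (D ⊔ B) _ _ D le_sup_left
  · obtain ⟨h1, h2⟩ := H1_of_U_eq_top hE
    exact ⟨h1, by rw [h2, hdE]; simp⟩
  · rintro D v ⟨h1, h2⟩
    obtain ⟨h3, h4⟩ := h.H1_step D v h1
    exact ⟨h3, h4.trans h2⟩

theorem H1_finiteDimensional (D : Divisor K F) : FiniteDimensional K (H1 D) := by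
  obtain ⟨B, hB⟩ := h.exists_max
  exact (h.H1_main hB D).1

theorem delta_zero : delta (0 : Divisor K F) = -1 := by
  unfold delta
  rw [h.finrank_L_zero]; simp

/-- **Riemann-Roch, part 1.** -/
theorem rr1 (D : Divisor K F) :
    (finrank K (riemannRochSpace D) : ℤ) - finrank K (H1 D) =
      Divisor.degree D + 1 - genusFF K F := by
  obtain ⟨B, hB⟩ := h.exists_max
  have h1 := (h.H1_main hB D).2
  have h0 := (h.H1_main hB 0).2
  rw [h.delta_zero] at h0
  have hg : (genusFF K F : ℤ) = finrank K (H1 (0 : Divisor K F)) := rfl
  rw [← hg] at h0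
  have h2 : delta D = Divisor.degree D - finrank K (riemannRochSpace D) := rfl
  omega

theorem riemann_ineq (D : Divisor K F) :
    Divisor.degree D + 1 - genusFF K F ≤ finrank K (riemannRochSpace D) := by
  have := h.rr1 D
  have h2 : (0 : ℤ) ≤ finrank K (H1 D) := Int.natCast_nonneg _
  omega

theorem finrank_H1_eq_zero_iff (D : Divisor K F) :
    finrank K (H1 D) = 0 ↔ repartitionsOf D ⊔ principalRepartitions K F = ⊤ := by
  have := h.H1_finiteDimensional D
  rw [finrank_zero_iff, Submodule.Quotient.subsingleton_iff]

theorem finrank_H1_anti {D E : Divisor K F} (hDE : D ≤ E) :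
    finrank K (H1 E) ≤ finrank K (H1 D) := by
  have h1 := h.rr1 D
  have h2 := h.rr1 E
  have h3 := h.delta_mono hDE
  unfold delta at h3
  omega

/-- there is a divisor `B` with `H1 E = 0` for all `E ≥ B`. -/
theorem exists_H1_eq_zero_of_le :
    ∃ B : Divisor K F, ∀ E : Divisor K F, B ≤ E → finrank K (H1 E) = 0 := by
  obtain ⟨B, hB⟩ := h.exists_max
  refine ⟨B, fun E hE => ?_⟩
  have := h.finrank_H1_anti hE
  have h2 := (H1_of_U_eq_top (h.U_eq_top_of_max hB)).2
  omega

omit h in
/-- multiplication by `z` identifies `L(D + div z)` with `L(D)`. -/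
theorem finrank_L_add_div (D Z : Divisor K F) {z : F} (hz : z ≠ 0)
    (hZ : ∀ v : Place K F, Z v = v.ord z) :
    finrank K (riemannRochSpace (D + Z)) = finrank K (riemannRochSpace D) := by
  let e : F ≃ₗ[K] F := (LinearEquiv.smulOfNeZero F F z hz).restrictScalars K
  have he : ∀ f : F, e f = z * f := fun f => rfl
  have hmap : (riemannRochSpace (D + Z)).map (e : F →ₗ[K] F) = riemannRochSpace D := by
    ext f
    constructor
    · rintro ⟨g, hg, rfl⟩ v
      show v.adicValuation (z * g) ≤ _
      have h1 := hg v
      rw [map_mul, v.adicValuation_eq_exp_neg_ord hz, ← hZ v]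
      calc exp (-Z v) * v.adicValuation g ≤ exp (-Z v) * exp ((D + Z : Divisor K F) v) :=
            mul_le_mul_right h1 _
        _ = exp (D v) := by
            rw [← exp_add]; congr 1; simp
    · intro hf
      refine ⟨z⁻¹ * f, fun v => ?_, ?_⟩
      · have h1 := hf v
        rw [map_mul, map_inv₀, v.adicValuation_eq_exp_neg_ord hz, ← hZ v, ← exp_neg]
        calc exp (- -Z v) * v.adicValuation f ≤ exp (- -Z v) * exp (D v) :=
              mul_le_mul_right h1 _
          _ = exp ((D + Z : Divisor K F) v) := by
              rw [← exp_add]; congr 1; simp [add_comm]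
      · show z * (z⁻¹ * f) = f
        field_simp
  rw [← hmap]
  exact (LinearEquiv.finrank_map_eq e _).symm

theorem exists_H1_eq_zero (hp : HasPrincipalDivisors K F) :
    ∃ c : ℤ, ∀ D : Divisor K F, c ≤ Divisor.degree D → finrank K (H1 D) = 0 := by
  obtain ⟨B, hB⟩ := h.exists_H1_eq_zero_of_le
  refine ⟨Divisor.degree B + genusFF K F, fun D hD => ?_⟩
  have h1 := h.riemann_ineq (D - B)
  rw [map_sub] at h1
  have h2 : 0 < finrank K (riemannRochSpace (D - B)) := by omega
  have := h.finite_L (D - B)
  have hnt : Nontrivial (riemannRochSpace (D - B)) := finrank_pos_iff.mp h2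
  obtain ⟨⟨z, hzL⟩, hz0⟩ := exists_ne (0 : riemannRochSpace (D - B))
  have hz : z ≠ 0 := fun hh => hz0 (Subtype.ext hh)
  obtain ⟨Z, hZ, hZdeg⟩ := hp.exists_divisor z hz
  have hBle : B ≤ D + Z := by
    intro v
    have h3 := (mem_riemannRochSpace_iff.mp hzL v).resolve_left hz
    rw [Finsupp.add_apply, hZ v]
    rw [Finsupp.sub_apply] at h3
    omega
  have h4 := hB _ hBle
  have h5 := h.rr1 (D + Z)
  have h6 := h.rr1 D
  rw [finrank_L_add_div D Z hz hZ, h4, map_add, hZdeg] at h5
  push_cast at h5
  omega

end RRHyp

end Fermat.Agent.S27.Core
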