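import Fermat.Agent.S27.Pic

/-!
# S27 : reduced effective representatives of classes of degree zero (owner: helper43)

Fix a place `P₀`.  An effective divisor `E` is `P₀`-reduced if `l(E - P₀) = 0`.  Every class in
`Pic0` is `bcl P₀ E = [E - (deg E) P₀]` for a unique `P₀`-reduced `E`.
-/

set_option autoImplicit false

open AlgebraicCurve WithZero Module

namespace Fermat.Agent.S27

variable {K F : Type*} [Field K] [Field F] [Algebra K F]

/-- the class `[E - (deg E) P₀]`. -/
noncomputable def bcl (P₀ : Place K F) (E : Divisor K F) : Pic0 K F :=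
  dcl (E - Divisor.degree E • Finsupp.single P₀ 1)

/-- `P₀`-reduced effective divisors. -/
def IsRed (P₀ : Place K F) (E : Divisor K F) : Prop :=
  0 ≤ E ∧ finrank K (riemannRochSpace (E - Finsupp.single P₀ 1)) = 0

variable [IsAlgClosed K] [CharZero K] [IsFF K F]

theorem degree_sub_smul (P₀ : Place K F) (E : Divisor K F) :
    Divisor.degree (E - Divisor.degree E • Finsupp.single P₀ 1) = 0 := by
  rw [map_sub, map_zsmul, degree_single_one]; simp

omit [IsAlgClosed K] [CharZero K] [IsFF K F] in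
theorem one_mem_L {E : Divisor K F} (hE : 0 ≤ E) : (1 : F) ∈ riemannRochSpace E := by
  intro v
  rw [map_one, ← exp_zero, exp_le_exp]
  exact hE v

theorem finrank_L_pos {E : Divisor K F} (hE : 0 ≤ E) : 0 < finrank K (riemannRochSpace E) := by
  have : Nontrivial (riemannRochSpace E) :=
    ⟨⟨⟨1, one_mem_L hE⟩, 0, fun h => one_ne_zero (congrArg Subtype.val h)⟩⟩
  exact finrank_pos

theorem exists_ne_zero_mem_L {D : Divisor K F} (h : finrank K (riemannRochSpace D) ≠ 0) :
    ∃ f : F, f ≠ 0 ∧ f ∈ riemannRochSpace D := by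
  have hnt : Nontrivial (riemannRochSpace D) := finrank_pos_iff.mp (Nat.pos_of_ne_zero h)
  obtain ⟨⟨z, hzL⟩, hz0⟩ := exists_ne (0 : riemannRochSpace D)
  exact ⟨z, fun hh => hz0 (Subtype.ext hh), hzL⟩

theorem IsRed.finrank_L {P₀ : Place K F} {E : Divisor K F} (h : IsRed P₀ E) :
    finrank K (riemannRochSpace E) = 1 := by
  have h1 := finrank_L_add_single_le (E - Finsupp.single P₀ 1) P₀
  rw [sub_add_cancel, h.2] at h1
  have h2 := finrank_L_pos h.1
  omega

/-- an effective divisor with `l = 1` is alone in its linear equivalence class. -/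
theorem eq_of_linEq_of_finrank {E E' : Divisor K F} (hE : 0 ≤ E)
    (hl : finrank K (riemannRochSpace E) = 1) (hE' : 0 ≤ E') (h : LinEq E' E) : E' = E := by
  obtain ⟨f, hf, hDf⟩ := mem_principal_iff.1 h
  have hmem : f ∈ riemannRochSpace E := by
    rw [mem_riemannRochSpace_iff]
    intro v
    right
    have h1 : (E' - E) v = v.ord f := by rw [hDf, divOf_apply]
    rw [Finsupp.sub_apply] at h1
    have h2 : 0 ≤ E' v := hE' v
    omega
  obtain ⟨c, hc⟩ := (finrank_eq_one_iff_of_nonzero' (⟨1, one_mem_L hE⟩ : riemannRochSpace E)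
    (fun h => one_ne_zero (congrArg Subtype.val h))).mp hl ⟨f, hmem⟩
  have hcf : f = algebraMap K F c := by
    have := congrArg Subtype.val hc
    simp only [Submodule.coe_smul] at this
    rw [← this, Algebra.smul_def, mul_one]
  have hc0 : c ≠ 0 := by
    rintro rfl
    exact hf (by rw [hcf, map_zero])
  have h0 : E' - E = 0 := by
    rw [hDf, hcf]
    ext v
    rw [divOf_apply, Finsupp.zero_apply, Place.ord, adic_algebraMap v hc0]
    simp
  exact sub_eq_zero.1 h0

theorem bcl_eq_iff (P₀ : Place K F) (E E' : Divisor K F) :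
    bcl P₀ E = bcl P₀ E' ↔ LinEq (E - Divisor.degree E • Finsupp.single P₀ 1)
      (E' - Divisor.degree E' • Finsupp.single P₀ 1) := by
  unfold bcl
  rw [← sub_eq_zero, ← dcl_sub (degree_sub_smul P₀ E) (degree_sub_smul P₀ E'),
    dcl_sub_eq_zero_iff (by rw [degree_sub_smul, degree_sub_smul])]

theorem IsRed.degree_le {P₀ : Place K F} {E E' : Divisor K F} (hE : 0 ≤ E) (h' : IsRed P₀ E')
    (heq : bcl P₀ E = bcl P₀ E') : Divisor.degree E' ≤ Divisor.degree E := by
  by_contra hlt
  push Not at hlt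
  rw [bcl_eq_iff] at heq
  -- `E' - P₀ ~ E + (m' - m - 1) P₀ ≥ 0`
  set m := Divisor.degree E
  set m' := Divisor.degree E'
  have h1 : LinEq (E + (m' - m - 1) • Finsupp.single P₀ 1) (E' - Finsupp.single P₀ 1) := by
    have := heq.add (LinEq.refl ((m' - 1) • Finsupp.single P₀ (1 : ℤ)))
    have e1 : E - m • Finsupp.single P₀ 1 + (m' - 1) • Finsupp.single P₀ (1 : ℤ) =
        E + (m' - m - 1) • Finsupp.single P₀ 1 := by
      simp only [sub_smul, one_smul]; abel
    have e2 : E' - m' • Finsupp.single P₀ 1 + (m' - 1) • Finsupp.single P₀ (1 : ℤ) =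
        E' - Finsupp.single P₀ 1 := by
      simp only [sub_smul, one_smul]; abel
    rwa [e1, e2] at this
  have h2 : 0 ≤ E + (m' - m - 1) • Finsupp.single P₀ (1 : ℤ) := by
    apply add_nonneg hE
    apply smul_nonneg (by omega)
    intro w
    classical
    rw [Finsupp.single_apply]
    split_ifs <;> simp
  have h3 := finrank_L_pos h2
  rw [finrank_L_of_linEq h1, h'.2] at h3
  exact lt_irrefl _ h3

/-- uniqueness of the reduced representative. -/
theorem IsRed.eq_of_bcl_eq {P₀ : Place K F} {E E' : Divisor K F} (h : IsRed P₀ E)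
    (h' : IsRed P₀ E') (heq : bcl P₀ E = bcl P₀ E') : E = E' := by
  have hd : Divisor.degree E = Divisor.degree E' :=
    le_antisymm (IsRed.degree_le h'.1 h heq.symm) (IsRed.degree_le h.1 h' heq)
  rw [bcl_eq_iff, hd] at heq
  have h1 : LinEq E E' := by
    have := heq.add (LinEq.refl (Divisor.degree E' • Finsupp.single P₀ (1 : ℤ)))
    rwa [sub_add_cancel, sub_add_cancel] at this
  exact eq_of_linEq_of_finrank h'.1 h'.finrank_L h.1 h1

/-- existence of the reduced representative. -/
theorem exists_isRed (P₀ : Place K F) (x : Pic0 K F) : ∃ E : Divisor K F, IsRed P₀ E ∧ bcl P₀ E = x := by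
  classical
  obtain ⟨D, hD, rfl⟩ := dcl_surjective x
  have hne : ∃ d : ℕ, ∃ E : Divisor K F, 0 ≤ E ∧ Divisor.degree E = d ∧ bcl P₀ E = dcl D := by
    obtain ⟨R, hR⟩ := exists_effective (g := genusFF K F) rfl
      (D + (genusFF K F : ℤ) • Finsupp.single P₀ 1)
      (by rw [map_add, map_zsmul, degree_single_one, hD]; simp)
    refine ⟨genusFF K F, sumDiv R, NS.sumDiv_nonneg R, by rw [degree_sumDiv]; simp, ?_⟩
    unfold bcl
    have hdeg : Divisor.degree (sumDiv R) = (genusFF K F : ℤ) := by rw [degree_sumDiv]; simp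
    rw [hdeg, ← sub_eq_zero, ← dcl_sub (by rw [← hdeg]; exact degree_sub_smul P₀ _) hD,
      dcl_sub_eq_zero_iff (by rw [← hdeg, degree_sub_smul, hD])]
    have := hR.symm.add (LinEq.refl (-((genusFF K F : ℤ) • Finsupp.single P₀ (1 : ℤ))))
    rwa [← sub_eq_add_neg, ← sub_eq_add_neg, add_sub_cancel_right] at this
  obtain ⟨E, hE, hdeg, hcl⟩ := Nat.find_spec hne
  refine ⟨E, ⟨hE, ?_⟩, hcl⟩
  by_contra hl
  obtain ⟨f, hf, hfL⟩ := exists_ne_zero_mem_L hl
  have hE' := effective_of_mem_L hf hfL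
  have hdeg' : Divisor.degree (E - Finsupp.single P₀ 1 + divOf f) = (Nat.find hne : ℤ) - 1 := by
    rw [map_add, map_sub, degree_divOf hf, degree_single_one, hdeg]; ring
  have hnn := FFBase.degree_nonneg hE'
  rw [hdeg'] at hnn
  have hpos : 1 ≤ Nat.find hne := by omega
  apply Nat.find_min hne (m := Nat.find hne - 1) (by omega)
  refine ⟨_, hE', by rw [hdeg']; push_cast [hpos]; ring, ?_⟩
  rw [← hcl, bcl_eq_iff, hdeg', hdeg]
  unfold LinEq
  have : E - Finsupp.single P₀ 1 + divOf f - ((Nat.find hne : ℤ) - 1) • Finsupp.single P₀ (1 : ℤ) -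
      (E - (Nat.find hne : ℤ) • Finsupp.single P₀ (1 : ℤ)) = divOf f := by
    simp only [sub_smul, one_smul]; abel
  rw [this]
  exact mem_principal_iff.2 ⟨f, hf, rfl⟩

/-- the reduced divisors whose class is `n`-torsion. -/
def redTorsion (P₀ : Place K F) (n : ℕ) : Set (Divisor K F) :=
  {E | IsRed P₀ E ∧ n • bcl P₀ E = 0}

theorem finite_redTorsion (P₀ : Place K F) (n : ℕ) (hfin : Finite (Pic0.torsion K F n)) :
    (redTorsion P₀ n).Finite := by
  have hfin' : {x : Pic0 K F | n • x = 0}.Finite := by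
    have : {x : Pic0 K F | n • x = 0} = (Pic0.torsion K F n : Set (Pic0 K F)) := by
      ext x
      simp only [Set.mem_ofPred_eq, SetLike.mem_coe, Pic0.mem_torsion, natCast_zsmul]
    rw [this]
    exact Set.toFinite _
  apply Set.Finite.of_finite_image (f := bcl P₀)
  · exact hfin'.subset (by rintro _ ⟨E, hE, rfl⟩; exact hE.2)
  · intro E hE E' hE' h
    exact hE.1.eq_of_bcl_eq hE'.1 h

end Fermat.Agent.S27
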