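import Fermat.Agent.S27.Weil

/-!
# S27 / WP A4 : non special divisors of degree `g`
-/

set_option autoImplicit false
set_option linter.unusedSectionVars false

open AlgebraicCurve WithZero Module

namespace Fermat.Agent.S27

variable {K F : Type*} [Field K] [Field F] [Algebra K F]

/-- matrix of leading coefficients of the differentials `b i` at the places `P j`
with respect to the uniformizers `t j`. -/
noncomputable def cfMatrix {g : ℕ} (b : Fin g → WD K F) (P : Fin g → Place K F) (t : Fin g → F) :
    Matrix (Fin g) (Fin g) K :=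
  Matrix.of fun i j => (b i).loc (P j) (t j)⁻¹

/-- `P 0 + ... + P (g-1)` is a non special divisor with distinct points. -/
structure IsNS {g : ℕ} (P : Fin g → Place K F) : Prop where
  inj : Function.Injective P
  l_eq : finrank K (riemannRochSpace (sumDiv P)) = 1
  h1_eq : finrank K (H1 (sumDiv P)) = 0

namespace NS

theorem sumDiv_nonneg {ι : Type*} [Fintype ι] (P : ι → Place K F) : 0 ≤ sumDiv P :=
  Finset.sum_nonneg fun _ _ => Finsupp.single_nonneg.2 zero_le_one

theorem sumDiv_apply {ι : Type*} [Fintype ι] (P : ι → Place K F) (v : Place K F) :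
    sumDiv P v = ∑ j, (Finsupp.single (P j) (1 : ℤ)) v := by
  unfold sumDiv
  rw [Finsupp.finsetSum_apply]

theorem one_le_sumDiv_apply {ι : Type*} [Fintype ι] (P : ι → Place K F) (j : ι) :
    1 ≤ sumDiv P (P j) := by
  rw [sumDiv_apply]
  have h : ∀ i ∈ Finset.univ, 0 ≤ (Finsupp.single (P i) (1 : ℤ)) (P j) := fun i _ =>
    (Finsupp.single_nonneg.2 zero_le_one : (0 : Place K F →₀ ℤ) ≤ Finsupp.single (P i) (1 : ℤ)) (P j)
  have := Finset.single_le_sum h (Finset.mem_univ j)
  simpa using this

theorem sumDiv_apply_of_ne {ι : Type*} [Fintype ι] (P : ι → Place K F) {v : Place K F}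
    (h : ∀ j, P j ≠ v) : sumDiv P v = 0 := by
  rw [sumDiv_apply]
  exact Finset.sum_eq_zero fun j _ => Finsupp.single_eq_of_ne (h j).symm

theorem sumDiv_cons {n : ℕ} (v : Place K F) (R : Fin n → Place K F) :
    sumDiv (Fin.cons v R : Fin (n + 1) → Place K F) = Finsupp.single v 1 + sumDiv R := by
  unfold sumDiv
  rw [Fin.sum_univ_succ]
  simp

end NS

variable [IsAlgClosed K] [CharZero K] [IsFF K F]

theorem degree_sumDiv {ι : Type*} [Fintype ι] (P : ι → Place K F) :
    Divisor.degree (sumDiv P) = Fintype.card ι := by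
  unfold sumDiv
  rw [map_sum]
  simp [deg_eq_one]


namespace NS

theorem single_mem_repartitionsOf {ι : Type*} [Fintype ι] (P : ι → Place K F) (j : ι) {s : F}
    (hs : (P j).adicValuation s ≤ exp (1 : ℤ)) : single (P j) s ∈ repartitionsOf (sumDiv P) := by
  classical
  intro v
  show v.adicValuation (singleFun (P j) s v) ≤ exp (sumDiv P v)
  unfold singleFun
  by_cases h : v = P j
  · subst h
    rw [Pi.single_eq_same]
    exact hs.trans (exp_le_exp.2 (one_le_sumDiv_apply P j))
  · rw [Pi.single_eq_of_ne h]
    simp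

end NS

theorem isNS_of_det {g : ℕ} (hg : genusFF K F = g) (b : Fin g → WD K F) (P : Fin g → Place K F)
    (hP : Function.Injective P) (t : Fin g → F)
    (ht : ∀ j, (P j).adicValuation (t j) = exp (-1 : ℤ)) (hdet : (cfMatrix b P t).det ≠ 0) :
    IsNS P := by
  classical
  -- the classes `e j`
  set e : Fin g → H1 (0 : Divisor K F) := fun j => H1mk (0 : Divisor K F) (single (P j) (t j)⁻¹) with he
  have hbe : ∀ i j, b i (e j) = cfMatrix b P t i j := fun i j => rfl
  have hli : LinearIndependent K e := by
    rw [Fintype.linearIndependent_iff]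
    intro c hc
    have h0 : (cfMatrix b P t).mulVec c = 0 := by
      funext i
      have := congrArg (b i) hc
      rw [map_sum, map_zero] at this
      simp only [map_smul, smul_eq_mul, hbe] at this
      simp only [Matrix.mulVec, dotProduct, Pi.zero_apply]
      rw [← this]
      exact Finset.sum_congr rfl fun j _ => mul_comm _ _
    have := Matrix.eq_zero_of_mulVec_eq_zero hdet h0
    intro i
    rw [this]; rfl
  have hspan : Submodule.span K (Set.range e) = ⊤ := by
    apply hli.span_eq_top_of_card_eq_finrank'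
    rw [Fintype.card_fin, ← hg]
    rfl
  have h1 : finrank K (H1 (sumDiv P)) = 0 := by
    rw [finrank_H1_eq_zero_iff, eq_top_iff]
    intro α _
    have hα : H1mk (0 : Divisor K F) α ∈ Submodule.span K (Set.range e) := by rw [hspan]; trivial
    have hre : Set.range e = (H1mk (0 : Divisor K F)) '' (Set.range fun j => single (P j) (t j)⁻¹) := by
      rw [← Set.range_comp]; rfl
    rw [hre, ← Submodule.map_span] at hα
    obtain ⟨β, hβ, hβα⟩ := hα
    have hβ' : β ∈ repartitionsOf (sumDiv P) := by
      refine (Submodule.span_le.2 ?_) hβ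
      rintro _ ⟨j, rfl⟩
      apply NS.single_mem_repartitionsOf
      rw [map_inv₀, ht, ← exp_neg, neg_neg]
    have hker : α - β ∈ repartitionsOf (0 : Divisor K F) ⊔ principalRepartitions K F := by
      have : H1mk (0 : Divisor K F) (α - β) = 0 := by rw [map_sub, hβα, sub_self]
      rwa [H1mk, Submodule.mkQ_apply, Submodule.Quotient.mk_eq_zero] at this
    have hle : repartitionsOf (0 : Divisor K F) ⊔ principalRepartitions K F ≤
        repartitionsOf (sumDiv P) ⊔ principalRepartitions K F :=
      sup_le_sup_right (repartitionsOf_mono (NS.sumDiv_nonneg P)) _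
    have := Submodule.add_mem _ (hle hker) (Submodule.mem_sup_left hβ' :
      β ∈ repartitionsOf (sumDiv P) ⊔ principalRepartitions K F)
    simpa using this
  refine ⟨hP, ?_, h1⟩
  have := rr1 (sumDiv P)
  rw [h1, degree_sumDiv, Fintype.card_fin, hg] at this
  have h2 : (finrank K (riemannRochSpace (sumDiv P)) : ℤ) = 1 := by
    simpa using this
  exact_mod_cast h2

theorem IsNS.mem_L_iff {g : ℕ} {P : Fin g → Place K F} (h : IsNS P) {f : F} :
    f ∈ riemannRochSpace (sumDiv P) ↔ f ∈ Set.range (algebraMap K F) := by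
  rw [← mem_L_zero_iff]
  have : riemannRochSpace (0 : Divisor K F) = riemannRochSpace (sumDiv P) :=
    Submodule.eq_of_le_of_finrank_eq (L_mono (NS.sumDiv_nonneg P)) (by rw [finrank_L_zero, h.l_eq])
  rw [this]

theorem IsNS.finrank_add {g : ℕ} (hg : genusFF K F = g) {P : Fin g → Place K F} (h : IsNS P)
    (R : Place K F) : finrank K (riemannRochSpace (sumDiv P + Finsupp.single R 1)) = 2 := by
  have h1 : finrank K (H1 (sumDiv P + Finsupp.single R 1)) = 0 := by
    have : sumDiv P ≤ sumDiv P + Finsupp.single R 1 :=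
      le_add_of_nonneg_right (Finsupp.single_nonneg.2 zero_le_one)
    have := finrank_H1_anti this
    rw [h.h1_eq] at this
    omega
  have := rr1 (sumDiv P + Finsupp.single R 1)
  rw [h1, map_add, degree_sumDiv, Fintype.card_fin, hg, Divisor.degree_single, deg_eq_one] at this
  have h2 : (finrank K (riemannRochSpace (sumDiv P + Finsupp.single R 1)) : ℤ) = 2 := by
    push_cast at this
    linarith
  exact_mod_cast h2


namespace NS

/-- in `ℤᵐ⁰`: `x ≤ exp (n+1)` and `x ≠ exp (n+1)` imply `x ≤ exp n`. -/
theorem le_exp_of_le_of_ne {x : ℤᵐ⁰} {n : ℤ} (h : x ≤ exp (n + 1)) (hne : x ≠ exp (n + 1)) :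
    x ≤ exp n := by
  rcases eq_or_ne x 0 with rfl | hx
  · simp
  · obtain ⟨m, rfl⟩ : ∃ m : ℤ, x = exp m := ⟨log x, (exp_log hx).symm⟩
    rw [exp_le_exp] at h ⊢
    have : m ≠ n + 1 := fun h' => hne (by rw [h'])
    omega

/-- If `l(D + v) > l(D)` there is a function in `L(D+v)` with exact pole order at `v`. -/
theorem exists_exact_pole {D : Divisor K F} {v : Place K F}
    (h : finrank K (riemannRochSpace D) < finrank K (riemannRochSpace (D + Finsupp.single v 1))) :
    ∃ φ : F, φ ∈ riemannRochSpace (D + Finsupp.single v 1) ∧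
      v.adicValuation φ = exp (D v + 1) := by
  classical
  by_contra hcon
  push Not at hcon
  have hle : riemannRochSpace (D + Finsupp.single v 1) ≤ riemannRochSpace D := by
    intro φ hφ w
    by_cases hw : w = v
    · subst hw
      have h1 := hφ w
      rw [Finsupp.add_apply, Finsupp.single_eq_same] at h1
      exact le_exp_of_le_of_ne h1 (hcon φ hφ)
    · have h1 := hφ w
      rwa [Finsupp.add_apply, Finsupp.single_eq_of_ne hw, add_zero] at h1
  exact absurd (Submodule.finrank_mono hle) (not_le.2 h)

end NS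

/-- a non constant function in `L(P + R)`; it has a pole at `R`. -/
theorem IsNS.exists_pencil {g : ℕ} (hg : genusFF K F = g) {P : Fin g → Place K F} (h : IsNS P)
    (R : Place K F) (hR : ∀ j, P j ≠ R) :
    ∃ φ : F, φ ∈ riemannRochSpace (sumDiv P + Finsupp.single R 1) ∧
      R.adicValuation φ = exp (1 : ℤ) := by
  have := NS.exists_exact_pole (D := sumDiv P) (v := R) (by rw [h.l_eq, h.finrank_add hg]; norm_num)
  rwa [NS.sumDiv_apply_of_ne P hR, zero_add] at this

theorem IsNS.eq_of_linEq {g : ℕ} {P : Fin g → Place K F} (h : IsNS P) {D : Divisor K F}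
    (hD : 0 ≤ D) (hl : LinEq D (sumDiv P)) : D = sumDiv P := by
  obtain ⟨f, hf, hDf⟩ := mem_principal_iff.1 hl
  have hmem : f ∈ riemannRochSpace (sumDiv P) := by
    rw [mem_riemannRochSpace_iff]
    intro v
    right
    have h1 : (D - sumDiv P) v = v.ord f := by rw [hDf, divOf_apply]
    rw [Finsupp.sub_apply] at h1
    have h2 : 0 ≤ D v := hD v
    omega
  obtain ⟨c, rfl⟩ := h.mem_L_iff.1 hmem
  have hc : c ≠ 0 := by
    rintro rfl
    exact hf (map_zero _)
  have h0 : D - sumDiv P = 0 := by
    rw [hDf]
    ext v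
    rw [divOf_apply, Finsupp.zero_apply, Place.ord, adic_algebraMap v hc]
    simp
  exact sub_eq_zero.1 h0

namespace NS

/-- the vanishing of the leading coefficient does not depend on the uniformizer. -/
theorem loc_inv_eq_zero (lam : WD K F) (v : Place K F) {s t : F}
    (hs : v.adicValuation s = exp (-1 : ℤ)) (ht : v.adicValuation t = exp (-1 : ℤ))
    (h : lam.loc v t⁻¹ = 0) : lam.loc v s⁻¹ = 0 := by
  rw [WD.loc_inv_unif lam v hs ht, h, mul_zero]

/-- `lam ↦ lam.loc v f` as a linear form. -/
noncomputable def locL (v : Place K F) (f : F) : WD K F →ₗ[K] K :=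
  LinearMap.applyₗ (H1mk (0 : Divisor K F) (single v f))

theorem locL_apply (v : Place K F) (f : F) (lam : WD K F) : locL v f lam = lam.loc v f := rfl

theorem finrank_inf_ker {V : Type*} [AddCommGroup V] [Module K V] [FiniteDimensional K V]
    (W : Submodule K V) (l : V →ₗ[K] K) {x : V} (hx : x ∈ W) (hlx : l x ≠ 0) :
    finrank K ↥(W ⊓ LinearMap.ker l) + 1 = finrank K W := by
  have h := LinearMap.finrank_range_add_finrank_ker (l ∘ₗ W.subtype)
  have hne : l ∘ₗ W.subtype ≠ 0 := by
    intro h0
    apply hlx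
    have := congrArg (fun φ => φ ⟨x, hx⟩) h0
    simpa using this
  rw [LinearMap.range_eq_top.2 (LinearMap.surjective hne), finrank_top, finrank_self,
    LinearMap.ker_comp, ← Submodule.finrank_map_subtype_eq, Submodule.map_comap_subtype] at h
  omega

theorem exists_places_aux (k : ℕ) : ∀ (W : Submodule K (WD K F)) (_ : finrank K W = k)
    (S : Set (Place K F)) (_ : S.Finite),
    ∃ P : Fin k → Place K F, Function.Injective P ∧ (∀ j, P j ∉ S) ∧
      ∀ lam ∈ W, (∀ j, ∀ t : F, (P j).adicValuation t = exp (-1 : ℤ) →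
        lam.loc (P j) t⁻¹ = 0) → lam = 0 := by
  induction k with
  | zero =>
    intro W hW S _
    refine ⟨Fin.elim0, fun i => i.elim0, fun i => i.elim0, fun lam hlam _ => ?_⟩
    rw [Submodule.finrank_eq_zero] at hW
    rw [hW] at hlam
    simpa using hlam
  | succ k ih =>
    intro W hW S hS
    have hWne : W ≠ ⊥ := by
      rintro rfl
      simp at hW
    obtain ⟨lam₀, hlam₀, hne⟩ := Submodule.exists_mem_ne_zero_of_ne_bot hWne
    obtain ⟨v, hvS, t, ht, hvt⟩ : ∃ v ∉ S, ∃ t : F, v.adicValuation t = exp (-1 : ℤ) ∧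
        lam₀.loc v t⁻¹ ≠ 0 := by
      by_contra hcon
      push Not at hcon
      exact hne (WD.eq_zero_of_loc lam₀ S hS hcon)
    have hfr := finrank_inf_ker W (locL v t⁻¹) hlam₀ hvt
    obtain ⟨P', hP'inj, hP'S, hP'⟩ := ih (W ⊓ LinearMap.ker (locL v t⁻¹)) (by omega)
      (S ∪ {v}) (hS.union (Set.finite_singleton v))
    refine ⟨Fin.cons v P', ?_, ?_, ?_⟩
    · rw [Fin.cons_injective_iff]
      refine ⟨?_, hP'inj⟩
      rintro ⟨j, hj⟩
      exact hP'S j (Or.inr hj)
    · intro j
      refine Fin.cases ?_ (fun j => ?_) j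
      · simpa using hvS
      · simpa using fun h => hP'S j (Or.inl h)
    · intro lam hlam hvan
      apply hP' lam
      · refine ⟨hlam, ?_⟩
        have := hvan 0 t (by simpa using ht)
        simpa [LinearMap.mem_ker, locL_apply] using this
      · intro j s hs
        have := hvan j.succ s (by simpa using hs)
        simpa using this

end NS

theorem exists_det_ne_zero {g : ℕ} (b : Fin g → WD K F)
    (hb : LinearIndependent K b) (S : Set (Place K F)) (hS : S.Finite) :
    ∃ P : Fin g → Place K F, Function.Injective P ∧ (∀ j, P j ∉ S) ∧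
      ∀ t : Fin g → F, (∀ j, (P j).adicValuation (t j) = exp (-1 : ℤ)) →
        (cfMatrix b P t).det ≠ 0 := by
  classical
  obtain ⟨P, hPinj, hPS, hP⟩ := NS.exists_places_aux g (Submodule.span K (Set.range b))
    (by rw [finrank_span_eq_card hb, Fintype.card_fin]) S hS
  refine ⟨P, hPinj, hPS, fun t ht hdet => ?_⟩
  obtain ⟨c, hc, hcM⟩ := Matrix.exists_vecMul_eq_zero_iff.2 hdet
  apply hc
  have hlam : ∑ i, c i • b i = 0 := by
    apply hP
    · exact Submodule.sum_mem _ fun i _ =>
        Submodule.smul_mem _ _ (Submodule.subset_span (Set.mem_range_self i))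
    · intro j s hs
      apply NS.loc_inv_eq_zero _ _ hs (ht j)
      have := congrFun hcM j
      simp only [Matrix.vecMul, dotProduct, Pi.zero_apply] at this
      rw [← NS.locL_apply, map_sum, ← this]
      refine Finset.sum_congr rfl fun i _ => ?_
      rw [map_smul, smul_eq_mul]
      rfl
  funext i
  exact Fintype.linearIndependent_iff.1 hb c hlam i

namespace NS

theorem eq_zero_of_degree_eq_zero {E : Divisor K F} (hE : 0 ≤ E) (hd : Divisor.degree E = 0) :
    E = 0 := by
  rw [degree_eq_sum E E.support subset_rfl] at hd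
  have := (Finset.sum_eq_zero_iff_of_nonneg fun v _ => hE v).1 hd
  ext v
  by_cases hv : v ∈ E.support
  · exact this v hv
  · simpa using hv

theorem exists_eq_sumDiv (n : ℕ) : ∀ E : Divisor K F, 0 ≤ E → Divisor.degree E = n →
    ∃ R : Fin n → Place K F, E = sumDiv R := by
  induction n with
  | zero =>
    intro E hE hd
    refine ⟨Fin.elim0, ?_⟩
    rw [eq_zero_of_degree_eq_zero hE (by simpa using hd)]
    simp [sumDiv]
  | succ n ih =>
    intro E hE hd
    classical
    obtain ⟨v, hv⟩ : ∃ v, E v ≠ 0 := by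
      by_contra hcon
      push Not at hcon
      have : E = 0 := Finsupp.ext hcon
      rw [this, map_zero] at hd
      have : (0 : ℤ) < ((n + 1 : ℕ) : ℤ) := by positivity
      omega
    have hv1 : 1 ≤ E v := by
      have : 0 ≤ E v := hE v
      omega
    have hE' : 0 ≤ E - Finsupp.single v 1 := by
      intro w
      rw [Finsupp.sub_apply, Finsupp.zero_apply]
      by_cases hw : w = v
      · subst hw
        rw [Finsupp.single_eq_same]; omega
      · rw [Finsupp.single_eq_of_ne hw]
        have : 0 ≤ E w := hE w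
        omega
    obtain ⟨R, hR⟩ := ih (E - Finsupp.single v 1) hE' (by
      rw [map_sub, hd, Divisor.degree_single, deg_eq_one]
      push_cast; ring)
    refine ⟨Fin.cons v R, ?_⟩
    rw [sumDiv_cons, ← hR]
    abel

end NS

/-- every divisor of degree `g` is linearly equivalent to a sum of `g` places. -/
theorem exists_effective {g : ℕ} (hg : genusFF K F = g) (D : Divisor K F)
    (hD : Divisor.degree D = g) : ∃ R : Fin g → Place K F, LinEq D (sumDiv R) := by
  have h1 := riemann_ineq D
  rw [hD, hg] at h1
  have hne : riemannRochSpace D ≠ ⊥ := by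
    intro h0
    rw [h0] at h1
    simp at h1
  obtain ⟨f, hfD, hf⟩ := Submodule.exists_mem_ne_zero_of_ne_bot hne
  obtain ⟨R, hR⟩ := NS.exists_eq_sumDiv g (D + divOf f) (effective_of_mem_L hf hfD)
    (by rw [map_add, hD, degree_divOf hf, add_zero])
  refine ⟨R, ?_⟩
  unfold LinEq
  rw [← hR]
  have : D - (D + divOf f) = -divOf f := by abel
  rw [this]
  exact neg_mem (mem_principal_iff.2 ⟨f, hf, rfl⟩)

/-- a function with a pole at `v` and no other pole. -/
theorem exists_single_pole (v : Place K F) :
    ∃ f : F, ¬ v.adicValuation f ≤ 1 ∧ ∀ w : Place K F, w ≠ v → w.adicValuation f ≤ 1 := by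
  classical
  set D : Divisor K F := Finsupp.single v ((genusFF K F : ℤ) + 1) with hDdef
  have h1 := riemann_ineq D
  rw [hDdef, Divisor.degree_single, deg_eq_one] at h1
  rw [← hDdef] at h1
  have h2 : 2 ≤ finrank K (riemannRochSpace D) := by
    have : (2 : ℤ) ≤ finrank K (riemannRochSpace D) := by
      push_cast at h1
      linarith
    exact_mod_cast this
  have hnle : ¬ riemannRochSpace D ≤ riemannRochSpace (0 : Divisor K F) := by
    intro hle
    have := Submodule.finrank_mono hle
    rw [finrank_L_zero] at this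
    omega
  obtain ⟨f, hfD, hf0⟩ := SetLike.not_le_iff_exists.1 hnle
  have hw : ∀ w : Place K F, w ≠ v → w.adicValuation f ≤ 1 := by
    intro w hw
    have := hfD w
    rwa [hDdef, Finsupp.single_eq_of_ne hw, exp_zero] at this
  refine ⟨f, fun hv => hf0 ?_, hw⟩
  intro w
  rw [Finsupp.zero_apply, exp_zero]
  by_cases h : w = v
  · rw [h]; exact hv
  · exact hw w h

end Fermat.Agent.S27
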