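import Fermat.Agent.S27.Defs

/-!
# S27 / WP V : values of functions at places, global finiteness facts
All statements are consequences of the S24/FF library (`S24.IsFiniteParam`).
-/

set_option autoImplicit false

open AlgebraicCurve WithZero

namespace Fermat.Agent.S27

variable {K F : Type*} [Field K] [Field F] [Algebra K F]

section NoHyp

variable (v : Place K F)

theorem adic_le_one_iff_mem {f : F} : v.adicValuation f ≤ 1 ↔ f ∈ v.toValuationSubring := by
  rw [v.adicValuation_le_one_iff]
  rcases eq_or_ne f 0 with rfl | hf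
  · simp [v.toValuationSubring.zero_mem]
  · rw [S24.Place.mem_iff_ord_nonneg v hf]
    simp [hf]

theorem adic_algebraMap {c : K} (hc : c ≠ 0) : v.adicValuation (algebraMap K F c) = 1 := by
  have h0 : algebraMap K F c ≠ 0 := by simpa using hc
  rw [v.adicValuation_eq_exp_neg_ord h0, S24.Place.ord_algebraMap]
  simp

theorem adic_lt_one_iff {f : F} : v.adicValuation f < 1 ↔ v.adicValuation f ≤ exp (-1 : ℤ) := by
  rcases eq_or_ne f 0 with rfl | hf
  · simp
  · rw [v.adicValuation_eq_exp_neg_ord hf, ← exp_zero, exp_lt_exp, exp_le_exp]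
    omega

theorem adic_lt_one_iff_ord {f : F} : v.adicValuation f < 1 ↔ f = 0 ∨ 0 < v.ord f := by
  rcases eq_or_ne f 0 with rfl | hf
  · simp
  · rw [v.adicValuation_eq_exp_neg_ord hf, ← exp_zero, exp_lt_exp]
    simp [hf]

theorem exists_unif : ∃ t : F, v.adicValuation t = exp (-1 : ℤ) := by
  obtain ⟨t, ht0, _, ht⟩ := S24.Place.exists_uniformizer v
  exact ⟨t, by rw [v.adicValuation_eq_exp_neg_ord ht0, ht]⟩

theorem val_unique {f : F} {c : K} (h : v.adicValuation (f - algebraMap K F c) < 1) :
    val v f = c := by
  have hex : ∃ c : K, v.adicValuation (f - algebraMap K F c) < 1 := ⟨c, h⟩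
  unfold val
  rw [dif_pos hex]
  by_contra hne
  have h1 := hex.choose_spec
  have h2 : v.adicValuation (algebraMap K F (hex.choose - c)) < 1 := by
    have : algebraMap K F (hex.choose - c) =
        (f - algebraMap K F c) - (f - algebraMap K F hex.choose) := by
      rw [map_sub]; ring
    rw [this]
    exact lt_of_le_of_lt (Valuation.map_sub _ _ _) (max_lt h h1)
  rw [adic_algebraMap v (sub_ne_zero.2 hne)] at h2
  exact lt_irrefl _ h2

theorem val_algebraMap (c : K) : val v (algebraMap K F c) = c := by
  apply val_unique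
  simp

theorem val_of_pole {f : F} (hf : ¬ v.adicValuation f ≤ 1) : val v f = 0 := by
  unfold val
  rw [dif_neg]
  rintro ⟨c, hc⟩
  apply hf
  have : f = (f - algebraMap K F c) + algebraMap K F c := by ring
  rw [this]
  exact (Valuation.map_add _ _ _).trans (max_le hc.le (v.adicValuation_algebraMap_le_one c))

end NoHyp

section FF

variable [IsAlgClosed K] [CharZero K] [IsFF K F] (v : Place K F)

theorem val_spec {f : F} (hf : v.adicValuation f ≤ 1) :
    v.adicValuation (f - algebraMap K F (val v f)) < 1 := by
  obtain ⟨x, hx⟩ := IsFF.exists_param (K := K) (F := F)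
  obtain ⟨c, hc⟩ := hx.exists_value v ((adic_le_one_iff_mem v).1 hf)
  have h : v.adicValuation (f - algebraMap K F c) < 1 := by
    rw [adic_lt_one_iff_ord]
    rcases hc with hc | hc
    · left; rw [hc, sub_self]
    · right; exact hc
  rw [val_unique v h]
  exact h

theorem val_add {f g : F} (hf : v.adicValuation f ≤ 1) (hg : v.adicValuation g ≤ 1) :
    val v (f + g) = val v f + val v g := by
  apply val_unique
  have : f + g - algebraMap K F (val v f + val v g) =
      (f - algebraMap K F (val v f)) + (g - algebraMap K F (val v g)) := by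
    rw [map_add]; ring
  rw [this]
  exact lt_of_le_of_lt (Valuation.map_add _ _ _) (max_lt (val_spec v hf) (val_spec v hg))

theorem val_sub {f g : F} (hf : v.adicValuation f ≤ 1) (hg : v.adicValuation g ≤ 1) :
    val v (f - g) = val v f - val v g := by
  apply val_unique
  have : f - g - algebraMap K F (val v f - val v g) =
      (f - algebraMap K F (val v f)) - (g - algebraMap K F (val v g)) := by
    rw [map_sub]; ring
  rw [this]
  exact lt_of_le_of_lt (Valuation.map_sub _ _ _) (max_lt (val_spec v hf) (val_spec v hg))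

theorem val_mul {f g : F} (hf : v.adicValuation f ≤ 1) (hg : v.adicValuation g ≤ 1) :
    val v (f * g) = val v f * val v g := by
  apply val_unique
  have : f * g - algebraMap K F (val v f * val v g) =
      (f - algebraMap K F (val v f)) * g +
        algebraMap K F (val v f) * (g - algebraMap K F (val v g)) := by
    rw [map_mul]; ring
  rw [this]
  refine lt_of_le_of_lt (Valuation.map_add _ _ _) (max_lt ?_ ?_)
  · rw [map_mul]
    exact lt_of_le_of_lt (mul_le_of_le_one_right' hg) (val_spec v hf)
  · rw [map_mul]
    exact lt_of_le_of_lt (mul_le_of_le_one_left' (v.adicValuation_algebraMap_le_one _))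
      (val_spec v hg)

theorem val_one : val v (1 : F) = 1 := by
  have := val_algebraMap v (1 : K)
  rwa [map_one] at this

theorem val_pow {f : F} (hf : v.adicValuation f ≤ 1) (n : ℕ) : val v (f ^ n) = val v f ^ n := by
  induction n with
  | zero => simp [val_one]
  | succ n ih =>
    rw [pow_succ, val_mul v (by rw [map_pow]; exact pow_le_one' hf n) hf, ih, pow_succ]

theorem val_eq_zero_iff {f : F} (hf : v.adicValuation f ≤ 1) :
    val v f = 0 ↔ v.adicValuation f < 1 := by
  constructor
  · intro h
    have := val_spec v hf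
    rwa [h, map_zero, sub_zero] at this
  · intro h
    apply val_unique
    rwa [map_zero, sub_zero]

theorem val_inv {f : F} (hf : v.adicValuation f = 1) : val v f⁻¹ = (val v f)⁻¹ := by
  have hf0 : f ≠ 0 := by
    rintro rfl
    simp at hf
  have h1 : v.adicValuation f⁻¹ = 1 := by rw [map_inv₀, hf, inv_one]
  have h2 := val_mul v hf.le h1.le
  rw [mul_inv_cancel₀ hf0, val_one] at h2
  exact eq_inv_of_mul_eq_one_right h2.symm

theorem adic_aeval_le_one {f : F} (hf : v.adicValuation f ≤ 1) (p : Polynomial K) :
    v.adicValuation (Polynomial.aeval f p) ≤ 1 := by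
  rw [Polynomial.aeval_eq_sum_range]
  apply Valuation.map_sum_le
  intro i _
  rw [Algebra.smul_def, map_mul, map_pow]
  exact mul_le_one' (v.adicValuation_algebraMap_le_one _) (pow_le_one' hf _)

theorem val_aeval {f : F} (hf : v.adicValuation f ≤ 1) (p : Polynomial K) :
    val v (Polynomial.aeval f p) = p.eval (val v f) := by
  induction p using Polynomial.induction_on' with
  | add p q hp hq =>
    rw [map_add, val_add v (adic_aeval_le_one v hf p) (adic_aeval_le_one v hf q), hp, hq,
      Polynomial.eval_add]
  | monomial n a =>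
    rw [Polynomial.aeval_monomial, Polynomial.eval_monomial,
      val_mul v (v.adicValuation_algebraMap_le_one _) (by rw [map_pow]; exact pow_le_one' hf n),
      val_algebraMap, val_pow v hf]

theorem deg_eq_one : v.deg = 1 := by
  obtain ⟨x, hx⟩ := IsFF.exists_param (K := K) (F := F)
  exact hx.deg_eq_one v

theorem finite_ord_ne_zero (f : F) : {v : Place K F | v.ord f ≠ 0}.Finite := by
  obtain ⟨x, hx⟩ := IsFF.exists_param (K := K) (F := F)
  exact hx.finite_support_ord f

theorem finite_poles (f : F) : {v : Place K F | ¬ v.adicValuation f ≤ 1}.Finite := by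
  refine (finite_ord_ne_zero (K := K) f).subset ?_
  intro v hv
  have : v.ord f < 0 := v.not_adicValuation_le_one_iff.1 hv
  exact this.ne

theorem finite_zeros {f : F} (hf : f ≠ 0) : {v : Place K F | v.adicValuation f < 1}.Finite := by
  refine (finite_ord_ne_zero (K := K) f).subset ?_
  intro v hv
  have : 0 < v.ord f := ((adic_lt_one_iff_ord v).1 hv).resolve_left hf
  exact this.ne'

theorem degree_eq_sum (D : Divisor K F) (S : Finset (Place K F)) (hS : D.support ⊆ S) :
    Divisor.degree D = ∑ v ∈ S, D v := by
  obtain ⟨x, hx⟩ := IsFF.exists_param (K := K) (F := F)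
  exact hx.degree_eq_sum_of_subset D S hS

theorem sum_ord_eq_zero {f : F} (hf : f ≠ 0) (S : Finset (Place K F))
    (hS : ∀ v : Place K F, v.ord f ≠ 0 → v ∈ S) : ∑ v ∈ S, v.ord f = 0 := by
  obtain ⟨x, hx⟩ := IsFF.exists_param (K := K) (F := F)
  obtain ⟨D, hD⟩ := hx.exists_divisor f
  have h1 := hx.degree_eq_zero_of_principal f hf D hD
  rw [degree_eq_sum D S (by
    intro v hv
    rw [Finsupp.mem_support_iff, hD v] at hv
    exact hS v hv)] at h1
  rw [← h1]
  exact Finset.sum_congr rfl fun v _ => (hD v).symm

/-- a function without poles is constant. -/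
theorem const_of_no_pole {f : F} (h : ∀ v : Place K F, v.adicValuation f ≤ 1) :
    ∃ c : K, f = algebraMap K F c := by
  obtain ⟨x, hx⟩ := IsFF.exists_param (K := K) (F := F)
  by_contra hne
  have hf : f ∉ Set.range (algebraMap K F) := by
    rintro ⟨c, rfl⟩
    exact hne ⟨c, rfl⟩
  have hp := hx.of_not_mem_range hf
  have h1 := hp.sum_poles
  have h2 : hp.finite_poles.toFinset = ∅ := by
    ext v
    simp only [Set.Finite.mem_toFinset, Set.mem_ofPred_eq, Finset.notMem_empty, iff_false, not_lt]
    rcases (v.adicValuation_le_one_iff).1 (h v) with h0 | h0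
    · rw [h0]; simp
    · exact h0
  rw [h2, Finset.sum_empty] at h1
  haveI := hp.finite
  have h3 : 0 < Module.finrank (IntermediateField.adjoin K {f}) F := Module.finrank_pos
  omega

/-- a non constant function takes every value. -/
theorem exists_place_val {f : F} (hf : f ∉ Set.range (algebraMap K F)) (c : K) :
    ∃ v : Place K F, v.adicValuation (f - algebraMap K F c) < 1 := by
  obtain ⟨x, hx⟩ := IsFF.exists_param (K := K) (F := F)
  have hp := hx.of_not_mem_range hf
  have h1 := hp.sum_fibre c
  haveI := hp.finite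
  have h3 : 0 < Module.finrank (IntermediateField.adjoin K {f}) F := Module.finrank_pos
  have h4 : (hp.finite_fibre c).toFinset.Nonempty := by
    rw [Finset.nonempty_iff_ne_empty]
    intro h0
    rw [h0, Finset.sum_empty] at h1
    omega
  obtain ⟨v, hv⟩ := h4
  rw [Set.Finite.mem_toFinset] at hv
  exact ⟨v, (adic_lt_one_iff_ord v).2 (Or.inr hv)⟩

variable (K F) in
theorem exists_nonconst : ∃ f : F, f ∉ Set.range (algebraMap K F) := by
  obtain ⟨x, hx⟩ := IsFF.exists_param (K := K) (F := F)
  refine ⟨x, ?_⟩
  rintro ⟨c, rfl⟩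
  exact hx.transcendental (isAlgebraic_algebraMap c)

variable (K F) in
theorem infinite_places : Infinite (Place K F) := by
  obtain ⟨f, hf⟩ := exists_nonconst K F
  choose P hP using exists_place_val (K := K) hf
  refine Infinite.of_injective P ?_
  intro c d hcd
  rw [← val_unique _ (hP c), ← val_unique _ (hP d), hcd]

/-- the divisor of a nonzero function. -/
noncomputable def divOf (f : F) : Divisor K F :=
  Finsupp.onFinset (finite_ord_ne_zero (K := K) f).toFinset (fun v => v.ord f)
    (fun v hv => by simpa using hv)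

theorem divOf_apply (f : F) (v : Place K F) : divOf (K := K) f v = v.ord f := rfl

theorem degree_divOf {f : F} (hf : f ≠ 0) : Divisor.degree (divOf (K := K) f) = 0 := by
  obtain ⟨x, hx⟩ := IsFF.exists_param (K := K) (F := F)
  exact hx.degree_eq_zero_of_principal f hf _ (fun v => divOf_apply f v)

theorem mem_principal_iff {D : Divisor K F} :
    D ∈ Divisor.principal (K := K) (F := F) ↔ ∃ f : F, f ≠ 0 ∧ D = divOf f := by
  rw [Divisor.mem_principal]
  constructor
  · rintro ⟨f, hf, h⟩
    exact ⟨f, hf, Finsupp.ext fun v => by rw [h v, divOf_apply]⟩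
  · rintro ⟨f, hf, rfl⟩
    exact ⟨f, hf, fun v => divOf_apply f v⟩
/-- a parameter regular at finitely many given places. -/
theorem exists_regular_param (S : Finset (Place K F)) :
    ∃ y : F, S24.IsFiniteParam K y ∧ ∀ v ∈ S, y ∈ v.toValuationSubring := by
  classical
  obtain ⟨x, hx⟩ := IsFF.exists_param (K := K) (F := F)
  obtain ⟨c, hc⟩ := Infinite.exists_notMem_finset (S.image fun v => val v x)
  refine ⟨(x - algebraMap K F c)⁻¹, (hx.sub_const c).inv, ?_⟩
  intro v hv
  rw [← adic_le_one_iff_mem, map_inv₀]
  have h1 : ¬ v.adicValuation (x - algebraMap K F c) < 1 := by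
    intro h
    exact hc (Finset.mem_image.2 ⟨v, hv, val_unique v h⟩)
  exact inv_le_one_of_one_le₀ (not_lt.1 h1)

theorem adic_place {y : F} (hy : S24.IsFiniteParam K y)
    (w : IsDedekindDomain.HeightOneSpectrum (S24.intRing K y)) (f : F) :
    haveI := hy.isDedekindDomain
    haveI := hy.isFractionRing
    (hy.place w).adicValuation f = w.valuation F f := by
  haveI := hy.isDedekindDomain
  haveI := hy.isFractionRing
  haveI := S24.IsFiniteParam.isScalarTower_intRing (K := K) (y := y)
  rcases eq_or_ne f 0 with rfl | hf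
  · simp
  · rw [(hy.place w).adicValuation_eq_exp_neg_ord hf]
    have h := S24.ord_ofHeightOneSpectrum (K := K) (F := F) w hf
    have h' : (hy.place w).ord f = -(WithZero.log (w.valuation F f)) := h
    rw [h', neg_neg, exp_log ((Valuation.ne_zero_iff _).mpr hf)]

/-- weak approximation. -/
theorem exists_approx (S : Finset (Place K F)) (a : Place K F → F) (n : ℤ) :
    ∃ f : F, ∀ v ∈ S, v.adicValuation (f - a v) ≤ exp (-n) := by
  classical
  obtain ⟨y, hy, hyS⟩ := exists_regular_param (K := K) S
  haveI := hy.isDedekindDomain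
  haveI := hy.isFractionRing
  haveI := S24.IsFiniteParam.isScalarTower_intRing (K := K) (y := y)
  choose w hw using fun v : {v // v ∈ S} => hy.exists_eq_place v.1 (hyS v.1 v.2)
  obtain ⟨d, hd⟩ := IsLocalization.exist_integer_multiples_of_finset
    (nonZeroDivisors (S24.intRing K y)) (S.image a)
  choose r hr using fun v : {v // v ∈ S} => hd (a v.1) (Finset.mem_image_of_mem a v.2)
  have hd0 : algebraMap (S24.intRing K y) F d ≠ 0 :=
    S24.algebraMap_ne_zero' (nonZeroDivisors.ne_zero d.2)
  let e : {v // v ∈ S} → ℕ := fun v => (n + v.1.ord (algebraMap (S24.intRing K y) F d)).toNat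
  obtain ⟨b, hb⟩ := IsDedekindDomain.exists_forall_sub_mem_ideal (s := Finset.univ)
    (fun v => (w v).asIdeal) e (fun v _ => (w v).prime)
    (fun v _ v' _ hne h => hne (Subtype.ext (by
      rw [hw v, hw v', IsDedekindDomain.HeightOneSpectrum.ext h]))) (fun v => r v.1)
  refine ⟨algebraMap (S24.intRing K y) F b / algebraMap (S24.intRing K y) F d, ?_⟩
  intro v hv
  have h1 := hb ⟨v, hv⟩ (Finset.mem_univ _)
  have h2 : algebraMap (S24.intRing K y) F b / algebraMap (S24.intRing K y) F d - a v =
      algebraMap (S24.intRing K y) F (b - r ⟨v, hv⟩) / algebraMap (S24.intRing K y) F d := by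
    have h3 := hr ⟨v, hv⟩
    rw [Algebra.smul_def] at h3
    rw [map_sub, h3]
    field_simp
  rw [h2, map_div₀, v.adicValuation_eq_exp_neg_ord hd0]
  have h4 : v.adicValuation (algebraMap (S24.intRing K y) F (b - r ⟨v, hv⟩)) ≤
      exp (-(e ⟨v, hv⟩ : ℤ)) := by
    have h5 : v = hy.place (w ⟨v, hv⟩) := hw ⟨v, hv⟩
    have h6 : ∀ z : F, v.adicValuation z = (hy.place (w ⟨v, hv⟩)).adicValuation z := by
      intro z; rw [← h5]
    rw [h6, adic_place hy, IsDedekindDomain.HeightOneSpectrum.valuation_of_algebraMap,
      IsDedekindDomain.HeightOneSpectrum.intValuation_le_pow_iff_mem]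
    exact h1
  rw [div_le_iff₀ (by simp), ← exp_add]
  refine h4.trans ?_
  rw [exp_le_exp]
  have : n + v.ord (algebraMap (S24.intRing K y) F d) ≤ (e ⟨v, hv⟩ : ℤ) := Int.self_le_toNat _
  omega

/-- prescribing values at finitely many places. -/
theorem exists_val_eq (S : Finset (Place K F)) (c : Place K F → K) :
    ∃ f : F, ∀ v ∈ S, v.adicValuation (f - algebraMap K F (c v)) < 1 := by
  obtain ⟨f, hf⟩ := exists_approx S (fun v => algebraMap K F (c v)) 1
  exact ⟨f, fun v hv => (adic_lt_one_iff v).2 (hf v hv)⟩

/-- two places at which all functions have the same regularity are equal: separation. -/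
theorem exists_sep {v w : Place K F} (h : v ≠ w) :
    ∃ f : F, v.adicValuation f < 1 ∧ w.adicValuation (f - 1) < 1 := by
  classical
  obtain ⟨f, hf⟩ := exists_val_eq {v, w} (fun u => if u = v then (0 : K) else 1)
  refine ⟨f, ?_, ?_⟩
  · simpa using hf v (by simp)
  · simpa [h.symm] using hf w (by simp)

/-- separation of finitely many places by one function regular at all of them. -/
theorem exists_sep_finset (S : Finset (Place K F)) :
    ∃ f : F, (∀ v ∈ S, v.adicValuation f ≤ 1) ∧ Set.InjOn (fun v => val v f) (S : Set (Place K F)) := by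
  classical
  obtain ⟨g, hg⟩ : ∃ g : Place K F → K, Set.InjOn g (S : Set (Place K F)) := by
    obtain ⟨e⟩ : Nonempty ({v // v ∈ S} ↪ K) :=
      ⟨((Fintype.equivFin {v // v ∈ S}).toEmbedding.trans Fin.valEmbedding).trans
        (Infinite.natEmbedding K)⟩
    refine ⟨fun v => if h : v ∈ S then e ⟨v, h⟩ else 0, ?_⟩
    intro v hv v' hv' h
    have hv1 : v ∈ S := hv
    have hv2 : v' ∈ S := hv'
    simp only [hv1, hv2, dif_pos] at h
    exact congrArg Subtype.val (e.injective h)
  obtain ⟨f, hf⟩ := exists_val_eq S g
  refine ⟨f, ?_, ?_⟩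
  · intro v hv
    have : f = (f - algebraMap K F (g v)) + algebraMap K F (g v) := by ring
    rw [this]
    exact (Valuation.map_add _ _ _).trans
      (max_le (hf v hv).le (v.adicValuation_algebraMap_le_one _))
  · intro v hv v' hv' h
    simp only [val_unique _ (hf v hv), val_unique _ (hf v' hv')] at h
    exact hg hv hv' h

end FF

end Fermat.Agent.S27
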