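import Fermat.Agent.S27.Defs

/-!
# S27 / (E0) : `IsCurveOver K F` + `EssFiniteType K F` (char. 0) gives a finite parameter
(owner: helper12)
-/

set_option autoImplicit false
set_option linter.style.haveILetI false

open AlgebraicCurve IntermediateField
open scoped IntermediateField.algebraAdjoinAdjoin TensorProduct KaehlerDifferential

namespace Fermat.Agent.S27

variable {K F : Type*} [Field K] [Field F] [Algebra K F]

/-- In characteristic zero, a transcendence basis of `F/K` gives a basis of `Ω[F⁄K]`. -/
theorem exists_basis_kaehler_of_isTranscendenceBasis [CharZero K] {ι : Type*} {x : ι → F}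
    (hx : IsTranscendenceBasis K x) : Nonempty (Module.Basis ι F Ω[F⁄K]) := by
  let S := MvPolynomial ι K
  let A₀ := Algebra.adjoin K (Set.range x)
  let L := IntermediateField.adjoin K (Set.range x)
  let e : S ≃ₐ[K] A₀ := hx.1.aevalEquiv
  letI : Algebra S A₀ := e.toAlgHom.toAlgebra
  haveI : IsScalarTower K S A₀ := IsScalarTower.of_algebraMap_eq fun r => (e.commutes r).symm
  let e' : S ≃ₐ[S] A₀ := AlgEquiv.ofRingEquiv (f := e.toRingEquiv) (fun r => rfl)
  haveI : Algebra.FormallyEtale S A₀ := Algebra.FormallyEtale.of_equiv e'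
  let b₀ : Module.Basis ι A₀ Ω[A₀⁄K] :=
    ((KaehlerDifferential.mvPolynomialBasis K ι).baseChange A₀).map
      (KaehlerDifferential.tensorKaehlerEquivOfFormallyEtale K S A₀)
  haveI : Algebra.FormallyEtale A₀ L :=
    Algebra.FormallyEtale.of_isLocalization (nonZeroDivisors A₀)
  haveI : CharZero L := charZero_of_injective_algebraMap (algebraMap K L).injective
  haveI : Algebra.IsAlgebraic L F := hx.isAlgebraic_field
  haveI : Algebra.FormallyEtale L F := Algebra.FormallyEtale.of_isSeparable L F
  haveI : Algebra.FormallyEtale A₀ F := Algebra.FormallyEtale.comp A₀ L F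
  exact ⟨(b₀.baseChange F).map (KaehlerDifferential.tensorKaehlerEquivOfFormallyEtale K A₀ F)⟩

/-- a transcendence basis with one element of an essentially finitely generated field extension
is a finite parameter. -/
theorem isFiniteParam_of_isTranscendenceBasis [Algebra.EssFiniteType K F] {f : F}
    (hb : IsTranscendenceBasis K (fun _ : Unit => f)) : S24.IsFiniteParam K f := by
  refine ⟨algebraicIndependent_unique_type_iff.1 hb.1, ?_⟩
  have halg := hb.isAlgebraic_field
  rw [Set.range_const] at halg
  haveI : Algebra.EssFiniteType K⟮f⟯ F := Algebra.EssFiniteType.of_comp K K⟮f⟯ F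
  obtain ⟨s, hs⟩ := IntermediateField.fg_top K⟮f⟯ F
  have hfin := finiteDimensional_adjoin (K := K⟮f⟯) (S := (s : Set F))
    fun x _ => (halg.isAlgebraic x).isIntegral
  rw [hs] at hfin
  exact topEquiv.toLinearEquiv.finiteDimensional

/-- **(E0)** the hypotheses of S27 give a function field in one variable in the sense of `IsFF`. -/
theorem isFF_of_finrank_kaehler [CharZero K] [Algebra.EssFiniteType K F]
    (h : Module.finrank F Ω[F⁄K] = 1) : IsFF K F := by
  obtain ⟨ι, x, hx⟩ := exists_isTranscendenceBasis' K F
  obtain ⟨b⟩ := exists_basis_kaehler_of_isTranscendenceBasis hx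
  rw [Module.finrank_eq_nat_card_basis b, Nat.card_eq_one_iff_unique] at h
  obtain ⟨h1, ⟨i⟩⟩ := h
  refine ⟨x i, isFiniteParam_of_isTranscendenceBasis ?_⟩
  let e : Unit ≃ ι :=
    { toFun := fun _ => i
      invFun := fun _ => ()
      left_inv := fun _ => rfl
      right_inv := fun j => Subsingleton.elim _ _ }
  exact hx.comp_equiv e

theorem isFF_of_isCurveOver_aux [CharZero K] [IsCurveOver K F] [Algebra.EssFiniteType K F] :
    IsFF K F :=
  isFF_of_finrank_kaehler IsCurveOver.finrank_kaehler

end Fermat.Agent.S27
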