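import Fermat.Agent.S27.Sys

/-!
# S27 / WP C3 : adding a point (owner: helper12)

Consequences of the conclusion of the pencil lemma (taken here as a hypothesis `hpen`, so that this
file does not depend on `Pencil.lean`), injectivity of `Psi` and connectedness of the disc.
-/

set_option autoImplicit false

open AlgebraicCurve WithZero Topology Metric

namespace Fermat.Agent.S27

/-- a locally constant equivalence relation on a preconnected open set is trivial. -/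
theorem rel_of_isPreconnected {X : Type*} [TopologicalSpace X] {s : Set X}
    (hs : IsPreconnected s) (ho : IsOpen s) (R : X → X → Prop)
    (hsymm : ∀ a b, R a b → R b a) (htrans : ∀ a b c, R a b → R b c → R a c)
    (hloc : ∀ z₀ ∈ s, ∀ᶠ z in 𝓝 z₀, R z z₀) {x y : X} (hx : x ∈ s) (hy : y ∈ s) : R y x := by
  let u : Set X := {a | a ∈ s ∧ R a x}
  let v : Set X := {a | a ∈ s ∧ ¬ R a x}
  have hu : IsOpen u := by
    rw [isOpen_iff_eventually]
    rintro a ⟨has, ha⟩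
    filter_upwards [ho.mem_nhds has, hloc a has] with z hz1 hz2
    exact ⟨hz1, htrans _ _ _ hz2 ha⟩
  have hv : IsOpen v := by
    rw [isOpen_iff_eventually]
    rintro a ⟨has, ha⟩
    filter_upwards [ho.mem_nhds has, hloc a has] with z hz1 hz2
    exact ⟨hz1, fun h => ha (htrans _ _ _ (hsymm _ _ hz2) h)⟩
  have h1 : s ⊆ u ∪ v := by
    intro a ha
    by_cases h : R a x
    · exact Or.inl ⟨ha, h⟩
    · exact Or.inr ⟨ha, h⟩
  have h2 : s ∩ (u ∩ v) = ∅ := by
    ext a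
    simp only [Set.mem_inter_iff, Set.mem_empty_iff_false, iff_false]
    rintro ⟨-, ⟨-, h⟩, ⟨-, h'⟩⟩
    exact h' h
  rcases isPreconnected_iff_subset_of_disjoint.1 hs u v hu hv h1 h2 with h | h
  · exact (h hy).2
  · exact absurd (hloc x hx).self_of_nhds (h hx).2

variable {F : Type*} [Field F] [Algebra ℂ F] [IsFF ℂ F] {g : ℕ}

theorem Chart.I_center (ch : Chart F) (b : Fin g → WD ℂ F) : ch.I b ch.c = 0 := by
  funext i
  exact ch.prim_center (b i)

/-- **C3**, with the conclusion of the pencil lemma as a hypothesis. -/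
theorem Sys.add_point_of_pencil (S : Sys F g) (b : Fin g → WD ℂ F) {ρ : ℝ}
    (hS : S.Good b ρ) (c0 : Chart F)
    (hpen : ∀ w₀ ∈ S.dom, ∀ z₀ ∈ c0.dom, ∀ᶠ z in 𝓝 z₀, ∃ w ∈ S.dom,
      LinEq (sumDiv (S.pt w) + Finsupp.single (c0.Q z) 1)
        (sumDiv (S.pt w₀) + Finsupp.single (c0.Q z₀) 1) ∧
      S.Psi b w + c0.I b z = S.Psi b w₀ + c0.I b z₀)
    {w : Fin g → ℂ} (hw : w ∈ S.dom) {z : ℂ} (hz : z ∈ c0.dom)
    (hsmall : ∀ z' ∈ c0.dom, ‖S.Psi b w + c0.I b z - c0.I b z'‖ < ρ) :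
    ∃ w' ∈ S.dom, S.Psi b w' = S.Psi b w + c0.I b z ∧
      LinEq (sumDiv (S.pt w') + Finsupp.single c0.P 1)
        (sumDiv (S.pt w) + Finsupp.single (c0.Q z) 1) := by
  classical
  have hv : ∀ z' : ℂ, ∃ v : Fin g → ℂ, z' ∈ c0.dom →
      v ∈ S.dom ∧ S.Psi b v = S.Psi b w + c0.I b z - c0.I b z' := by
    intro z'
    by_cases h : z' ∈ c0.dom
    · obtain ⟨v, hv1, hv2⟩ := hS.surj _ (hsmall z' h)
      exact ⟨v, fun _ => ⟨hv1, hv2⟩⟩
    · exact ⟨0, fun h' => absurd h' h⟩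
  choose v hv using hv
  let B : ℂ → Divisor ℂ F := fun z' => sumDiv (S.pt (v z')) + Finsupp.single (c0.Q z') 1
  have hloc : ∀ z₀ ∈ c0.dom, ∀ᶠ z' in 𝓝 z₀, LinEq (B z') (B z₀) := by
    intro z₀ hz₀
    have h1 := hpen (v z₀) (hv z₀ hz₀).1 z₀ hz₀
    have h2 : ∀ᶠ z' in 𝓝 z₀, z' ∈ c0.dom := isOpen_ball.mem_nhds hz₀
    filter_upwards [h1, h2] with z' h1 hz'
    obtain ⟨w'', hw'', hlin, hPsi⟩ := h1
    have e : w'' = v z' := by
      refine hS.inj hw'' (hv z' hz').1 ?_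
      rw [(hv z' hz').2]
      rw [(hv z₀ hz₀).2, sub_add_cancel] at hPsi
      rw [← hPsi, add_sub_cancel_right]
    rw [e] at hlin
    exact hlin
  have key : LinEq (B c0.c) (B z) :=
    rel_of_isPreconnected (convex_ball c0.c c0.r).isPreconnected isOpen_ball
      (fun a a' => LinEq (B a) (B a')) (fun _ _ h => h.symm) (fun _ _ _ h h' => h.trans h')
      hloc hz c0.center_mem
  have hvz : v z = w := by
    refine hS.inj (hv z hz).1 hw ?_
    rw [(hv z hz).2, add_sub_cancel_right]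
  refine ⟨v c0.c, (hv _ c0.center_mem).1, ?_, ?_⟩
  · rw [(hv _ c0.center_mem).2, Chart.I_center, sub_zero]
  · have h3 : B z = sumDiv (S.pt w) + Finsupp.single (c0.Q z) 1 := by
      show sumDiv (S.pt (v z)) + Finsupp.single (c0.Q z) 1 = _
      rw [hvz]
    rw [h3] at key
    exact key

/-- **C3'**, with the conclusion of the pencil lemma as a hypothesis. -/
theorem Sys.e_add_I_of_pencil (S : Sys F g) (b : Fin g → WD ℂ F) {ρ : ℝ}
    (hS : S.Good b ρ) (c0 : Chart F)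
    (hpen : ∀ w₀ ∈ S.dom, ∀ z₀ ∈ c0.dom, ∀ᶠ z in 𝓝 z₀, ∃ w ∈ S.dom,
      LinEq (sumDiv (S.pt w) + Finsupp.single (c0.Q z) 1)
        (sumDiv (S.pt w₀) + Finsupp.single (c0.Q z₀) 1) ∧
      S.Psi b w + c0.I b z = S.Psi b w₀ + c0.I b z₀)
    {u : Fin g → ℂ} {z : ℂ} (hz : z ∈ c0.dom)
    (hsmall : ∀ z' ∈ c0.dom, ‖u + c0.I b z - c0.I b z'‖ < ρ) :
    S.e b (u + c0.I b z) = S.e b u + pd (c0.Q z) c0.P := by
  have hu : ‖u‖ < ρ := by
    have := hsmall z hz
    rwa [add_sub_cancel_right] at this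
  obtain ⟨w, hw, rfl⟩ := hS.surj u hu
  obtain ⟨w', hw', hPsi, hlin⟩ := S.add_point_of_pencil b hS c0 hpen hw hz hsmall
  rw [← hPsi, S.e_Psi b hS hw', S.e_Psi b hS hw]
  unfold Sys.cl pd
  rw [← dcl_add (degree_sumDiv_sub _ _) (degree_single_sub_single _ _), ← sub_eq_zero,
    ← dcl_sub (degree_sumDiv_sub _ _)
      (by rw [map_add, degree_sumDiv_sub, degree_single_sub_single, add_zero]),
    dcl_eq_zero_iff (by
      rw [map_sub, map_add, degree_sumDiv_sub, degree_sumDiv_sub, degree_single_sub_single,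
        add_zero, sub_zero])]
  have e : sumDiv (S.pt w') - sumDiv (S.pt S.ctr) -
      (sumDiv (S.pt w) - sumDiv (S.pt S.ctr) +
        (Finsupp.single (c0.Q z) 1 - Finsupp.single c0.P 1)) =
      sumDiv (S.pt w') + Finsupp.single c0.P 1 -
        (sumDiv (S.pt w) + Finsupp.single (c0.Q z) 1) := by
    abel
  rw [e]
  exact hlin

end Fermat.Agent.S27
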