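import Mathlib

/-!
# S27 / WP B1 : analytic implicit function theorem for a plane curve
-/

set_option autoImplicit false

open Topology Metric Polynomial Filter
open scoped Polynomial.Bivariate ContDiff

namespace Fermat.Agent.S27.Branch

/-- the polynomial map `ℂ × ℂ → ℂ` attached to `Φ`. -/
noncomputable def pmap (Φ : ℂ[X][Y]) (v : ℂ × ℂ) : ℂ := Φ.evalEval v.1 v.2

theorem contDiff_pmap (Φ : ℂ[X][Y]) : ContDiff ℂ ω (pmap Φ) := by
  induction Φ using Polynomial.induction_on' with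
  | add p q hp hq =>
    have : pmap (p + q) = fun v => pmap p v + pmap q v := by
      funext v; simp [pmap, evalEval_add]
    rw [this]; exact hp.add hq
  | monomial n a =>
    have : pmap (monomial n a) = fun v : ℂ × ℂ => a.eval v.1 * v.2 ^ n := by
      funext v
      simp [pmap, evalEval, eval_monomial]
    rw [this]
    exact ((Polynomial.contDiff_aeval a ω).comp contDiff_fst).mul (contDiff_snd.pow n)

theorem continuous_pmap (Φ : ℂ[X][Y]) : Continuous (pmap Φ) := (contDiff_pmap Φ).continuous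

theorem hasDerivAt_pmap_snd (Φ : ℂ[X][Y]) (z η : ℂ) :
    HasDerivAt (fun y => pmap Φ (z, y)) ((derivative Φ).evalEval z η) η := by
  have h1 : (fun y => pmap Φ (z, y)) = fun y => (Φ.map (evalRingHom z)).eval y := by
    funext y; simp [pmap, map_evalRingHom_eval]
  rw [h1, ← map_evalRingHom_eval, ← derivative_map]
  exact Polynomial.hasDerivAt _ _

theorem isInvertible_fderiv (Φ : ℂ[X][Y]) (z η : ℂ) (h1 : (derivative Φ).evalEval z η ≠ 0) :
    (fderiv ℂ (pmap Φ) (z, η) ∘L .inr ℂ ℂ ℂ).IsInvertible := by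
  have hd : HasFDerivAt (pmap Φ) (fderiv ℂ (pmap Φ) (z, η)) (z, η) :=
    ((contDiff_pmap Φ).differentiable (by simp)).differentiableAt.hasFDerivAt
  have h2 : HasFDerivAt (fun y => pmap Φ (z, y))
      (fderiv ℂ (pmap Φ) (z, η) ∘L .inr ℂ ℂ ℂ) η :=
    hd.comp η (hasFDerivAt_prodMk_right z η)
  have h3 := (hasDerivAt_pmap_snd Φ z η).hasFDerivAt.unique h2
  refine ⟨ContinuousLinearEquiv.unitsEquivAut ℂ (Units.mk0 _ h1), ?_⟩
  rw [← h3]
  ext
  simp

/-- **B1.** analytic implicit function theorem for a plane curve. -/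
theorem exists_branch (Φ : ℂ[X][Y]) (z₀ η₀ : ℂ) (h0 : Φ.evalEval z₀ η₀ = 0)
    (h1 : (derivative Φ).evalEval z₀ η₀ ≠ 0) :
    ∃ (r ρ : ℝ) (yh : ℂ → ℂ), 0 < r ∧ 0 < ρ ∧ yh z₀ = η₀ ∧
      (∀ z ∈ ball z₀ r, AnalyticAt ℂ yh z) ∧
      (∀ z ∈ ball z₀ r, Φ.evalEval z (yh z) = 0 ∧ (derivative Φ).evalEval z (yh z) ≠ 0 ∧
        yh z ∈ ball η₀ ρ) ∧
      (∀ z ∈ ball z₀ r, ∀ η ∈ ball η₀ ρ, Φ.evalEval z η = 0 → η = yh z) := by
  have cdf : ContDiffAt ℂ ω (pmap Φ) (z₀, η₀) := (contDiff_pmap Φ).contDiffAt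
  have pn : (ω : ℕ∞ω) ≠ 0 := by simp
  have inv := isInvertible_fderiv Φ z₀ η₀ h1
  set ψ := cdf.implicitFunction pn inv with hψ
  have hψ0 : ψ z₀ = η₀ := cdf.implicitFunction_apply_self pn inv
  have hu : pmap Φ (z₀, η₀) = 0 := h0
  have e1 : ∀ᶠ x in 𝓝 z₀, pmap Φ (x, ψ x) = 0 := by
    have := cdf.eventually_apply_implicitFunction pn inv
    simpa [hu] using this
  have e2 : ∀ᶠ v in 𝓝 (z₀, η₀), pmap Φ v = 0 ↔ ψ v.1 = v.2 := by
    have := cdf.eventually_apply_eq_iff_implicitFunction pn inv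
    simpa [hu] using this
  have han : AnalyticAt ℂ ψ z₀ := by
    have := cdf.contDiffAt_implicitFunction pn inv
    rw [← contDiffWithinAt_univ, contDiffWithinAt_omega_iff_analyticWithinAt,
      analyticWithinAt_univ] at this
    exact this
  have e3 : ∀ᶠ x in 𝓝 z₀, AnalyticAt ℂ ψ x := han.eventually_analyticAt
  have hcont : ContinuousAt ψ z₀ := han.continuousAt
  have e4 : ∀ᶠ x in 𝓝 z₀, pmap (derivative Φ) (x, ψ x) ≠ 0 := by
    have hc : ContinuousAt (fun x => pmap (derivative Φ) (x, ψ x)) z₀ :=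
      (continuous_pmap _).continuousAt.comp (continuousAt_id.prodMk hcont)
    apply hc.eventually_ne
    simpa [pmap, hψ0] using h1
  rw [nhds_prod_eq, eventually_prod_iff] at e2
  obtain ⟨pa, hpa, pb, hpb, hab⟩ := e2
  obtain ⟨ρ, hρ, hρb⟩ := Metric.eventually_nhds_iff_ball.mp hpb
  have e5 : ∀ᶠ x in 𝓝 z₀, ψ x ∈ ball η₀ ρ := by
    apply hcont.eventually_mem
    rw [hψ0]; exact ball_mem_nhds _ hρ
  obtain ⟨r, hr, hrb⟩ := Metric.eventually_nhds_iff_ball.mp
    (e1.and (e3.and (e4.and (e5.and hpa))))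
  refine ⟨r, ρ, ψ, hr, hρ, hψ0, fun z hz => (hrb z hz).2.1, fun z hz => ?_, fun z hz η hη h => ?_⟩
  · exact ⟨(hrb z hz).1, (hrb z hz).2.2.1, (hrb z hz).2.2.2.1⟩
  · have := hab (hrb z hz).2.2.2.2 (hρb η hη)
    exact (this.mp h).symm

end Fermat.Agent.S27.Branch
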