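import Mathlib
import Fermat.Prelude.Def_AlgebraicCurve_DivisorClassGroup
import Fermat.Prelude.Def_AlgebraicCurve_IsCurveOver
import Fermat.Prelude.Def_AlgebraicCurve_Repartitions
import Fermat.Agent.S24.FF.Places
import Fermat.Agent.S24.FF.Principal

/-!
# S27: common definitions (owner: helper76)

`IsFF K F`  : `F` is a function field in one variable over `K`.
`val v f`   : value of `f` at the place `v` (junk `0` at poles).
`single v f`: the repartition equal to `f` at `v` and `0` elsewhere.
`WD K F`    : Weil differentials regular everywhere, `= Dual (H1 0)`.
`WD.loc`    : local component of a Weil differential.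
-/

set_option autoImplicit false

open AlgebraicCurve WithZero

namespace Fermat.Agent.S27

/-- `F` is a function field in one variable over `K`. -/
class IsFF (K F : Type*) [Field K] [Field F] [Algebra K F] : Prop where
  exists_param : ∃ x : F, S24.IsFiniteParam K x

variable {K F : Type*} [Field K] [Field F] [Algebra K F]

open Classical in
/-- value of `f` at `v`; junk value `0` if `f` has a pole at `v`. -/
noncomputable def val (v : Place K F) (f : F) : K :=
  if h : ∃ c : K, v.adicValuation (f - algebraMap K F c) < 1 then h.choose else 0

/-- sum of the places `P j`, as a divisor. -/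
noncomputable def sumDiv {ι : Type*} [Fintype ι] (P : ι → Place K F) : Divisor K F :=
  ∑ j, Finsupp.single (P j) 1

/-- the class in `Pic0` of a divisor of degree zero. -/
noncomputable def cls (D : Divisor K F) (hD : Divisor.degree D = 0) : Pic0 K F :=
  Pic0.mk ⟨D, hD⟩

/-- linear equivalence of divisors. -/
def LinEq (D E : Divisor K F) : Prop := D - E ∈ Divisor.principal (K := K) (F := F)

open Classical in
/-- the function equal to `f` at `v` and `0` elsewhere. -/
noncomputable def singleFun (v : Place K F) (f : F) : Place K F → F := Pi.single v f

theorem singleFun_mem (v : Place K F) (f : F) : singleFun v f ∈ repartitions K F := by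
  classical
  apply mem_repartitions_of_finite
  apply (Set.finite_singleton v).subset
  intro w hw
  by_contra hne
  apply hw
  have : singleFun v f w = 0 := by
    unfold singleFun
    exact Pi.single_eq_of_ne hne _
  rw [this]
  simp

/-- the repartition equal to `f` at `v` and `0` elsewhere. -/
noncomputable def single (v : Place K F) (f : F) : ↥(repartitions K F) :=
  ⟨singleFun v f, singleFun_mem v f⟩

/-- `single v` as a `K`-linear map. -/
noncomputable def singleL (v : Place K F) : F →ₗ[K] ↥(repartitions K F) where
  toFun := single v
  map_add' f g := by
    classical
    apply Subtype.ext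
    funext w
    show singleFun v (f + g) w = singleFun v f w + singleFun v g w
    unfold singleFun
    by_cases h : w = v
    · subst h; simp
    · simp [Pi.single_eq_of_ne h]
  map_smul' c f := by
    classical
    apply Subtype.ext
    funext w
    show singleFun v (c • f) w = c • singleFun v f w
    unfold singleFun
    by_cases h : w = v
    · subst h; simp
    · simp [Pi.single_eq_of_ne h]

/-- the projection onto `H1 D`. -/
noncomputable def H1mk (D : Divisor K F) : ↥(repartitions K F) →ₗ[K] H1 D :=
  Submodule.mkQ _

variable (K F) in
/-- everywhere regular Weil differentials. -/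
abbrev WD : Type _ := Module.Dual K (H1 (0 : Divisor K F))

/-- local component at `v` of a Weil differential. -/
noncomputable def WD.loc (lam : WD K F) (v : Place K F) : F →ₗ[K] K :=
  lam ∘ₗ H1mk 0 ∘ₗ singleL v

end Fermat.Agent.S27
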