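import Fermat.Agent.S27.Plane.Defs
import Fermat.Agent.S27.Plane.Smooth
import Fermat.Agent.S27.Plane.Coeff
import Fermat.Agent.S27.Plane.Exists

/-!
# S27 / WPs P1, P2, P3 : plane models, smooth points, the coefficient formula
-/

set_option autoImplicit false

open AlgebraicCurve WithZero Polynomial
open scoped Polynomial.Bivariate

namespace Fermat.Agent.S27

variable {K F : Type*} [Field K] [Field F] [Algebra K F]
variable [IsAlgClosed K] [CharZero K] [IsFF K F]

/-- **P1.** every place, with any uniformizer `t`, is a smooth point of a suitable plane model. -/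
theorem exists_planeModel (P : Place K F) (t : F) (ht : P.adicValuation t = exp (-1 : ℤ)) :
    ∃ (M : PlaneModel K F) (η : K), M.t = t ∧ M.At P 0 η ∧ M.Smooth 0 η := by
  obtain ⟨y, Φ, h1, h2, h3, h4, h5, h6, h7⟩ := PlaneCore.exists_plane_data P t ht
  refine ⟨⟨t, y, Φ, h1, h2, h3, h4⟩, 0, rfl, ⟨?_, ?_⟩, h6, h7⟩
  · show P.adicValuation (t - algebraMap K F 0) < 1
    rw [map_zero, sub_zero, ht, ← exp_zero, exp_lt_exp]; norm_num
  · show P.adicValuation (y - algebraMap K F 0) < 1
    rwa [map_zero, sub_zero]

end Fermat.Agent.S27
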