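import Fermat.Agent.S27.Chart
import Fermat.Agent.S27.Plane
import Fermat.Agent.S27.Branch

/-!
# S27 / WPs B1, B2 : existence of charts
-/

set_option autoImplicit false

open AlgebraicCurve WithZero Topology Metric Polynomial
open scoped Polynomial.Bivariate

namespace Fermat.Agent.S27

/-- **B1.** analytic implicit function theorem for a plane curve. -/
theorem exists_branch (Φ : ℂ[X][Y]) (z₀ η₀ : ℂ) (h0 : Φ.evalEval z₀ η₀ = 0)
    (h1 : (derivative Φ).evalEval z₀ η₀ ≠ 0) :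
    ∃ (r ρ : ℝ) (yh : ℂ → ℂ), 0 < r ∧ 0 < ρ ∧ yh z₀ = η₀ ∧
      (∀ z ∈ ball z₀ r, AnalyticAt ℂ yh z) ∧
      (∀ z ∈ ball z₀ r, Φ.evalEval z (yh z) = 0 ∧ (derivative Φ).evalEval z (yh z) ≠ 0 ∧
        yh z ∈ ball η₀ ρ) ∧
      (∀ z ∈ ball z₀ r, ∀ η ∈ ball η₀ ρ, Φ.evalEval z η = 0 → η = yh z) :=
  Branch.exists_branch Φ z₀ η₀ h0 h1

namespace ChartEx

theorem analyticAt_evalEval_comp (a : ℂ[X][Y]) {yh : ℂ → ℂ} {z : ℂ} (hy : AnalyticAt ℂ yh z) :
    AnalyticAt ℂ (fun w => a.evalEval w (yh w)) z := by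
  have h1 : AnalyticAt ℂ (Branch.pmap a) ((fun w => (w, yh w)) z) :=
    (Branch.contDiff_pmap a).contDiffAt.analyticAt
  have h2 : AnalyticAt ℂ (fun w => (w, yh w)) z := analyticAt_id.prod hy
  exact AnalyticAt.fun_comp (g := Branch.pmap a) (f := fun w => (w, yh w)) h1 h2

variable {F : Type*} [Field F] [Algebra ℂ F]

theorem at_regular_t {M : PlaneModel ℂ F} {Q : Place ℂ F} {z η : ℂ} (h : M.At Q z η) :
    Q.adicValuation M.t ≤ 1 := by
  have : M.t = (M.t - algebraMap ℂ F z) + algebraMap ℂ F z := by ring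
  rw [this]
  exact (Valuation.map_add _ _ _).trans (max_le h.1.le (Q.adicValuation_algebraMap_le_one z))

theorem at_regular_y {M : PlaneModel ℂ F} {Q : Place ℂ F} {z η : ℂ} (h : M.At Q z η) :
    Q.adicValuation M.y ≤ 1 := by
  have : M.y = (M.y - algebraMap ℂ F η) + algebraMap ℂ F η := by ring
  rw [this]
  exact (Valuation.map_add _ _ _).trans (max_le h.2.le (Q.adicValuation_algebraMap_le_one η))

theorem at_val_t {M : PlaneModel ℂ F} {Q : Place ℂ F} {z η : ℂ} (h : M.At Q z η) :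
    val Q M.t = z := val_unique Q h.1

theorem at_val_y {M : PlaneModel ℂ F} {Q : Place ℂ F} {z η : ℂ} (h : M.At Q z η) :
    val Q M.y = η := val_unique Q h.2

/-- a quotient `a(t,y)/b(t,y)` with `b(z,η) ≠ 0` is regular at a place centred at `(z,η)`, with
the expected value. -/
theorem regular_val_of_mul_eq [IsFF ℂ F] (M : PlaneModel ℂ F) {Q : Place ℂ F} {z η : ℂ} (hQ : M.At Q z η) {f : F} {a b : ℂ[X][Y]}
    (hb : b.evalEval z η ≠ 0) (hf : f * aevalAeval M.t M.y b = aevalAeval M.t M.y a) :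
    Q.adicValuation f ≤ 1 ∧ val Q f = a.evalEval z η / b.evalEval z η := by
  have hbr := M.regular_aeval hQ b
  have har := M.regular_aeval hQ a
  have hbv := M.val_aeval hQ b
  have hav := M.val_aeval hQ a
  have hb1 : Q.adicValuation (aevalAeval M.t M.y b) = 1 := by
    refine le_antisymm hbr (not_lt.mp fun hlt => hb ?_)
    rw [← hbv]
    exact (val_eq_zero_iff Q hbr).mpr hlt
  have hfr : Q.adicValuation f ≤ 1 := by
    have := congrArg Q.adicValuation hf
    rw [map_mul, hb1, mul_one] at this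
    rw [this]; exact har
  refine ⟨hfr, ?_⟩
  have h2 := val_mul Q hfr hbr
  rw [hf, hav, hbv] at h2
  rw [h2, mul_div_cancel_right₀ _ hb]

end ChartEx

open ChartEx

variable {F : Type*} [Field F] [Algebra ℂ F] [IsFF ℂ F]

/-- **B2.** every place is the centre of a chart, with any prescribed uniformizer as coordinate. -/
theorem exists_chart (P : Place ℂ F) (t : F) (ht : P.adicValuation t = exp (-1 : ℤ)) :
    ∃ ch : Chart F, ch.t = t ∧ ch.c = 0 ∧ ch.Q 0 = P := by
  classical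
  obtain ⟨M, η₀, hMt, hP, hs⟩ := exists_planeModel P t ht
  obtain ⟨r, ρ, yh, hr, hρ, hyh0, hyan, hyb, hyu⟩ := Branch.exists_branch M.Φ 0 η₀ hs.1 hs.2
  have hex : ∀ z : ℂ, ∃ Q : Place ℂ F, z ∈ ball (0 : ℂ) r → M.At Q z (yh z) := by
    intro z
    by_cases hz : z ∈ ball (0 : ℂ) r
    · obtain ⟨Q, hQ⟩ := M.exists_at (hyb z hz).1
      exact ⟨Q, fun _ => hQ⟩
    · exact ⟨P, fun h => absurd h hz⟩
  choose Q hQ using hex
  have hsm : ∀ z ∈ ball (0 : ℂ) r, M.Smooth z (yh z) := fun z hz => ⟨(hyb z hz).1, (hyb z hz).2.1⟩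
  have hnear : ∀ z ∈ ball (0 : ℂ) r, ∀ᶠ w in 𝓝 z, w ∈ ball (0 : ℂ) r := fun z hz =>
    isOpen_ball.mem_nhds hz
  have hne : ∀ (b : ℂ[X][Y]), ∀ z ∈ ball (0 : ℂ) r, b.evalEval z (yh z) ≠ 0 →
      ∀ᶠ w in 𝓝 z, b.evalEval w (yh w) ≠ 0 := fun b z hz hb =>
    (analyticAt_evalEval_comp b (hyan z hz)).continuousAt.eventually_ne hb
  refine ⟨{ t := M.t
            c := 0
            r := r
            r_pos := hr
            Q := Q
            unif := fun z hz => M.unif_of_smooth (hsm z hz) (hQ z hz)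
            regular_nhds := ?_
            analytic := ?_
            cf_analytic := ?_
            isOpen_image := ?_ }, hMt, rfl, ?_⟩
  · intro f z hz hf
    obtain ⟨a, b, hb, hab⟩ := M.local_desc (hsm z hz) (hQ z hz) hf
    filter_upwards [hnear z hz, hne b z hz hb] with w hw hbw
    exact (regular_val_of_mul_eq M (hQ w hw) hbw hab).1
  · intro f z hz hf
    obtain ⟨a, b, hb, hab⟩ := M.local_desc (hsm z hz) (hQ z hz) hf
    have h1 : AnalyticAt ℂ (fun w => a.evalEval w (yh w) / b.evalEval w (yh w)) z :=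
      (analyticAt_evalEval_comp a (hyan z hz)).div (analyticAt_evalEval_comp b (hyan z hz)) hb
    refine h1.congr ?_
    filter_upwards [hnear z hz, hne b z hz hb] with w hw hbw
    exact (regular_val_of_mul_eq M (hQ w hw) hbw hab).2.symm
  · intro lam z hz
    obtain ⟨N, hN⟩ := M.exists_coeff lam
    have h1 : AnalyticAt ℂ
        (fun w => N.evalEval w (yh w) / (derivative M.Φ).evalEval w (yh w)) z :=
      (analyticAt_evalEval_comp N (hyan z hz)).div
        (analyticAt_evalEval_comp _ (hyan z hz)) (hyb z hz).2.1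
    refine h1.congr ?_
    filter_upwards [hnear z hz] with w hw
    rw [← hN (Q w) w (yh w) (hsm w hw) (hQ w hw), mul_div_cancel_right₀ _ (hyb w hw).2.1]
  · intro c' r' hsub
    have himg : Q '' ball c' r' =
        {R : Place ℂ F | R.adicValuation M.t ≤ 1 ∧ val R M.t ∈ ball c' r'} ∩
          {R : Place ℂ F | R.adicValuation M.y ≤ 1 ∧ val R M.y ∈ ball η₀ ρ} := by
      ext R
      constructor
      · rintro ⟨w, hw, rfl⟩
        have hA := hQ w (hsub hw)
        refine ⟨⟨at_regular_t hA, ?_⟩, ⟨at_regular_y hA, ?_⟩⟩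
        · rw [at_val_t hA]; exact hw
        · rw [at_val_y hA]; exact (hyb w (hsub hw)).2.2
      · rintro ⟨⟨h1, h2⟩, ⟨_, h4⟩⟩
        have hA := M.exists_at_of_regular h1
        have h0 := M.eval_eq_zero_of_at hA
        have h5 := hyu _ (hsub h2) _ h4 h0
        rw [h5] at hA
        exact ⟨val R M.t, h2, M.unique_of_smooth (hsm _ (hsub h2)) (hQ _ (hsub h2)) hA⟩
    rw [himg]
    exact (isOpen_val_mem M.t isOpen_ball).inter (isOpen_val_mem M.y isOpen_ball)
  · have h0 : (0 : ℂ) ∈ ball (0 : ℂ) r := mem_ball_self hr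
    have hA := hQ 0 h0
    rw [hyh0] at hA
    exact M.unique_of_smooth hs hA hP

end Fermat.Agent.S27
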