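import Fermat.Agent.S27.Val

/-!
# S27 / WP T : the (Tychonoff) topology on `Place ℂ F`, compactness
(skeleton: helper76, proofs: helper41)

`evP v f : OnePoint ℂ` is the value of `f` at `v` in the Riemann sphere.  `Place ℂ F` gets the
coarsest topology making all `evP · f` continuous; it is a closed subspace of `F → OnePoint ℂ`.
-/

set_option autoImplicit false

open AlgebraicCurve WithZero Topology

namespace Fermat.Agent.S27

variable {F : Type*} [Field F] [Algebra ℂ F]

open Classical in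
/-- value of `f` at `v` in the Riemann sphere. -/
noncomputable def evP (v : Place ℂ F) (f : F) : OnePoint ℂ :=
  if v.adicValuation f ≤ 1 then ((val v f : ℂ) : OnePoint ℂ) else OnePoint.infty

theorem evP_of_le {v : Place ℂ F} {f : F} (h : v.adicValuation f ≤ 1) :
    evP v f = ((val v f : ℂ) : OnePoint ℂ) := by
  unfold evP; rw [if_pos h]

theorem evP_of_not_le {v : Place ℂ F} {f : F} (h : ¬ v.adicValuation f ≤ 1) :
    evP v f = OnePoint.infty := by
  unfold evP; rw [if_neg h]

theorem evP_eq_infty_iff {v : Place ℂ F} {f : F} :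
    evP v f = OnePoint.infty ↔ ¬ v.adicValuation f ≤ 1 := by
  constructor
  · intro h h1
    rw [evP_of_le h1] at h
    exact OnePoint.coe_ne_infty _ h
  · exact evP_of_not_le

theorem evP_ne_infty_iff {v : Place ℂ F} {f : F} :
    evP v f ≠ OnePoint.infty ↔ v.adicValuation f ≤ 1 := by
  rw [Ne, evP_eq_infty_iff, not_not]

/-! ### closed relations on the sphere -/

/-- the graph of a binary operation, extended by "anything goes at infinity". -/
def opRel (op : ℂ → ℂ → ℂ) : Set (OnePoint ℂ × OnePoint ℂ × OnePoint ℂ) :=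
  {p | p.1 = OnePoint.infty ∨ p.2.1 = OnePoint.infty ∨
    ∃ x y : ℂ, p.1 = (x : OnePoint ℂ) ∧ p.2.1 = (y : OnePoint ℂ) ∧
      p.2.2 = ((op x y : ℂ) : OnePoint ℂ)}

theorem isClosed_opRel (op : ℂ → ℂ → ℂ) (hop : Continuous fun p : ℂ × ℂ => op p.1 p.2) :
    IsClosed (opRel op) := by
  rw [← isOpen_compl_iff]
  have hemb : IsOpenEmbedding (Prod.map ((↑) : ℂ → OnePoint ℂ)
      (Prod.map ((↑) : ℂ → OnePoint ℂ) (id : OnePoint ℂ → OnePoint ℂ))) :=
    OnePoint.isOpenEmbedding_coe.prodMap (OnePoint.isOpenEmbedding_coe.prodMap IsOpenEmbedding.id)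
  have hU : IsOpen {q : ℂ × ℂ × OnePoint ℂ | q.2.2 ≠ ((op q.1 q.2.1 : ℂ) : OnePoint ℂ)} := by
    apply isOpen_ne_fun
    · exact continuous_snd.comp continuous_snd
    · apply OnePoint.continuous_coe.comp
      exact hop.comp (continuous_fst.prodMk (continuous_fst.comp continuous_snd))
  have himg := hemb.isOpenMap _ hU
  convert himg using 1
  ext ⟨a, b, c⟩
  simp only [opRel, Set.mem_compl_iff, Set.mem_ofPred_eq, not_or, Set.mem_image, Prod.exists,
    Prod.map_apply, id, Prod.mk.injEq]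
  constructor
  · rintro ⟨ha, hb, h⟩
    obtain ⟨x, rfl⟩ := OnePoint.ne_infty_iff_exists.1 ha
    obtain ⟨y, rfl⟩ := OnePoint.ne_infty_iff_exists.1 hb
    refine ⟨x, y, c, ?_, rfl, rfl, rfl⟩
    intro hc
    exact h ⟨x, y, rfl, rfl, hc⟩
  · rintro ⟨x, y, c', hc, rfl, rfl, rfl⟩
    refine ⟨OnePoint.coe_ne_infty _, OnePoint.coe_ne_infty _, ?_⟩
    rintro ⟨x', y', hx, hy, hc'⟩
    rw [OnePoint.coe_eq_coe] at hx hy
    subst hx hy
    exact hc hc'

/-- the closed unit disc in the sphere. -/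
def discS : Set (OnePoint ℂ) := ((↑) : ℂ → OnePoint ℂ) '' Metric.closedBall 0 1

theorem isClosed_discS : IsClosed discS :=
  ((isCompact_closedBall (0 : ℂ) 1).image OnePoint.continuous_coe).isClosed

/-- the conditions characterising the functions `evP v`. -/
def IsPlaceFun (φ : F → OnePoint ℂ) : Prop :=
  (∀ c : ℂ, φ (algebraMap ℂ F c) = (c : OnePoint ℂ)) ∧
  (∀ f g : F, (φ f, φ g, φ (f + g)) ∈ opRel (· + ·)) ∧
  (∀ f g : F, (φ f, φ g, φ (f * g)) ∈ opRel (· * ·)) ∧
  (∀ f : F, φ f ∈ discS ∨ φ f⁻¹ ∈ discS)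

theorem isClosed_isPlaceFun : IsClosed {φ : F → OnePoint ℂ | IsPlaceFun φ} := by
  unfold IsPlaceFun
  simp only [Set.ofPred_and, Set.ofPred_forall]
  refine IsClosed.inter ?_ (IsClosed.inter ?_ (IsClosed.inter ?_ ?_))
  · exact isClosed_iInter fun c => isClosed_eq (continuous_apply _) continuous_const
  · refine isClosed_iInter fun f => isClosed_iInter fun g => ?_
    exact (isClosed_opRel _ continuous_add).preimage
      ((continuous_apply f).prodMk ((continuous_apply g).prodMk (continuous_apply (f + g))))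
  · refine isClosed_iInter fun f => isClosed_iInter fun g => ?_
    exact (isClosed_opRel _ continuous_mul).preimage
      ((continuous_apply f).prodMk ((continuous_apply g).prodMk (continuous_apply (f * g))))
  · refine isClosed_iInter fun f => ?_
    have h1 : Continuous fun φ : F → OnePoint ℂ => φ f := continuous_apply f
    have h2 : Continuous fun φ : F → OnePoint ℂ => φ f⁻¹ := continuous_apply f⁻¹
    exact (isClosed_discS.preimage h1).union (isClosed_discS.preimage h2)

namespace IsPlaceFun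

variable {φ : F → OnePoint ℂ}

theorem const (h : IsPlaceFun φ) (c : ℂ) : φ (algebraMap ℂ F c) = (c : OnePoint ℂ) := h.1 c

theorem add (h : IsPlaceFun φ) {f g : F} {x y : ℂ} (hf : φ f = (x : OnePoint ℂ))
    (hg : φ g = (y : OnePoint ℂ)) : φ (f + g) = ((x + y : ℂ) : OnePoint ℂ) := by
  rcases h.2.1 f g with h1 | h1 | ⟨x', y', hx, hy, h1⟩
  · exact absurd (hf ▸ h1 : (x : OnePoint ℂ) = OnePoint.infty) (OnePoint.coe_ne_infty _)
  · exact absurd (hg ▸ h1 : (y : OnePoint ℂ) = OnePoint.infty) (OnePoint.coe_ne_infty _)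
  · have hx' : (x : OnePoint ℂ) = x' := hf ▸ hx
    have hy' : (y : OnePoint ℂ) = y' := hg ▸ hy
    rw [OnePoint.coe_eq_coe] at hx' hy'
    subst hx' hy'
    exact h1

theorem mul (h : IsPlaceFun φ) {f g : F} {x y : ℂ} (hf : φ f = (x : OnePoint ℂ))
    (hg : φ g = (y : OnePoint ℂ)) : φ (f * g) = ((x * y : ℂ) : OnePoint ℂ) := by
  rcases h.2.2.1 f g with h1 | h1 | ⟨x', y', hx, hy, h1⟩
  · exact absurd (hf ▸ h1 : (x : OnePoint ℂ) = OnePoint.infty) (OnePoint.coe_ne_infty _)
  · exact absurd (hg ▸ h1 : (y : OnePoint ℂ) = OnePoint.infty) (OnePoint.coe_ne_infty _)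
  · have hx' : (x : OnePoint ℂ) = x' := hf ▸ hx
    have hy' : (y : OnePoint ℂ) = y' := hg ▸ hy
    rw [OnePoint.coe_eq_coe] at hx' hy'
    subst hx' hy'
    exact h1

theorem one (h : IsPlaceFun φ) : φ 1 = ((1 : ℂ) : OnePoint ℂ) := by
  have := h.const 1
  rwa [map_one] at this

theorem zero (h : IsPlaceFun φ) : φ 0 = ((0 : ℂ) : OnePoint ℂ) := by
  have := h.const 0
  rwa [map_zero] at this

theorem neg (h : IsPlaceFun φ) {f : F} {x : ℂ} (hf : φ f = (x : OnePoint ℂ)) :
    φ (-f) = ((-x : ℂ) : OnePoint ℂ) := by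
  have := h.mul (h.const (-1)) hf
  simpa using this

theorem sub_const (h : IsPlaceFun φ) {f : F} {x : ℂ} (hf : φ f = (x : OnePoint ℂ)) :
    φ (f - algebraMap ℂ F x) = ((0 : ℂ) : OnePoint ℂ) := by
  have := h.add hf (h.neg (h.const x))
  simpa [sub_eq_add_neg] using this

theorem inv_of_zero (h : IsPlaceFun φ) {f : F} (hf0 : f ≠ 0) (hf : φ f = ((0 : ℂ) : OnePoint ℂ)) :
    φ f⁻¹ = OnePoint.infty := by
  by_contra hne
  obtain ⟨d, hd⟩ := OnePoint.ne_infty_iff_exists.1 hne
  have h1 := h.mul hf hd.symm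
  rw [mul_inv_cancel₀ hf0, h.one, OnePoint.coe_eq_coe] at h1
  simp at h1

theorem ne_infty_of_mem_discS {a : OnePoint ℂ} (ha : a ∈ discS) : a ≠ OnePoint.infty := by
  obtain ⟨x, _, rfl⟩ := ha
  exact OnePoint.coe_ne_infty _

/-- the valuation ring of a place function. -/
def ring (h : IsPlaceFun φ) : ValuationSubring F where
  carrier := {f | φ f ≠ OnePoint.infty}
  mul_mem' := by
    intro f g hf hg
    obtain ⟨x, hx⟩ := OnePoint.ne_infty_iff_exists.1 hf
    obtain ⟨y, hy⟩ := OnePoint.ne_infty_iff_exists.1 hg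
    show φ (f * g) ≠ OnePoint.infty
    rw [h.mul hx.symm hy.symm]
    exact OnePoint.coe_ne_infty _
  one_mem' := by
    show φ 1 ≠ OnePoint.infty
    rw [h.one]
    exact OnePoint.coe_ne_infty _
  add_mem' := by
    intro f g hf hg
    obtain ⟨x, hx⟩ := OnePoint.ne_infty_iff_exists.1 hf
    obtain ⟨y, hy⟩ := OnePoint.ne_infty_iff_exists.1 hg
    show φ (f + g) ≠ OnePoint.infty
    rw [h.add hx.symm hy.symm]
    exact OnePoint.coe_ne_infty _
  zero_mem' := by
    show φ 0 ≠ OnePoint.infty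
    rw [h.zero]
    exact OnePoint.coe_ne_infty _
  neg_mem' := by
    intro f hf
    obtain ⟨x, hx⟩ := OnePoint.ne_infty_iff_exists.1 hf
    show φ (-f) ≠ OnePoint.infty
    rw [h.neg hx.symm]
    exact OnePoint.coe_ne_infty _
  mem_or_inv_mem' := by
    intro f
    rcases h.2.2.2 f with h1 | h1
    · exact Or.inl (ne_infty_of_mem_discS h1)
    · exact Or.inr (ne_infty_of_mem_discS h1)

theorem mem_ring (h : IsPlaceFun φ) {f : F} : f ∈ h.ring ↔ φ f ≠ OnePoint.infty := Iff.rfl

theorem ring_ne_top [IsFF ℂ F] (h : IsPlaceFun φ) : h.ring ≠ ⊤ := by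
  intro htop
  obtain ⟨y, hy⟩ := IsFF.exists_param (K := ℂ) (F := F)
  have h1 : y ∈ h.ring := htop ▸ ValuationSubring.mem_top y
  obtain ⟨c, hc⟩ := OnePoint.ne_infty_iff_exists.1 (h.mem_ring.1 h1)
  have h0 : y - algebraMap ℂ F c ≠ 0 := (hy.sub_const c).ne_zero
  have h2 := h.inv_of_zero h0 (h.sub_const hc.symm)
  have h3 : (y - algebraMap ℂ F c)⁻¹ ∈ h.ring := htop ▸ ValuationSubring.mem_top _
  exact h.mem_ring.1 h3 h2

theorem exists_place [IsFF ℂ F] (h : IsPlaceFun φ) : ∃ v : Place ℂ F, evP v = φ := by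
  obtain ⟨y, hy⟩ := IsFF.exists_param (K := ℂ) (F := F)
  have hK : ∀ a : ℂ, algebraMap ℂ F a ∈ h.ring := by
    intro a
    rw [h.mem_ring, h.const]
    exact OnePoint.coe_ne_infty _
  obtain ⟨v, hv⟩ : ∃ v : Place ℂ F, v.toValuationSubring = h.ring := by
    rcases h.ring.mem_or_inv_mem y with h1 | h1
    · exact hy.exists_place_eq _ hK h1 h.ring_ne_top
    · exact hy.inv.exists_place_eq _ hK h1 h.ring_ne_top
  refine ⟨v, ?_⟩
  have hmem : ∀ f : F, v.adicValuation f ≤ 1 ↔ φ f ≠ OnePoint.infty := by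
    intro f
    rw [adic_le_one_iff_mem, hv, h.mem_ring]
  funext f
  by_cases hf : φ f = OnePoint.infty
  · rw [hf, evP_eq_infty_iff, hmem]
    exact not_not.2 hf
  · obtain ⟨c, hc⟩ := OnePoint.ne_infty_iff_exists.1 hf
    rw [evP_of_le ((hmem f).2 hf), ← hc, OnePoint.coe_eq_coe]
    apply val_unique
    by_cases h0 : f - algebraMap ℂ F c = 0
    · rw [h0, map_zero]
      exact zero_lt_one
    · have h2 := h.inv_of_zero h0 (h.sub_const hc.symm)
      have h3 : ¬ v.adicValuation (f - algebraMap ℂ F c)⁻¹ ≤ 1 := by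
        rw [hmem]
        exact not_not.2 h2
      rw [map_inv₀, not_le] at h3
      exact (one_lt_inv₀ (zero_lt_iff.2 (v.adicValuation_ne_zero h0))).1 h3

end IsPlaceFun

theorem isPlaceFun_evP [IsFF ℂ F] (v : Place ℂ F) : IsPlaceFun (evP v) := by
  have hc : ∀ c : ℂ, v.adicValuation (algebraMap ℂ F c) ≤ 1 := fun c =>
    (adic_le_one_iff_mem v).2 (v.algebraMap_mem' c)
  refine ⟨fun c => ?_, fun f g => ?_, fun f g => ?_, fun f => ?_⟩
  · rw [evP_of_le (hc c), val_algebraMap]
  · by_cases hf : v.adicValuation f ≤ 1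
    · by_cases hg : v.adicValuation g ≤ 1
      · refine Or.inr (Or.inr ⟨val v f, val v g, evP_of_le hf, evP_of_le hg, ?_⟩)
        show evP v (f + g) = _
        rw [evP_of_le (Valuation.map_add_le _ hf hg), val_add v hf hg]
      · exact Or.inr (Or.inl (evP_of_not_le hg))
    · exact Or.inl (evP_of_not_le hf)
  · by_cases hf : v.adicValuation f ≤ 1
    · by_cases hg : v.adicValuation g ≤ 1
      · refine Or.inr (Or.inr ⟨val v f, val v g, evP_of_le hf, evP_of_le hg, ?_⟩)
        show evP v (f * g) = _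
        have hfg : v.adicValuation (f * g) ≤ 1 := by
          rw [map_mul]
          exact mul_le_one' hf hg
        rw [evP_of_le hfg, val_mul v hf hg]
      · exact Or.inr (Or.inl (evP_of_not_le hg))
    · exact Or.inl (evP_of_not_le hf)
  · by_cases hf : v.adicValuation f ≤ 1
    · by_cases hn : ‖val v f‖ ≤ 1
      · left
        rw [evP_of_le hf]
        exact ⟨val v f, by simpa using hn, rfl⟩
      · right
        have h0 : val v f ≠ 0 := by
          intro h0
          rw [h0] at hn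
          simp at hn
        have h1 : v.adicValuation f = 1 := by
          refine le_antisymm hf (not_lt.1 fun hlt => h0 ((val_eq_zero_iff v hf).2 hlt))
        have h2 : v.adicValuation f⁻¹ ≤ 1 := by
          rw [map_inv₀, h1, inv_one]
        rw [evP_of_le h2, val_inv v h1]
        refine ⟨(val v f)⁻¹, ?_, rfl⟩
        rw [mem_closedBall_zero_iff, norm_inv]
        exact inv_le_one_of_one_le₀ (not_le.1 hn).le
    · right
      have h2 : v.adicValuation f⁻¹ < 1 := by
        rw [map_inv₀]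
        exact inv_lt_one_of_one_lt₀ (not_le.1 hf)
      rw [evP_of_le h2.le, (val_eq_zero_iff v h2.le).2 h2]
      exact ⟨0, by simp, rfl⟩

theorem range_evP [IsFF ℂ F] :
    Set.range (evP : Place ℂ F → F → OnePoint ℂ) = {φ | IsPlaceFun φ} := by
  ext φ
  constructor
  · rintro ⟨v, rfl⟩
    exact isPlaceFun_evP v
  · intro h
    exact IsPlaceFun.exists_place h

theorem evP_injective : Function.Injective (evP : Place ℂ F → F → OnePoint ℂ) := by
  intro v w h
  apply Place.ext
  ext f
  rw [← adic_le_one_iff_mem, ← adic_le_one_iff_mem, ← evP_ne_infty_iff, ← evP_ne_infty_iff, h]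

/-! ### the topology -/

/-- the topology on the set of places: the coarsest one making all `evP · f` continuous. -/
noncomputable instance placeTopology : TopologicalSpace (Place ℂ F) :=
  TopologicalSpace.induced (fun (v : Place ℂ F) (f : F) => evP v f) inferInstance

theorem isEmbedding_evP : IsEmbedding (evP : Place ℂ F → F → OnePoint ℂ) :=
  ⟨⟨rfl⟩, evP_injective⟩

theorem isClosedEmbedding_evP [IsFF ℂ F] :
    IsClosedEmbedding (evP : Place ℂ F → F → OnePoint ℂ) :=
  ⟨isEmbedding_evP, by rw [range_evP]; exact isClosed_isPlaceFun⟩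

instance t2Space_place : T2Space (Place ℂ F) := isEmbedding_evP.t2Space

instance compactSpace_place [IsFF ℂ F] : CompactSpace (Place ℂ F) :=
  isClosedEmbedding_evP.compactSpace

theorem continuous_evP (f : F) : Continuous fun v : Place ℂ F => evP v f :=
  (continuous_apply f).comp isEmbedding_evP.continuous

theorem isOpen_regular (f : F) : IsOpen {v : Place ℂ F | v.adicValuation f ≤ 1} := by
  have : {v : Place ℂ F | v.adicValuation f ≤ 1} =
      (fun v : Place ℂ F => evP v f) ⁻¹' {OnePoint.infty}ᶜ := by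
    ext v
    simp [evP_ne_infty_iff]
  rw [this]
  exact (isOpen_compl_singleton).preimage (continuous_evP f)

theorem continuousOn_val (f : F) :
    ContinuousOn (fun v : Place ℂ F => val v f) {v : Place ℂ F | v.adicValuation f ≤ 1} := by
  rw [OnePoint.isOpenEmbedding_coe.isInducing.continuousOn_iff]
  refine (continuous_evP f).continuousOn.congr ?_
  intro v hv
  exact (evP_of_le hv).symm

theorem continuousAt_val {f : F} {v : Place ℂ F} (hv : v.adicValuation f ≤ 1) :
    ContinuousAt (fun v : Place ℂ F => val v f) v :=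
  (continuousOn_val f).continuousAt ((isOpen_regular f).mem_nhds hv)

theorem isOpen_val_mem (f : F) {U : Set ℂ} (hU : IsOpen U) :
    IsOpen {v : Place ℂ F | v.adicValuation f ≤ 1 ∧ val v f ∈ U} := by
  have := (continuousOn_val f).isOpen_inter_preimage (isOpen_regular f) hU
  exact this

/-- if `f⁻¹` tends to `0` then `f` tends to `∞`. -/
theorem tendsto_evP_infty [IsFF ℂ F] {α : Type*} {l : Filter α} {g : α → Place ℂ F} {f : F}
    (hf0 : f ≠ 0) (h1 : ∀ᶠ x in l, (g x).adicValuation f⁻¹ ≤ 1)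
    (h2 : Filter.Tendsto (fun x => val (g x) f⁻¹) l (𝓝 0)) :
    Filter.Tendsto (fun x => evP (g x) f) l (𝓝 OnePoint.infty) := by
  rw [(OnePoint.hasBasis_nhds_infty (X := ℂ)).tendsto_right_iff]
  rintro s ⟨-, hs⟩
  obtain ⟨R, hR⟩ := hs.isBounded.subset_closedBall 0
  have hpos : (0 : ℝ) < 1 / (|R| + 1) := by positivity
  have h3 : ∀ᶠ x in l, ‖val (g x) f⁻¹‖ < 1 / (|R| + 1) := by
    have := h2 (Metric.ball_mem_nhds 0 hpos)
    filter_upwards [this] with x hx
    simpa using hx
  filter_upwards [h1, h3] with x hx1 hx3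
  by_cases hf : (g x).adicValuation f ≤ 1
  · left
    refine ⟨val (g x) f, ?_, (evP_of_le hf).symm⟩
    intro hmem
    have h4 : ‖val (g x) f‖ ≤ R := by simpa using hR hmem
    have h5 : val (g x) f * val (g x) f⁻¹ = 1 := by
      rw [← val_mul _ hf hx1, mul_inv_cancel₀ hf0]
      have := val_algebraMap (g x) (1 : ℂ)
      rwa [map_one] at this
    have h6 : ‖val (g x) f‖ * ‖val (g x) f⁻¹‖ = 1 := by rw [← norm_mul, h5, norm_one]
    have h7 : ‖val (g x) f‖ * ‖val (g x) f⁻¹‖ < 1 := by
      calc ‖val (g x) f‖ * ‖val (g x) f⁻¹‖ ≤ |R| * ‖val (g x) f⁻¹‖ :=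
            mul_le_mul_of_nonneg_right (h4.trans (le_abs_self R)) (norm_nonneg _)
        _ ≤ |R| * (1 / (|R| + 1)) := mul_le_mul_of_nonneg_left hx3.le (abs_nonneg R)
        _ < 1 := by
            rw [mul_one_div, div_lt_one (by positivity)]
            linarith
    linarith
  · right
    exact evP_of_not_le hf

/-- convergence in `Place ℂ F` can be tested on the functions regular at the limit. -/
theorem tendsto_nhds_place_iff [IsFF ℂ F] {α : Type*} {l : Filter α} {g : α → Place ℂ F}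
    {P : Place ℂ F} :
    Filter.Tendsto g l (𝓝 P) ↔ ∀ f : F, P.adicValuation f ≤ 1 →
      (∀ᶠ x in l, (g x).adicValuation f ≤ 1) ∧
        Filter.Tendsto (fun x => val (g x) f) l (𝓝 (val P f)) := by
  constructor
  · intro h f hf
    exact ⟨h ((isOpen_regular f).mem_nhds hf), (continuousAt_val hf).tendsto.comp h⟩
  · intro h
    rw [isEmbedding_evP.isInducing.tendsto_nhds_iff, tendsto_pi_nhds]
    intro f
    show Filter.Tendsto (fun x => evP (g x) f) l (𝓝 (evP P f))
    by_cases hf : P.adicValuation f ≤ 1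
    · obtain ⟨h1, h2⟩ := h f hf
      rw [evP_of_le hf]
      refine ((OnePoint.continuous_coe.tendsto _).comp h2).congr' ?_
      filter_upwards [h1] with x hx
      exact (evP_of_le hx).symm
    · rw [evP_of_not_le hf]
      have hf0 : f ≠ 0 := by
        rintro rfl
        exact hf (by simp)
      have h2 : P.adicValuation f⁻¹ < 1 := by
        rw [map_inv₀]
        exact inv_lt_one_of_one_lt₀ (not_le.1 hf)
      obtain ⟨h3, h4⟩ := h f⁻¹ h2.le
      rw [(val_eq_zero_iff P h2.le).2 h2] at h4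
      exact tendsto_evP_infty hf0 h3 h4

/-- if `f` is regular on a closed set `Z` of places, then `f(Z)` is compact. -/
theorem isCompact_val_image [IsFF ℂ F] (f : F) {Z : Set (Place ℂ F)} (hZ : IsClosed Z)
    (hf : ∀ v ∈ Z, v.adicValuation f ≤ 1) : IsCompact ((fun v => val v f) '' Z) :=
  hZ.isCompact.image_of_continuousOn ((continuousOn_val f).mono hf)

/-! ### basic neighbourhoods -/

/-- basic neighbourhood of a place `P`: the places at which the finitely many functions of `s`
are regular and take values `δ`-close to their values at `P`. -/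
def basicNhd (P : Place ℂ F) (s : Finset F) (δ : ℝ) : Set (Place ℂ F) :=
  {Q | ∀ f ∈ s, Q.adicValuation f ≤ 1 ∧ ‖val Q f - val P f‖ < δ}

theorem isOpen_basicNhd (P : Place ℂ F) (s : Finset F) (δ : ℝ) : IsOpen (basicNhd P s δ) := by
  have : basicNhd P s δ =
      ⋂ f ∈ s, {Q : Place ℂ F | Q.adicValuation f ≤ 1 ∧ val Q f ∈ Metric.ball (val P f) δ} := by
    ext Q
    simp [basicNhd, dist_eq_norm]
  rw [this]
  exact isOpen_biInter_finset fun f _ => isOpen_val_mem f Metric.isOpen_ball

theorem self_mem_basicNhd {P : Place ℂ F} {s : Finset F} {δ : ℝ} (hδ : 0 < δ)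
    (hs : ∀ f ∈ s, P.adicValuation f ≤ 1) : P ∈ basicNhd P s δ := by
  intro f hf
  exact ⟨hs f hf, by simpa using hδ⟩

theorem basicNhd_mem_nhds {P : Place ℂ F} {s : Finset F} {δ : ℝ} (hδ : 0 < δ)
    (hs : ∀ f ∈ s, P.adicValuation f ≤ 1) : basicNhd P s δ ∈ 𝓝 P :=
  (isOpen_basicNhd P s δ).mem_nhds (self_mem_basicNhd hδ hs)

/-- the basic neighbourhoods form a basis of neighbourhoods. -/
theorem mem_nhds_place_iff [IsFF ℂ F] {P : Place ℂ F} {N : Set (Place ℂ F)} :
    N ∈ 𝓝 P ↔ ∃ (s : Finset F) (δ : ℝ), 0 < δ ∧ (∀ f ∈ s, P.adicValuation f ≤ 1) ∧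
      basicNhd P s δ ⊆ N := by
  constructor
  · intro hN
    classical
    -- the filter generated by the basic neighbourhoods
    let l : {f : F // P.adicValuation f ≤ 1} → Filter (Place ℂ F) := fun f =>
      Filter.comap (fun v : Place ℂ F => val v f.1) (𝓝 (val P f.1)) ⊓
        Filter.principal {v : Place ℂ F | v.adicValuation f.1 ≤ 1}
    have hb : ∀ f : {f : F // P.adicValuation f ≤ 1}, (l f).HasBasis (fun δ : ℝ => 0 < δ)
        (fun δ => (fun v : Place ℂ F => val v f.1) ⁻¹' Metric.ball (val P f.1) δ ∩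
          {v : Place ℂ F | v.adicValuation f.1 ≤ 1}) := fun f =>
      (Metric.nhds_basis_ball.comap _).inf_principal _
    have hle : Filter.Tendsto id (⨅ f, l f) (𝓝 P) := by
      rw [tendsto_nhds_place_iff]
      intro f hf
      have h1 : (⨅ f, l f) ≤ l ⟨f, hf⟩ := iInf_le l ⟨f, hf⟩
      constructor
      · exact h1 (Filter.mem_inf_of_right (Filter.mem_principal_self _))
      · exact (Filter.tendsto_comap.mono_left inf_le_left).mono_left h1
    have hN' : N ∈ ⨅ f, l f := hle hN
    obtain ⟨⟨I, d⟩, ⟨hI, hd⟩, hsub⟩ := (Filter.HasBasis.iInf hb).mem_iff.1 hN'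
    simp only at hI hd hsub
    have : Fintype I := hI.fintype
    -- a common radius
    obtain ⟨δ, hδ, hδd⟩ : ∃ δ : ℝ, 0 < δ ∧ ∀ i : I, δ ≤ d i := by
      by_cases hne : Nonempty I
      · obtain ⟨i0, hi0⟩ := Finite.exists_min d
        exact ⟨d i0, hd i0, hi0⟩
      · exact ⟨1, one_pos, fun i => absurd ⟨i⟩ hne⟩
    refine ⟨hI.toFinset.image Subtype.val, δ, hδ, ?_, ?_⟩
    · intro f hf
      obtain ⟨g, _, rfl⟩ := Finset.mem_image.1 hf
      exact g.2
    · intro Q hQ
      apply hsub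
      rw [Set.mem_iInter]
      intro i
      have h1 := hQ i.1.1 (Finset.mem_image.2 ⟨i.1, hI.mem_toFinset.2 i.2, rfl⟩)
      refine ⟨?_, h1.1⟩
      show val Q i.1.1 ∈ Metric.ball (val P i.1.1) (d i)
      rw [mem_ball_iff_norm]
      exact h1.2.trans_le (hδd i)
  · rintro ⟨s, δ, hδ, hs, hsub⟩
    exact Filter.mem_of_superset (basicNhd_mem_nhds hδ hs) hsub

/-- compactness in finite subcover form. -/
theorem exists_finite_nhds_subcover [IsFF ℂ F] (N : Place ℂ F → Set (Place ℂ F))
    (hN : ∀ P, N P ∈ 𝓝 P) : ∃ T : Finset (Place ℂ F), ∀ Q, ∃ P ∈ T, Q ∈ N P := by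
  obtain ⟨T, hT⟩ := CompactSpace.elim_nhds_subcover N hN
  refine ⟨T, fun Q => ?_⟩
  have : Q ∈ ⋃ x ∈ T, N x := hT ▸ Set.mem_univ Q
  simpa using this

end Fermat.Agent.S27
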