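import Fermat.Agent.S27.RR1

/-!
# S27 / WP A3 : Weil differentials: local components, automatic residue theorem
-/

set_option autoImplicit false

open AlgebraicCurve WithZero Module

namespace Fermat.Agent.S27

variable {K F : Type*} [Field K] [Field F] [Algebra K F]

section NoHyp

theorem single_apply_self (v : Place K F) (f : F) :
    (single v f : Place K F → F) v = f := by
  classical
  show singleFun v f v = f
  unfold singleFun
  exact Pi.single_eq_same (M := fun _ => F) v f

theorem single_apply_of_ne {v w : Place K F} (h : w ≠ v) (f : F) :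
    (single v f : Place K F → F) w = 0 := by
  classical
  show singleFun v f w = 0
  unfold singleFun
  exact Pi.single_eq_of_ne (M := fun _ => F) h f

theorem H1mk_eq_zero_of_mem {D : Divisor K F} {α : ↥(repartitions K F)}
    (h : α ∈ repartitionsOf D ⊔ principalRepartitions K F) : H1mk D α = 0 := by
  unfold H1mk
  exact (Submodule.Quotient.mk_eq_zero _).2 h

theorem H1mk_surjective (D : Divisor K F) : Function.Surjective (H1mk D) :=
  Submodule.mkQ_surjective _

theorem single_mem_repartitionsOf {D : Divisor K F} {v : Place K F} {f : F}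
    (hf : v.adicValuation f ≤ exp (D v)) : single v f ∈ repartitionsOf D := by
  intro w
  by_cases h : w = v
  · subst h
    rw [single_apply_self]
    exact hf
  · rw [single_apply_of_ne h]
    simp

theorem WD.loc_apply (lam : WD K F) (v : Place K F) (f : F) :
    lam.loc v f = lam (H1mk (0 : Divisor K F) (single v f)) := rfl

theorem WD.loc_eq_zero' (lam : WD K F) (v : Place K F) {f : F} (hf : v.adicValuation f ≤ 1) :
    lam.loc v f = 0 := by
  rw [WD.loc_apply, H1mk_eq_zero_of_mem, map_zero]
  apply Submodule.mem_sup_left
  apply single_mem_repartitionsOf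
  simpa using hf

/-- the residue theorem, which is automatic for Weil differentials. -/
theorem WD.sum_loc' (lam : WD K F) (f : F) (S : Finset (Place K F))
    (hS : ∀ v : Place K F, ¬ v.adicValuation f ≤ 1 → v ∈ S) : ∑ v ∈ S, lam.loc v f = 0 := by
  classical
  have h1 : ∑ v ∈ S, lam.loc v f = lam (H1mk (0 : Divisor K F) (∑ v ∈ S, single v f)) := by
    simp only [WD.loc_apply, map_sum]
  rw [h1, H1mk_eq_zero_of_mem, map_zero]
  have hc : algebraMap F ↥(repartitions K F) f ∈ principalRepartitions K F :=
    mem_principalRepartitions_iff.2 ⟨f, rfl⟩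
  have hd : (∑ v ∈ S, single v f) - algebraMap F ↥(repartitions K F) f
      ∈ repartitionsOf (0 : Divisor K F) := by
    intro w
    have e1 : (((∑ v ∈ S, single v f) - algebraMap F ↥(repartitions K F) f :
        ↥(repartitions K F)) : Place K F → F) w
        = (∑ v ∈ S, (single v f : Place K F → F) w) - f := by
      have : (((∑ v ∈ S, single v f : ↥(repartitions K F))) : Place K F → F)
          = ∑ v ∈ S, (single v f : Place K F → F) := by
        exact map_sum (repartitions K F).val _ _
      show (((∑ v ∈ S, single v f : ↥(repartitions K F))) : Place K F → F) w - f = _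
      rw [this, Finset.sum_apply]
    rw [e1]
    by_cases hw : w ∈ S
    · rw [Finset.sum_eq_single_of_mem w hw, single_apply_self]
      · simp
      · intro b _ hb
        exact single_apply_of_ne (Ne.symm hb) f
    · rw [Finset.sum_eq_zero]
      · have : w.adicValuation f ≤ 1 := by
          by_contra hcon
          exact hw (hS w hcon)
        simpa using this
      · intro b hb
        apply single_apply_of_ne
        rintro rfl
        exact hw hb
  have := Submodule.add_mem _ (Submodule.mem_sup_left (T := principalRepartitions K F) hd)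
    (Submodule.mem_sup_right (S := repartitionsOf (0 : Divisor K F)) hc)
  simpa using this

end NoHyp

set_option linter.unusedSectionVars false

variable [IsAlgClosed K] [CharZero K] [IsFF K F]

variable (K F) in
theorem finrank_WD : finrank K (WD K F) = genusFF K F := by
  unfold genusFF
  exact Subspace.dual_finrank_eq

instance WD_finiteDimensional : FiniteDimensional K (WD K F) := by
  infer_instance

theorem WD.loc_eq_zero (lam : WD K F) (v : Place K F) {f : F} (hf : v.adicValuation f ≤ 1) :
    lam.loc v f = 0 := WD.loc_eq_zero' lam v hf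

/-- the residue theorem, which is automatic for Weil differentials. -/
theorem WD.sum_loc (lam : WD K F) (f : F) (S : Finset (Place K F))
    (hS : ∀ v : Place K F, ¬ v.adicValuation f ≤ 1 → v ∈ S) : ∑ v ∈ S, lam.loc v f = 0 :=
  WD.sum_loc' lam f S hS

theorem WD.loc_mul (lam : WD K F) (v : Place K F) {u f : F} (hu : v.adicValuation u ≤ 1)
    (hf : v.adicValuation f ≤ exp (1 : ℤ)) : lam.loc v (u * f) = val v u * lam.loc v f := by
  have h1 : v.adicValuation (u - algebraMap K F (val v u)) ≤ exp (-1 : ℤ) :=
    (adic_lt_one_iff v).1 (val_spec v hu)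
  have h2 : u * f = val v u • f + (u - algebraMap K F (val v u)) * f := by
    rw [Algebra.smul_def]; ring
  have h3 : v.adicValuation ((u - algebraMap K F (val v u)) * f) ≤ 1 := by
    rw [map_mul]
    calc _ ≤ exp (-1 : ℤ) * exp (1 : ℤ) := mul_le_mul' h1 hf
      _ = 1 := by rw [← exp_add]; simp
  rw [h2, map_add, map_smul, WD.loc_eq_zero lam v h3, add_zero, smul_eq_mul]

/-- change of uniformizer. -/
theorem WD.loc_inv_unif (lam : WD K F) (v : Place K F) {s t : F}
    (hs : v.adicValuation s = exp (-1 : ℤ)) (ht : v.adicValuation t = exp (-1 : ℤ)) :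
    lam.loc v s⁻¹ = val v (t / s) * lam.loc v t⁻¹ := by
  have ht0 : t ≠ 0 := by
    rintro rfl
    rw [map_zero] at ht
    exact exp_ne_zero ht.symm
  have h1 : v.adicValuation (t / s) ≤ 1 := by
    rw [map_div₀, hs, ht, div_self (by simp)]
  have h2 : v.adicValuation t⁻¹ ≤ exp (1 : ℤ) := by
    rw [map_inv₀, ht, ← exp_neg]; simp
  rw [← WD.loc_mul lam v h1 h2]
  congr 1
  field_simp

/-- the sum of the places of a finset. -/
noncomputable def finsetDiv (T : Finset (Place K F)) : Divisor K F :=
  ∑ v ∈ T, Finsupp.single v 1

omit [IsAlgClosed K] [CharZero K] [IsFF K F] in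
theorem finsetDiv_apply [DecidableEq (Place K F)] (T : Finset (Place K F)) (w : Place K F) :
    finsetDiv T w = if w ∈ T then 1 else 0 := by
  unfold finsetDiv
  rw [Finsupp.finsetSum_apply]
  simp only [Finsupp.single_apply]
  rw [Finset.sum_ite_eq' T w]

theorem degree_finsetDiv (T : Finset (Place K F)) : Divisor.degree (finsetDiv T) = T.card := by
  classical
  rw [degree_eq_sum (finsetDiv T) T]
  · rw [Finset.sum_congr rfl (g := fun _ => (1 : ℤ))]
    · simp
    · intro v hv
      rw [finsetDiv_apply, if_pos hv]
  · intro v hv
    rw [Finsupp.mem_support_iff, finsetDiv_apply] at hv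
    by_contra h
    rw [if_neg h] at hv
    exact hv rfl

/-- a Weil differential whose leading coefficient vanishes at almost all places is zero. -/
theorem WD.eq_zero_of_loc (lam : WD K F) (S : Set (Place K F)) (hS : S.Finite)
    (h : ∀ v ∉ S, ∀ t : F, v.adicValuation t = exp (-1 : ℤ) → lam.loc v t⁻¹ = 0) : lam = 0 := by
  classical
  -- `lam` kills `A(D)` for `D` a sum of distinct places outside `S`
  have key : ∀ T : Finset (Place K F), (∀ v ∈ T, v ∉ S) →
      repartitionsOf (finsetDiv T) ≤ LinearMap.ker (lam ∘ₗ H1mk 0) := by
    intro T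
    induction T using Finset.induction_on with
    | empty =>
      intro _ α hα
      rw [LinearMap.mem_ker, LinearMap.comp_apply, H1mk_eq_zero_of_mem, map_zero]
      apply Submodule.mem_sup_left
      simpa [finsetDiv] using hα
    | insert v T hv ih =>
      intro hT
      obtain ⟨t, ht⟩ := exists_unif v
      have e : finsetDiv (insert v T) = finsetDiv T + Finsupp.single v 1 := by
        unfold finsetDiv
        rw [Finset.sum_insert hv, add_comm]
      have hs : v.adicValuation t⁻¹ = exp (finsetDiv T v + 1) := by
        rw [finsetDiv_apply, if_neg hv, map_inv₀, ht, ← exp_neg]; simp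
      rw [e, repartitionsOf_add_single _ v hs, sup_le_iff]
      refine ⟨ih fun w hw => hT w (Finset.mem_insert_of_mem hw), ?_⟩
      rw [Submodule.span_le, Set.singleton_subset_iff]
      exact h v (hT v (Finset.mem_insert_self v T)) t ht
  obtain ⟨c, hc⟩ := exists_H1_eq_zero K F
  have := infinite_places K F
  have hinf : (Sᶜ : Set (Place K F)).Infinite := hS.infinite_compl
  obtain ⟨T, hTS, hTc⟩ := hinf.exists_subset_card_eq c.toNat
  have hdeg : c ≤ Divisor.degree (finsetDiv T) := by
    rw [degree_finsetDiv, hTc]
    exact Int.self_le_toNat c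
  have htop := (finrank_H1_eq_zero_iff _).1 (hc _ hdeg)
  have hker : LinearMap.ker (lam ∘ₗ H1mk 0) = ⊤ := by
    rw [eq_top_iff, ← htop, sup_le_iff]
    refine ⟨key T fun v hv => hTS hv, ?_⟩
    intro α hα
    rw [LinearMap.mem_ker, LinearMap.comp_apply, H1mk_eq_zero_of_mem, map_zero]
    exact Submodule.mem_sup_right hα
  refine LinearMap.ext fun x => ?_
  obtain ⟨α, rfl⟩ := H1mk_surjective 0 x
  have : α ∈ LinearMap.ker (lam ∘ₗ H1mk 0) := by rw [hker]; trivial
  simpa using this

end Fermat.Agent.S27
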