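import Fermat.Agent.S27.Top
import Fermat.Agent.S27.Weil

/-!
# S27 / WP C0 : analytic charts on `Place ℂ F` (definition by helper76; API = WP C0)
-/

set_option autoImplicit false

open AlgebraicCurve WithZero Topology Metric

namespace Fermat.Agent.S27

/-- An analytic chart: `z ↦ Q z`, `z ∈ ball c r`, is a family of places with `t (Q z) = z`,
along which all functions and all Weil differentials are analytic. -/
structure Chart (F : Type*) [Field F] [Algebra ℂ F] where
  t : F
  c : ℂ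
  r : ℝ
  r_pos : 0 < r
  Q : ℂ → Place ℂ F
  unif : ∀ z ∈ ball c r, (Q z).adicValuation (t - algebraMap ℂ F z) = exp (-1 : ℤ)
  regular_nhds : ∀ (f : F), ∀ z ∈ ball c r, (Q z).adicValuation f ≤ 1 →
    ∀ᶠ w in 𝓝 z, (Q w).adicValuation f ≤ 1
  analytic : ∀ (f : F), ∀ z ∈ ball c r, (Q z).adicValuation f ≤ 1 →
    AnalyticAt ℂ (fun w => val (Q w) f) z
  cf_analytic : ∀ (lam : WD ℂ F), ∀ z ∈ ball c r,
    AnalyticAt ℂ (fun w => lam.loc (Q w) (t - algebraMap ℂ F w)⁻¹) z
  isOpen_image : ∀ (c' : ℂ) (r' : ℝ), ball c' r' ⊆ ball c r → IsOpen (Q '' ball c' r')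

variable {F : Type*} [Field F] [Algebra ℂ F]

namespace Chart

/-- the domain of the chart. -/
def dom (ch : Chart F) : Set ℂ := ball ch.c ch.r

/-- the image of the chart. -/
def img (ch : Chart F) : Set (Place ℂ F) := ch.Q '' ch.dom

/-- coefficient of the Weil differential `lam` in the chart: "`lam = h(z) dz`". -/
noncomputable def h (ch : Chart F) (lam : WD ℂ F) (z : ℂ) : ℂ :=
  lam.loc (ch.Q z) (ch.t - algebraMap ℂ F z)⁻¹

/-- restriction of a chart to a smaller ball. -/
def restrict (ch : Chart F) (c' : ℂ) (r' : ℝ) (hr' : 0 < r') (hsub : ball c' r' ⊆ ball ch.c ch.r) :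
    Chart F where
  t := ch.t
  c := c'
  r := r'
  r_pos := hr'
  Q := ch.Q
  unif z hz := ch.unif z (hsub hz)
  regular_nhds f z hz := ch.regular_nhds f z (hsub hz)
  analytic f z hz := ch.analytic f z (hsub hz)
  cf_analytic lam z hz := ch.cf_analytic lam z (hsub hz)
  isOpen_image c'' r'' h := ch.isOpen_image c'' r'' (h.trans hsub)

variable [IsFF ℂ F] (ch : Chart F)

theorem center_mem : ch.c ∈ ch.dom := mem_ball_self ch.r_pos

theorem exp_neg_one_lt_one : (exp (-1 : ℤ) : ℤᵐ⁰) < 1 := by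
  rw [← exp_zero, exp_lt_exp]; norm_num

theorem regular_t {z : ℂ} (hz : z ∈ ch.dom) : (ch.Q z).adicValuation ch.t ≤ 1 := by
  have h1 := ch.unif z hz
  have h2 : ch.t = (ch.t - algebraMap ℂ F z) + algebraMap ℂ F z := by ring
  rw [h2]
  refine (Valuation.map_add _ _ _).trans
    (max_le ?_ ((ch.Q z).adicValuation_algebraMap_le_one z))
  rw [h1]
  exact exp_neg_one_lt_one.le

theorem val_t {z : ℂ} (hz : z ∈ ch.dom) : val (ch.Q z) ch.t = z := by
  apply val_unique
  rw [ch.unif z hz]
  exact exp_neg_one_lt_one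

theorem injOn : Set.InjOn ch.Q ch.dom := by
  intro z hz w hw h
  rw [← ch.val_t hz, ← ch.val_t hw, h]

theorem isOpen_img : IsOpen ch.img :=
  ch.isOpen_image ch.c ch.r subset_rfl

/-- derivative rule. -/
theorem hasDerivAt_val {f : F} {z : ℂ} (hz : z ∈ ch.dom) (hf : (ch.Q z).adicValuation f ≤ 1) :
    HasDerivAt (fun w => val (ch.Q w) f)
      (val (ch.Q z) ((f - algebraMap ℂ F (val (ch.Q z) f)) / (ch.t - algebraMap ℂ F z))) z := by
  set a : ℂ := val (ch.Q z) f with ha
  set g : F := (f - algebraMap ℂ F a) / (ch.t - algebraMap ℂ F z) with hg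
  have hu := ch.unif z hz
  have ht0 : ch.t - algebraMap ℂ F z ≠ 0 := by
    intro h0
    rw [h0, map_zero] at hu
    exact exp_ne_zero hu.symm
  have hgreg : (ch.Q z).adicValuation g ≤ 1 := by
    have h1 : (ch.Q z).adicValuation (f - algebraMap ℂ F a) ≤ exp (-1 : ℤ) :=
      (adic_lt_one_iff _).1 (val_spec _ hf)
    rw [hg, map_div₀, hu]
    exact div_le_one_of_le₀ h1 zero_le
  have hfg : f = algebraMap ℂ F a + g * (ch.t - algebraMap ℂ F z) := by
    rw [hg, div_mul_cancel₀ _ ht0]; ring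
  have hG : AnalyticAt ℂ (fun w => val (ch.Q w) g) z := ch.analytic g z hz hgreg
  have hev : (fun w => val (ch.Q w) f) =ᶠ[𝓝 z] fun w => a + val (ch.Q w) g * (w - z) := by
    filter_upwards [ch.regular_nhds g z hz hgreg, isOpen_ball.mem_nhds hz] with w hw1 hw2
    have hc : ∀ b : ℂ, (ch.Q w).adicValuation (algebraMap ℂ F b) ≤ 1 :=
      fun b => (ch.Q w).adicValuation_algebraMap_le_one b
    have htw : (ch.Q w).adicValuation ch.t ≤ 1 := ch.regular_t hw2
    have htz : (ch.Q w).adicValuation (ch.t - algebraMap ℂ F z) ≤ 1 :=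
      (Valuation.map_sub _ _ _).trans (max_le htw (hc z))
    have hmul : (ch.Q w).adicValuation (g * (ch.t - algebraMap ℂ F z)) ≤ 1 := by
      rw [map_mul]; exact mul_le_one' hw1 htz
    conv_lhs => rw [hfg]
    rw [val_add _ (hc a) hmul, val_mul _ hw1 htz, val_sub _ htw (hc z), val_algebraMap,
      val_algebraMap, ch.val_t hw2]
  have hd : HasDerivAt (fun w => a + val (ch.Q w) g * (w - z)) (val (ch.Q z) g) z := by
    have h1 := hG.differentiableAt.hasDerivAt
    have h2 : HasDerivAt (fun w : ℂ => w - z) 1 z := (hasDerivAt_id z).sub_const z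
    have h3 := (h1.mul h2).const_add a
    simpa using h3
  exact hd.congr_of_eventuallyEq hev

theorem regular_of_simple {v : Place ℂ F} {f : F} {a : ℂ}
    (hf : v.adicValuation (f - algebraMap ℂ F a) = exp (-1 : ℤ)) : v.adicValuation f ≤ 1 := by
  have h2 : f = (f - algebraMap ℂ F a) + algebraMap ℂ F a := by ring
  rw [h2]
  refine (Valuation.map_add _ _ _).trans (max_le ?_ (v.adicValuation_algebraMap_le_one a))
  rw [hf]
  exact exp_neg_one_lt_one.le

theorem adic_div_eq_one {v : Place ℂ F} {s t : F} (hs : v.adicValuation s = exp (-1 : ℤ))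
    (ht : v.adicValuation t = exp (-1 : ℤ)) : v.adicValuation (s / t) = 1 := by
  rw [map_div₀, hs, ht, div_self exp_ne_zero]

/-- a simple zero of `f - f(Q z)` gives a nonzero derivative. -/
theorem deriv_ne_zero {f : F} {z : ℂ} (hz : z ∈ ch.dom)
    (hf : (ch.Q z).adicValuation (f - algebraMap ℂ F (val (ch.Q z) f)) = exp (-1 : ℤ)) :
    deriv (fun w => val (ch.Q w) f) z ≠ 0 := by
  rw [(ch.hasDerivAt_val hz (regular_of_simple hf)).deriv]
  have h1 := adic_div_eq_one hf (ch.unif z hz)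
  rw [Ne, val_eq_zero_iff _ h1.le, h1]
  exact lt_irrefl _

/-- local component of `lam` on `1/(μ - μ(Q z))` when `μ - μ(Q z)` has a simple zero at `Q z`. -/
theorem loc_inv_sub (lam : WD ℂ F) {μ : F} {z : ℂ} (hz : z ∈ ch.dom)
    (hμ : (ch.Q z).adicValuation (μ - algebraMap ℂ F (val (ch.Q z) μ)) = exp (-1 : ℤ)) :
    lam.loc (ch.Q z) (μ - algebraMap ℂ F (val (ch.Q z) μ))⁻¹ =
      ch.h lam z * (deriv (fun w => val (ch.Q w) μ) z)⁻¹ := by
  rw [(ch.hasDerivAt_val hz (regular_of_simple hμ)).deriv,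
    WD.loc_inv_unif lam (ch.Q z) hμ (ch.unif z hz),
    ← val_inv _ (adic_div_eq_one hμ (ch.unif z hz)), inv_div, mul_comm]
  rfl

theorem differentiableOn_h (lam : WD ℂ F) : DifferentiableOn ℂ (ch.h lam) ch.dom :=
  fun z hz => (ch.cf_analytic lam z hz).differentiableAt.differentiableWithinAt

/-- the primitive of `lam` in the chart vanishing at the centre (integral along the segment);
it depends only on `Q`, `t`, `c`, not on the radius. -/
noncomputable def prim (ch : Chart F) (lam : WD ℂ F) (z : ℂ) : ℂ :=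
  (z - ch.c) * ∫ s in (0 : ℝ)..1, ch.h lam (ch.c + s * (z - ch.c))

theorem prim_center (lam : WD ℂ F) : ch.prim lam ch.c = 0 := by
  simp [prim]

theorem hasDerivAt_prim (lam : WD ℂ F) {z : ℂ} (hz : z ∈ ch.dom) :
    HasDerivAt (ch.prim lam) (ch.h lam z) z := by
  obtain ⟨H, hH⟩ := (ch.differentiableOn_h lam).isExactOn_ball
  have hseg : ∀ w ∈ ch.dom, ∀ s ∈ Set.uIcc (0 : ℝ) 1, ch.c + (s : ℂ) * (w - ch.c) ∈ ch.dom := by
    intro w hw s hs
    rw [Set.uIcc_of_le zero_le_one] at hs
    have hw' : ‖w - ch.c‖ < ch.r := mem_ball_iff_norm.1 hw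
    have : ‖(s : ℂ) * (w - ch.c)‖ ≤ ‖w - ch.c‖ := by
      rw [norm_mul, Complex.norm_real, Real.norm_eq_abs, abs_of_nonneg hs.1]
      exact mul_le_of_le_one_left (norm_nonneg _) hs.2
    refine mem_ball_iff_norm.2 ?_
    rw [add_sub_cancel_left]
    exact this.trans_lt hw'
  have key : ∀ w ∈ ch.dom, ch.prim lam w = H w - H ch.c := by
    intro w hw
    have hderiv : ∀ s ∈ Set.uIcc (0 : ℝ) 1,
        HasDerivAt (fun s : ℝ => H (ch.c + (s : ℂ) * (w - ch.c)))
          (ch.h lam (ch.c + (s : ℂ) * (w - ch.c)) * (w - ch.c)) s := by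
      intro s hs
      have h1 : HasDerivAt (fun s : ℝ => ch.c + (s : ℂ) * (w - ch.c)) (w - ch.c) s := by
        have := ((Complex.ofRealCLM.hasDerivAt (x := s)).mul_const (w - ch.c)).const_add ch.c
        simpa using this
      exact (hH _ (hseg w hw s hs)).comp_of_eq s h1 rfl
    have hcont : ContinuousOn (fun s : ℝ => ch.h lam (ch.c + (s : ℂ) * (w - ch.c)) * (w - ch.c))
        (Set.uIcc (0 : ℝ) 1) := by
      refine ContinuousOn.mul ?_ continuousOn_const
      refine (ch.differentiableOn_h lam).continuousOn.comp ?_ (fun s hs => hseg w hw s hs)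
      fun_prop
    have hint := intervalIntegral.integral_eq_sub_of_hasDerivAt hderiv hcont.intervalIntegrable
    rw [intervalIntegral.integral_mul_const] at hint
    simp only [Complex.ofReal_one, one_mul, Complex.ofReal_zero, zero_mul, add_zero,
      add_sub_cancel] at hint
    rw [prim, mul_comm, hint]
  have hev : ch.prim lam =ᶠ[𝓝 z] fun w => H w - H ch.c := by
    filter_upwards [isOpen_ball.mem_nhds hz] with w hw using key w hw
  exact ((hH z hz).sub_const _).congr_of_eventuallyEq hev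

/-- non constant functions are open maps in a chart (open mapping theorem). -/
theorem val_image_mem_nhds {f : F} (hf : f ∉ Set.range (algebraMap ℂ F)) {z : ℂ} (hz : z ∈ ch.dom)
    (hreg : (ch.Q z).adicValuation f ≤ 1) {U : Set ℂ} (hU : U ∈ 𝓝 z) :
    (fun w => val (ch.Q w) f) '' U ∈ 𝓝 (val (ch.Q z) f) := by
  rcases (ch.analytic f z hz hreg).eventually_constant_or_nhds_le_map_nhds with hconst | hopen
  · exfalso
    set a : ℂ := val (ch.Q z) f with ha
    have hne : f - algebraMap ℂ F a ≠ 0 := fun h0 => hf ⟨a, (sub_eq_zero.1 h0).symm⟩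
    have hfin := finite_zeros (K := ℂ) hne
    have hS : {w : ℂ | val (ch.Q w) f = a ∧ (ch.Q w).adicValuation f ≤ 1 ∧ w ∈ ch.dom} ∈ 𝓝 z := by
      filter_upwards [hconst, ch.regular_nhds f z hz hreg, isOpen_ball.mem_nhds hz]
        with w h1 h2 h3 using ⟨h1, h2, h3⟩
    have hinf := infinite_of_mem_nhds z hS
    refine (hinf.image (f := ch.Q) (ch.injOn.mono fun w hw => hw.2.2)) (hfin.subset ?_)
    rintro _ ⟨w, ⟨h1, h2, -⟩, rfl⟩
    have := val_spec (ch.Q w) h2
    rwa [h1] at this
  · exact hopen (Filter.image_mem_map hU)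

end Chart

end Fermat.Agent.S27
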