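import Fermat.Agent.S27.LatticeCount

/-!
# S27 leaf (EXT): a local homomorphism on a ball extends to a global homomorphism

`c : E → G` additive on the open ball of radius `r` extends uniquely to `e : E →+ G`.
We also package the consequences needed for the torsion count.
-/

set_option autoImplicit false

open Module

namespace Fermat.Agent.S27

section LocalHom

variable {E : Type*} [NormedAddCommGroup E] [NormedSpace ℝ E]
variable {G : Type*} [AddCommGroup G]

/-- `c` is additive on the open ball of radius `r`. -/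
def IsLocalHom (c : E → G) (r : ℝ) : Prop :=
  ∀ x y : E, ‖x‖ < r → ‖y‖ < r → ‖x + y‖ < r → c (x + y) = c x + c y

namespace IsLocalHom

variable {c : E → G} {r : ℝ}

theorem map_zero (hc : IsLocalHom c r) (hr : 0 < r) : c 0 = 0 := by
  have h := hc 0 0 (by simpa using hr) (by simpa using hr) (by simpa using hr)
  rw [add_zero] at h
  have : c 0 + 0 = c 0 + c 0 := by rw [add_zero]; exact h
  exact (add_left_cancel this).symm

theorem map_nsmul_aux (hc : IsLocalHom c r) (hr : 0 < r) (z : E) (m : ℕ)
    (hz : ∀ k : ℕ, k ≤ m → ‖(k : ℝ) • z‖ < r) :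
    ∀ k : ℕ, k ≤ m → c ((k : ℝ) • z) = k • c z := by
  intro k
  induction k with
  | zero => intro _; simp [hc.map_zero hr]
  | succ k ih =>
    intro hk
    have h1 : ((k + 1 : ℕ) : ℝ) • z = (k : ℝ) • z + z := by
      push_cast; rw [add_smul, one_smul]
    have hz1 : ‖z‖ < r := by
      have := hz 1 (by omega)
      simpa using this
    rw [h1, hc _ _ (hz k (by omega)) hz1 (by rw [← h1]; exact hz _ hk), ih (by omega), succ_nsmul]

/-- division lemma: for `y` in the ball, `c y = m • c (y / m)`. -/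
theorem nsmul_map_inv_smul (hc : IsLocalHom c r) (hr : 0 < r) {y : E} (hy : ‖y‖ < r) {m : ℕ}
    (hm : 0 < m) : m • c ((m : ℝ)⁻¹ • y) = c y := by
  have hmR : (0 : ℝ) < m := by exact_mod_cast hm
  have hz : ∀ k : ℕ, k ≤ m → ‖(k : ℝ) • ((m : ℝ)⁻¹ • y)‖ < r := by
    intro k hk
    rw [smul_smul, norm_smul]
    have hk' : (k : ℝ) ≤ m := by exact_mod_cast hk
    have h1 : ‖(k : ℝ) * (m : ℝ)⁻¹‖ ≤ 1 := by
      rw [Real.norm_of_nonneg (by positivity), ← div_eq_mul_inv, div_le_one hmR]
      exact hk'
    calc ‖(k : ℝ) * (m : ℝ)⁻¹‖ * ‖y‖ ≤ 1 * ‖y‖ := by gcongr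
      _ = ‖y‖ := one_mul _
      _ < r := hy
  have := hc.map_nsmul_aux hr _ m hz m le_rfl
  rw [← this, smul_smul, mul_inv_cancel₀ hmR.ne', one_smul]

theorem nsmul_indep (hc : IsLocalHom c r) (hr : 0 < r) (x : E) {M M' : ℕ} (hM : 0 < M)
    (hM' : 0 < M') (h : ‖x‖ < M * r) (h' : ‖x‖ < M' * r) :
    M • c ((M : ℝ)⁻¹ • x) = M' • c ((M' : ℝ)⁻¹ • x) := by
  have hMR : (0 : ℝ) < M := by exact_mod_cast hM
  have hMR' : (0 : ℝ) < M' := by exact_mod_cast hM'
  have hb : ‖(M : ℝ)⁻¹ • x‖ < r := by
    rw [norm_smul, Real.norm_of_nonneg (by positivity), inv_mul_lt_iff₀ hMR]; exact h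
  have hb' : ‖(M' : ℝ)⁻¹ • x‖ < r := by
    rw [norm_smul, Real.norm_of_nonneg (by positivity), inv_mul_lt_iff₀ hMR']; exact h'
  rw [← hc.nsmul_map_inv_smul hr hb hM', ← hc.nsmul_map_inv_smul hr hb' hM, smul_smul, smul_smul,
    smul_smul, smul_smul, mul_comm M M', mul_comm (M : ℝ)⁻¹]

/-- the scaling integer used in the definition of the extension. -/
noncomputable def scale (r : ℝ) (x : E) : ℕ := ⌊‖x‖ / r⌋₊ + 1

theorem scale_pos (r : ℝ) (x : E) : 0 < scale r x := Nat.succ_pos _

theorem lt_scale_mul (hr : 0 < r) (x : E) : ‖x‖ < scale r x * r := by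
  have := Nat.lt_floor_add_one (‖x‖ / r)
  rw [div_lt_iff₀ hr] at this
  simpa [scale] using this

/-- The global homomorphism extending a local homomorphism. -/
noncomputable def extend (hc : IsLocalHom c r) (hr : 0 < r) : E →+ G where
  toFun x := scale r x • c ((scale r x : ℝ)⁻¹ • x)
  map_zero' := by simp [hc.map_zero hr]
  map_add' x y := by
    -- a common scale
    set M := scale r x + scale r y + scale r (x + y) with hMdef
    have hM : 0 < M := by have := scale_pos r x; omega
    have hMR : (0 : ℝ) < M := by exact_mod_cast hM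
    have hle : ∀ {z : E}, scale r z ≤ M → ‖z‖ < M * r := by
      intro z hz
      have h1 := lt_scale_mul hr z
      have h2 : (scale r z : ℝ) * r ≤ M * r := by
        have : (scale r z : ℝ) ≤ M := by exact_mod_cast hz
        gcongr
      linarith
    have hx := hle (z := x) (by omega)
    have hy := hle (z := y) (by omega)
    have hxy := hle (z := x + y) (by omega)
    rw [hc.nsmul_indep hr x (scale_pos r x) hM (lt_scale_mul hr x) hx,
      hc.nsmul_indep hr y (scale_pos r y) hM (lt_scale_mul hr y) hy,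
      hc.nsmul_indep hr (x + y) (scale_pos r _) hM (lt_scale_mul hr _) hxy, smul_add, ← nsmul_add]
    congr 1
    have hb : ∀ {z : E}, ‖z‖ < M * r → ‖(M : ℝ)⁻¹ • z‖ < r := by
      intro z hz
      rw [norm_smul, Real.norm_of_nonneg (by positivity), inv_mul_lt_iff₀ hMR]; exact hz
    exact hc _ _ (hb hx) (hb hy) (by rw [← smul_add]; exact hb hxy)

theorem extend_apply_of_lt (hc : IsLocalHom c r) (hr : 0 < r) {x : E} (hx : ‖x‖ < r) :
    hc.extend hr x = c x := by
  show scale r x • c ((scale r x : ℝ)⁻¹ • x) = c x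
  exact hc.nsmul_map_inv_smul hr hx (scale_pos r x)

/-- Uniqueness of the extension. -/
theorem extend_unique (hc : IsLocalHom c r) (hr : 0 < r) (e : E →+ G)
    (he : ∀ x : E, ‖x‖ < r → e x = c x) : e = hc.extend hr := by
  ext x
  have hM := scale_pos r x
  have hMR : (0 : ℝ) < scale r x := by exact_mod_cast hM
  have hb : ‖(scale r x : ℝ)⁻¹ • x‖ < r := by
    rw [norm_smul, Real.norm_of_nonneg (by positivity), inv_mul_lt_iff₀ hMR]
    exact lt_scale_mul hr x
  show e x = scale r x • c ((scale r x : ℝ)⁻¹ • x)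
  rw [← he _ hb, ← map_nsmul]
  congr 1
  rw [← Nat.cast_smul_eq_nsmul ℝ, smul_smul, mul_inv_cancel₀ hMR.ne', one_smul]

end IsLocalHom

/-- existence statement (no reference to the construction). -/
theorem exists_hom_of_isLocalHom {c : E → G} {r : ℝ} (hr : 0 < r) (hc : IsLocalHom c r) :
    ∃ e : E →+ G, ∀ x : E, ‖x‖ < r → e x = c x :=
  ⟨hc.extend hr, fun _ hx => hc.extend_apply_of_lt hr hx⟩

/-- A homomorphism that is injective near `0` has discrete kernel. -/
theorem discreteTopology_ker_of_ball (e : E →+ G) {r : ℝ} (hr : 0 < r)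
    (h : ∀ x : E, ‖x‖ < r → e x = 0 → x = 0) : DiscreteTopology e.ker := by
  apply discreteTopology_of_isOpen_singleton_zero
  have : ({0} : Set e.ker) = Subtype.val ⁻¹' (Metric.ball (0 : E) r) := by
    ext ⟨x, hx⟩
    simp only [Set.mem_singleton_iff, Set.mem_preimage, Metric.mem_ball, dist_zero_right]
    constructor
    · intro h0
      have : x = 0 := congrArg Subtype.val h0
      simpa [this] using hr
    · intro hxr
      exact Subtype.ext (h x hxr hx)
  rw [this]
  exact Metric.isOpen_ball.preimage continuous_subtype_val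

variable [FiniteDimensional ℝ E]

/-- **Torsion count from a local chart** (abstract "Lie group" statement).
`e : E →+ G` is injective on a ball, and `G` is covered by finitely many translates of the image of
a bounded set.  Then `#G[n] = n ^ dim E`. -/
theorem card_torsion_of_hom (e : E →+ G) {r : ℝ} (hr : 0 < r)
    (hinj : ∀ x : E, ‖x‖ < r → e x = 0 → x = 0)
    (S : Set G) (hS : S.Finite) (ρ : ℝ)
    (hcov : ∀ g : G, ∃ s ∈ S, ∃ y : E, ‖y‖ ≤ ρ ∧ g = s + e y)
    (hSe : ∀ s ∈ S, ∃ x : E, e x = s)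
    (n : ℕ) (hn : 0 < n) :
    Nat.card {x : G // n • x = 0} = n ^ finrank ℝ E := by
  classical
  have hsurj : Function.Surjective e := by
    intro g
    obtain ⟨s, hs, y, _, rfl⟩ := hcov g
    obtain ⟨x, rfl⟩ := hSe s hs
    exact ⟨x + y, map_add e x y⟩
  choose! lift hlift using hSe
  let K : Set E := ⋃ s ∈ S, (fun y => lift s + y) '' Metric.closedBall (0 : E) ρ
  have hK : IsCompact K :=
    hS.isCompact_biUnion fun s _ =>
      (isCompact_closedBall (0 : E) ρ).image (continuous_const.add continuous_id)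
  refine card_torsion_of_lattice e hsurj (discreteTopology_ker_of_ball e hr hinj) K hK ?_ n hn
  intro x
  obtain ⟨s, hs, y, hy, hxy⟩ := hcov (e x)
  refine ⟨lift s + y, ?_, ?_⟩
  · simp only [K, Set.mem_iUnion]
    exact ⟨s, hs, y, by simpa using hy, rfl⟩
  · rw [hxy, map_add, hlift s hs]

/-- Version starting from a local homomorphism `c` on a ball:
`c` additive and injective on the ball of radius `r`, the image of the ball generates `G`, and
finitely many translates of the image of the ball cover `G`. -/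
theorem card_torsion_of_isLocalHom {c : E → G} {r : ℝ} (hr : 0 < r) (hc : IsLocalHom c r)
    (hinj : ∀ x : E, ‖x‖ < r → c x = 0 → x = 0)
    (hgen : AddSubgroup.closure (c '' Metric.ball (0 : E) r) = ⊤)
    (S : Set G) (hS : S.Finite)
    (hcov : ∀ g : G, ∃ s ∈ S, ∃ y : E, ‖y‖ < r ∧ g = s + c y)
    (n : ℕ) (hn : 0 < n) :
    Nat.card {x : G // n • x = 0} = n ^ finrank ℝ E := by
  set e := hc.extend hr with he
  have hec : ∀ x : E, ‖x‖ < r → e x = c x := fun x hx => hc.extend_apply_of_lt hr hx
  have hsurj : Function.Surjective e := by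
    rw [← AddMonoidHom.range_eq_top, eq_top_iff, ← hgen, AddSubgroup.closure_le]
    rintro _ ⟨x, hx, rfl⟩
    exact ⟨x, hec x (by simpa using hx)⟩
  refine card_torsion_of_hom e hr (fun x hx h0 => hinj x hx (by rw [← hec x hx]; exact h0)) S hS r
    ?_ (fun s _ => hsurj s) n hn
  intro g
  obtain ⟨s, hs, y, hy, rfl⟩ := hcov g
  exact ⟨s, hs, y, hy.le, by rw [hec y hy]⟩

end LocalHom

end Fermat.Agent.S27
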