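import Fermat.Agent.S27.Pencil
import Fermat.Agent.S27.LocalHom

/-!
# S27 / WP C4 : local additivity of the local exponential (proofs)
-/

set_option autoImplicit false

open AlgebraicCurve WithZero Topology Metric

namespace Fermat.Agent.S27

variable {F : Type*} [Field F] [Algebra ℂ F] [IsFF ℂ F] {g : ℕ}

namespace C4

theorem I_center (ch : Chart F) (b : Fin g → WD ℂ F) : ch.I b ch.c = 0 := by
  funext i
  exact ch.prim_center (b i)

theorem continuousAt_I (ch : Chart F) (b : Fin g → WD ℂ F) : ContinuousAt (ch.I b) ch.c :=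
  continuousAt_pi.2 fun i => (ch.hasDerivAt_prim (b i) ch.center_mem).continuousAt

/-- `I` is small near the centre. -/
theorem exists_I_small (ch : Chart F) (b : Fin g → WD ℂ F) {η : ℝ} (hη : 0 < η) :
    ∃ d : ℝ, 0 < d ∧ ∀ z ∈ ball ch.c d, ‖ch.I b z‖ < η := by
  obtain ⟨d, hd, h⟩ := Metric.continuousAt_iff.1 (continuousAt_I ch b) η hη
  refine ⟨d, hd, fun z hz => ?_⟩
  have := h hz
  rwa [I_center, dist_zero_right] at this

/-- a positive lower bound for finitely many positive reals. -/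
theorem exists_pos_le {ι : Type*} [Finite ι] (a : ι → ℝ) (ha : ∀ j, 0 < a j) :
    ∃ ε : ℝ, 0 < ε ∧ ∀ j, ε ≤ a j := by
  have h : ∀ᶠ ε in 𝓝[>] (0 : ℝ), 0 < ε ∧ ∀ j, ε ≤ a j := by
    refine (eventually_mem_nhdsWithin).and (Filter.eventually_all.2 fun j => ?_)
    exact Filter.Eventually.filter_mono nhdsWithin_le_nhds (Iic_mem_nhds (ha j))
  exact h.exists

/-- successive application of `e_add_I` along the charts of a system `T` with small primitives. -/
theorem e_add_sum (hg : genusFF ℂ F = g) (b : Fin g → WD ℂ F) (S T : Sys F g) {ρ : ℝ}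
    (hS : S.Good b ρ) (hdisj : ∀ i j, Disjoint (S.ch i).img (T.ch j).img)
    (hI : ∀ j, ∀ z ∈ (T.ch j).dom, ‖(T.ch j).I b z‖ < ρ / (2 * (g + 1)))
    {u : Fin g → ℂ} (hu : ‖u‖ < ρ / 2) {z : Fin g → ℂ} (hz : z ∈ T.dom) (s : Finset (Fin g)) :
    S.e b (u + ∑ j ∈ s, (T.ch j).I b (z j)) =
      S.e b u + ∑ j ∈ s, pd ((T.ch j).Q (z j)) (T.ch j).P := by
  classical
  induction s using Finset.induction_on with
  | empty => simp
  | insert a s ha ih =>
    rw [Finset.sum_insert ha, Finset.sum_insert ha]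
    have e1 : u + ((T.ch a).I b (z a) + ∑ j ∈ s, (T.ch j).I b (z j)) =
        (u + ∑ j ∈ s, (T.ch j).I b (z j)) + (T.ch a).I b (z a) := by abel
    rw [e1, S.e_add_I hg b hS (T.ch a) (fun i => hdisj i a) (hz a), ih]
    · abel
    · intro z' hz'
      set η : ℝ := ρ / (2 * (g + 1)) with hη
      have hcard : (s.card : ℝ) + 1 ≤ g := by
        have h1 : (insert a s).card ≤ Fintype.card (Fin g) := Finset.card_le_univ _
        rw [Finset.card_insert_of_notMem ha, Fintype.card_fin] at h1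
        exact_mod_cast h1
      have hηpos : 0 < η := by
        have := hS.ρ_pos
        positivity
      have h1 : ‖∑ j ∈ s, (T.ch j).I b (z j)‖ ≤ s.card * η := by
        refine (norm_sum_le _ _).trans ?_
        have := Finset.sum_le_card_nsmul s (fun j => ‖(T.ch j).I b (z j)‖) η
          (fun j _ => (hI j (z j) (hz j)).le)
        simpa using this
      have h2 := hI a (z a) (hz a)
      have h3 := hI a z' hz'
      have h4 : ‖u + ∑ j ∈ s, (T.ch j).I b (z j) + (T.ch a).I b (z a) - (T.ch a).I b z'‖ ≤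
          ‖u‖ + ‖∑ j ∈ s, (T.ch j).I b (z j)‖ + ‖(T.ch a).I b (z a)‖ + ‖(T.ch a).I b z'‖ := by
        refine (norm_sub_le _ _).trans ?_
        gcongr
        refine (norm_add_le _ _).trans ?_
        gcongr
        exact norm_add_le _ _
      have h5 : ((g : ℝ) + 1) * η = ρ / 2 := by
        rw [hη]
        have : (g : ℝ) + 1 ≠ 0 := by positivity
        field_simp
      have h6 : (s.card : ℝ) * η + η + η ≤ ((g : ℝ) + 1) * η := by
        nlinarith
      linarith

/-- **C4a.** two good systems with disjoint images: `e_S (u + Psi' z) = e_S u + cl' z`. -/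
theorem e_add_Psi (hg : genusFF ℂ F = g) (b : Fin g → WD ℂ F) (S S' : Sys F g) {ρ ρ' : ℝ}
    (hS : S.Good b ρ) (hS' : S'.Good b ρ') (hdisj : ∀ i j, Disjoint (S.ch i).img (S'.ch j).img) :
    ∃ δ : ℝ, 0 < δ ∧ ∀ u v : Fin g → ℂ, ‖u‖ < δ → ‖v‖ < δ →
      S.e b (u + v) = S.e b u + S'.e b v := by
  have hρ := hS.ρ_pos
  have hη : 0 < ρ / (2 * (g + 1)) := by positivity
  obtain ⟨ε₀, hε₀, hgood⟩ := S'.exists_good_shrink b (hS'.det_ne _ S'.ctr_mem)
  choose d hd hdI using fun j => exists_I_small (S'.ch j) b hη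
  obtain ⟨ε, hε, hεle⟩ := exists_pos_le (fun j : Option (Fin g) =>
    j.elim ε₀ fun j => min (d j) (S'.ch j).r) (by
      rintro (_ | j)
      · exact hε₀
      · exact lt_min (hd j) (S'.ch j).r_pos)
  have hle : ∀ j, ε ≤ (S'.ch j).r := fun j => (hεle (some j)).trans (min_le_right _ _)
  have hled : ∀ j, ε ≤ d j := fun j => (hεle (some j)).trans (min_le_left _ _)
  obtain ⟨ρ'', hS''⟩ := hgood ε hε hle (hεle none)
  set T := S'.shrink ε hε hle with hT
  refine ⟨min ρ'' (ρ / 2), lt_min hS''.ρ_pos (by positivity), fun u v hu hv => ?_⟩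
  obtain ⟨z, hz, rfl⟩ := hS''.surj v (hv.trans_le (min_le_left _ _))
  have hTdisj : ∀ i j, Disjoint (S.ch i).img (T.ch j).img := fun i j =>
    (hdisj i j).mono_right (Set.image_mono (ball_subset_ball (hle j)))
  have hTI : ∀ j, ∀ z ∈ (T.ch j).dom, ‖(T.ch j).I b z‖ < ρ / (2 * (g + 1)) := fun j z hz =>
    hdI j z (ball_subset_ball (hled j) hz)
  have key := e_add_sum hg b S T hS hTdisj hTI (hu.trans_le (min_le_right _ _)) hz Finset.univ
  rw [← S'.shrink_e b hS' ε hε hle hS'' (hv.trans_le (min_le_left _ _)), T.e_Psi b hS'' hz]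
  have hcl : T.cl z = ∑ j, pd ((T.ch j).Q (z j)) (T.ch j).P := by
    unfold Sys.cl
    rw [dcl_sumDiv_sub]
    rfl
  rw [hcl, ← key]
  rfl

/-- **C4b.** `e_S` is a local homomorphism, and `e_S = e_S'` near `0`. -/
theorem e_local_hom (hg : genusFF ℂ F = g) (b : Fin g → WD ℂ F) (S S' : Sys F g) {ρ ρ' : ℝ}
    (hS : S.Good b ρ) (hS' : S'.Good b ρ') (hdisj : ∀ i j, Disjoint (S.ch i).img (S'.ch j).img) :
    ∃ δ : ℝ, 0 < δ ∧ (∀ u v : Fin g → ℂ, ‖u‖ < δ → ‖v‖ < δ → S.e b (u + v) = S.e b u + S.e b v) ∧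
      ∀ v : Fin g → ℂ, ‖v‖ < δ → S'.e b v = S.e b v := by
  obtain ⟨δ, hδ, h⟩ := e_add_Psi hg b S S' hS hS' hdisj
  have h0 : S.e b 0 = 0 := by
    rw [← S.Psi_ctr b, S.e_Psi b hS S.ctr_mem, S.cl_ctr]
  have h1 : ∀ v : Fin g → ℂ, ‖v‖ < δ → S'.e b v = S.e b v := by
    intro v hv
    have := h 0 v (by simpa using hδ) hv
    rw [zero_add, h0, zero_add] at this
    exact this.symm
  exact ⟨δ, hδ, fun u v hu hv => by rw [h u v hu hv, h1 v hv], h1⟩

end C4

end Fermat.Agent.S27
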