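import Fermat.Agent.S27.Pencil
import Fermat.Agent.S27.LocalHom
import Fermat.Agent.S27.ExpC4

/-!
# S27 / WPs C4, C5 : the exponential map `ℂ^g → Pic0`
-/

set_option autoImplicit false

open AlgebraicCurve WithZero Topology Metric

namespace Fermat.Agent.S27

variable {F : Type*} [Field F] [Algebra ℂ F] [IsFF ℂ F] {g : ℕ}

/-- **C4a.** two good systems with disjoint images: `e_S (u + Psi' z) = e_S u + cl' z`. -/
theorem Sys.e_add_Psi (hg : genusFF ℂ F = g) (b : Fin g → WD ℂ F) (S S' : Sys F g) {ρ ρ' : ℝ}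
    (hS : S.Good b ρ) (hS' : S'.Good b ρ') (hdisj : ∀ i j, Disjoint (S.ch i).img (S'.ch j).img) :
    ∃ δ : ℝ, 0 < δ ∧ ∀ u v : Fin g → ℂ, ‖u‖ < δ → ‖v‖ < δ →
      S.e b (u + v) = S.e b u + S'.e b v :=
  C4.e_add_Psi hg b S S' hS hS' hdisj

/-- **C4b.** `e_S` is a local homomorphism, and `e_S = e_S'` near `0`. -/
theorem Sys.e_local_hom (hg : genusFF ℂ F = g) (b : Fin g → WD ℂ F) (S S' : Sys F g) {ρ ρ' : ℝ}
    (hS : S.Good b ρ) (hS' : S'.Good b ρ') (hdisj : ∀ i j, Disjoint (S.ch i).img (S'.ch j).img) :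
    ∃ δ : ℝ, 0 < δ ∧ (∀ u v : Fin g → ℂ, ‖u‖ < δ → ‖v‖ < δ → S.e b (u + v) = S.e b u + S.e b v) ∧
      ∀ v : Fin g → ℂ, ‖v‖ < δ → S'.e b v = S.e b v :=
  C4.e_local_hom hg b S S' hS hS' hdisj

end Fermat.Agent.S27
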