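import Fermat.Agent.S27.Exp

/-!
# S27 / WP C5 : the chart formula and the exponential map `ℂ^g → Pic0`
(statements: helper76, proofs: helper41)
-/

set_option autoImplicit false

open AlgebraicCurve WithZero Topology Metric

namespace Fermat.Agent.S27

variable {F : Type*} [Field F] [Algebra ℂ F] [IsFF ℂ F] {g : ℕ}

/-- the vector of primitives is continuous on the domain of the chart. -/
theorem Chart.continuousOn_I (ch : Chart F) (b : Fin g → WD ℂ F) :
    ContinuousOn (ch.I b) ch.dom := by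
  rw [continuousOn_pi]
  intro i z hz
  exact (ch.hasDerivAt_prim (b i) hz).continuousAt.continuousWithinAt

/-- the primitives are small near the centre. -/
theorem Chart.exists_I_small (ch : Chart F) (b : Fin g → WD ℂ F) {m : ℝ} (hm : 0 < m) :
    ∃ ε : ℝ, 0 < ε ∧ ∀ z ∈ ball ch.c ε, ‖ch.I b z‖ < m := by
  have hcont : ContinuousAt (ch.I b) ch.c :=
    (ch.continuousOn_I b).continuousAt (isOpen_ball.mem_nhds ch.center_mem)
  obtain ⟨ε, hε, h⟩ := Metric.continuousAt_iff.1 hcont m hm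
  refine ⟨ε, hε, fun z hz => ?_⟩
  have := h (mem_ball.1 hz)
  rwa [ch.I_center b, dist_zero_right] at this

theorem Sys.e_zero (S : Sys F g) (b : Fin g → WD ℂ F) {ρ : ℝ} (hS : S.Good b ρ) :
    S.e b 0 = 0 := by
  have := S.e_Psi b hS S.ctr_mem
  rwa [S.Psi_ctr, S.cl_ctr] at this

theorem Chart.P_mem_img (ch : Chart F) : ch.P ∈ ch.img := ⟨ch.c, ch.center_mem, rfl⟩

/-- **C5.** if `φ` agrees with `e_S` near `0` and `P` is not a centre of `S`, then
`φ (I z) = [Q z - P]` in a small chart at `P`. -/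
theorem Sys.exists_chart_formula (hg : genusFF ℂ F = g) (b : Fin g → WD ℂ F) (S : Sys F g) {ρ : ℝ}
    (hS : S.Good b ρ) (φ : (Fin g → ℂ) →+ Pic0 ℂ F) {δ : ℝ} (hδ : 0 < δ)
    (hφ : ∀ u : Fin g → ℂ, ‖u‖ < δ → φ u = S.e b u) (P : Place ℂ F) (hP : ∀ j, (S.ch j).P ≠ P) :
    ∃ ch : Chart F, ch.P = P ∧ ∀ z ∈ ch.dom, φ (ch.I b z) = pd (ch.Q z) P := by
  classical
  obtain ⟨t, ht⟩ := exists_unif P
  obtain ⟨ch0, -, hc0, hQ0⟩ := exists_chart P t ht
  have hch0P : ch0.P = P := by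
    unfold Chart.P
    rw [hc0, hQ0]
  -- the family of charts indexed by `Option (Fin g)`
  let chs : Option (Fin g) → Chart F := fun k => k.elim ch0 S.ch
  have hinj : Function.Injective fun k => (chs k).P := by
    intro k l hkl
    cases k with
    | none =>
      cases l with
      | none => rfl
      | some j => exact absurd (hkl.symm.trans hch0P) (hP j)
    | some i =>
      cases l with
      | none => exact absurd (hkl.trans hch0P) (hP i)
      | some j => exact congrArg some (S.pt_injective S.ctr_mem hkl)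
  obtain ⟨ε₀, hε₀, hle, hdisj⟩ := exists_disjoint_charts _ hinj chs (fun k => rfl)
  obtain ⟨ε₁, hε₁, hgood⟩ := S.exists_good_shrink b (hS.det_ne _ S.ctr_mem)
  have hε : 0 < min ε₀ ε₁ := lt_min hε₀ hε₁
  have hleS : ∀ j, min ε₀ ε₁ ≤ (S.ch j).r := fun j => (min_le_left _ _).trans (hle (some j))
  obtain ⟨ρ', hS'⟩ := hgood (min ε₀ ε₁) hε hleS (min_le_right _ _)
  have hm : 0 < min δ ρ' / 2 := half_pos (lt_min hδ hS'.ρ_pos)
  obtain ⟨ε₂, hε₂, hsmallI⟩ := ch0.exists_I_small b hm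
  have hε' : 0 < min ε₀ ε₂ := lt_min hε₀ hε₂
  have hle' : min ε₀ ε₂ ≤ ch0.r := (min_le_left _ _).trans (hle none)
  refine ⟨ch0.shrink (min ε₀ ε₂) hε' hle', hch0P, fun z hz => ?_⟩
  have hI : ∀ z' ∈ (ch0.shrink (min ε₀ ε₂) hε' hle').dom, ‖ch0.I b z'‖ < min δ ρ' / 2 :=
    fun z' hz' => hsmallI z' (ball_subset_ball (min_le_right _ _) hz')
  have hdisj' : ∀ j, Disjoint ((S.shrink (min ε₀ ε₁) hε hleS).ch j).img
      (ch0.shrink (min ε₀ ε₂) hε' hle').img := fun j =>
    (hdisj (some j) none (by simp)).mono (Set.image_mono (ball_subset_ball (min_le_left _ _)))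
      (Set.image_mono (ball_subset_ball (min_le_left _ _)))
  have hIz := hI z hz
  have key := Sys.e_add_I hg (S.shrink (min ε₀ ε₁) hε hleS) b hS'
    (ch0.shrink (min ε₀ ε₂) hε' hle') hdisj' (u := 0) hz (by
      intro z' hz'
      have h1 := hI z' hz'
      have h2 : ‖(0 : Fin g → ℂ) + ch0.I b z - ch0.I b z'‖ ≤ ‖ch0.I b z‖ + ‖ch0.I b z'‖ := by
        rw [zero_add]
        exact norm_sub_le _ _
      have h3 : min δ ρ' ≤ ρ' := min_le_right _ _
      show ‖(0 : Fin g → ℂ) + ch0.I b z - ch0.I b z'‖ < ρ'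
      linarith)
  rw [Sys.e_zero _ b hS', zero_add, zero_add] at key
  have h4 : ‖ch0.I b z‖ < δ := by
    have : min δ ρ' ≤ δ := min_le_left _ _
    linarith
  have h5 : ‖ch0.I b z‖ < ρ' := by
    have : min δ ρ' ≤ ρ' := min_le_right _ _
    linarith
  show φ (ch0.I b z) = pd (ch0.Q z) P
  rw [hφ _ h4, ← S.shrink_e b hS (min ε₀ ε₁) hε hleS hS' h5]
  rw [← hch0P]
  exact key

/-- **EXP.** the exponential map. -/
theorem exists_exp (hg : genusFF ℂ F = g) (b : Fin g → WD ℂ F) (hb : LinearIndependent ℂ b) :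
    ∃ φ : (Fin g → ℂ) →+ Pic0 ℂ F,
      (∃ ε : ℝ, 0 < ε ∧ ∀ u : Fin g → ℂ, ‖u‖ < ε → φ u = 0 → u = 0) ∧
      ∀ P : Place ℂ F, ∃ ch : Chart F, ch.P = P ∧ ∀ z ∈ ch.dom, φ (ch.I b z) = pd (ch.Q z) P := by
  classical
  obtain ⟨S, ρ, hS, -⟩ := exists_good_sys b hb ∅ Set.finite_empty
  obtain ⟨S', ρ', hS', hZ⟩ := exists_good_sys b hb (Set.range fun j => (S.ch j).P)
    (Set.finite_range _)
  let chs : Fin g ⊕ Fin g → Chart F := Sum.elim S.ch S'.ch
  have hinj : Function.Injective fun k => (chs k).P := by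
    intro k l hkl
    cases k with
    | inl i =>
      cases l with
      | inl j => exact congrArg Sum.inl (S.pt_injective S.ctr_mem hkl)
      | inr j => exact absurd ⟨i, hkl⟩ (hZ j)
    | inr i =>
      cases l with
      | inl j => exact absurd ⟨j, hkl.symm⟩ (hZ i)
      | inr j => exact congrArg Sum.inr (S'.pt_injective S'.ctr_mem hkl)
  obtain ⟨ε₀, hε₀, hle, hdisj⟩ := exists_disjoint_charts _ hinj chs (fun k => rfl)
  obtain ⟨ε₁, hε₁, hgood₁⟩ := S.exists_good_shrink b (hS.det_ne _ S.ctr_mem)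
  obtain ⟨ε₂, hε₂, hgood₂⟩ := S'.exists_good_shrink b (hS'.det_ne _ S'.ctr_mem)
  have hε : 0 < min ε₀ (min ε₁ ε₂) := lt_min hε₀ (lt_min hε₁ hε₂)
  have hleS : ∀ j, min ε₀ (min ε₁ ε₂) ≤ (S.ch j).r := fun j =>
    (min_le_left _ _).trans (hle (Sum.inl j))
  have hleS' : ∀ j, min ε₀ (min ε₁ ε₂) ≤ (S'.ch j).r := fun j =>
    (min_le_left _ _).trans (hle (Sum.inr j))
  obtain ⟨ρ₁, hT⟩ := hgood₁ _ hε hleS ((min_le_right _ _).trans (min_le_left _ _))
  obtain ⟨ρ₂, hT'⟩ := hgood₂ _ hε hleS' ((min_le_right _ _).trans (min_le_right _ _))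
  have hTT' : ∀ i j, Disjoint ((S.shrink _ hε hleS).ch i).img ((S'.shrink _ hε hleS').ch j).img :=
    fun i j => (hdisj (Sum.inl i) (Sum.inr j) (by simp)).mono
      (Set.image_mono (ball_subset_ball (min_le_left _ _)))
      (Set.image_mono (ball_subset_ball (min_le_left _ _)))
  obtain ⟨δ, hδ, hadd, heq⟩ := Sys.e_local_hom hg b _ _ hT hT' hTT'
  obtain ⟨φ, hφ⟩ := exists_hom_of_isLocalHom hδ (c := (S.shrink _ hε hleS).e b)
    (fun x y hx hy _ => hadd x y hx hy)
  refine ⟨φ, ⟨min δ ρ₁, lt_min hδ hT.ρ_pos, fun u hu h0 => ?_⟩, fun P => ?_⟩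
  · refine Sys.e_eq_zero _ b hg hT (hu.trans_le (min_le_right _ _)) ?_
    rw [← hφ u (hu.trans_le (min_le_left _ _))]
    exact h0
  · by_cases hP : ∀ j, ((S.shrink _ hε hleS).ch j).P ≠ P
    · exact Sys.exists_chart_formula hg b _ hT φ hδ hφ P hP
    · push Not at hP
      obtain ⟨j, rfl⟩ := hP
      refine Sys.exists_chart_formula hg b _ hT' φ hδ (fun u hu => by rw [hφ u hu, heq u hu]) _
        (fun i h => ?_)
      have h1 := ((S.shrink _ hε hleS).ch j).P_mem_img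
      have h2 := ((S'.shrink _ hε hleS').ch i).P_mem_img
      rw [h] at h2
      exact Set.disjoint_left.1 (hTT' j i) h1 h2

end Fermat.Agent.S27
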