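import Fermat.Agent.S27.Defs

/-!
# S27 / WP D0 : the hypotheses of S27 give a function field in one variable
-/

set_option autoImplicit false

open AlgebraicCurve IntermediateField
open scoped KaehlerDifferential

namespace Fermat.Agent.S27

theorem isFF_of_isCurveOver (K F : Type*) [Field K] [Field F] [Algebra K F] [IsAlgClosed K]
    [CharZero K] [IsCurveOver K F] [Algebra.EssFiniteType K F] : IsFF K F := by
  have hfr : Module.finrank F Ω[F⁄K] = 1 := IsCurveOver.finrank_kaehler
  obtain ⟨x, hx⟩ : ∃ x : F, KaehlerDifferential.D K F x ≠ 0 := by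
    by_contra hcon
    push Not at hcon
    have hspan := KaehlerDifferential.span_range_derivation K F
    have h2 : (⊤ : Submodule F Ω[F⁄K]) = ⊥ := by
      rw [← hspan, Submodule.span_eq_bot]
      rintro _ ⟨y, rfl⟩
      exact hcon y
    have h3 : Module.finrank F Ω[F⁄K] = 0 := by
      rw [← finrank_top, h2, finrank_bot]
    omega
  refine ⟨x, ⟨?_, ?_⟩⟩
  · intro halg
    have hint : IsIntegral K x := halg.isIntegral
    have hsep : (minpoly K x).Separable := (minpoly.irreducible hint).separable
    have h0 : KaehlerDifferential.D K F (Polynomial.aeval x (minpoly K x)) = 0 := by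
      rw [minpoly.aeval, map_zero]
    rw [Derivation.map_aeval] at h0
    rcases smul_eq_zero.1 h0 with h | h
    · exact hsep.aeval_derivative_ne_zero (minpoly.aeval K x) h
    · exact hx h
  · have : Algebra.EssFiniteType K⟮x⟯ F := Algebra.EssFiniteType.of_comp K K⟮x⟯ F
    have hsub : Subsingleton Ω[F⁄K⟮x⟯] := by
      refine subsingleton_of_forall_eq 0 fun ω' => ?_
      obtain ⟨ω, rfl⟩ := KaehlerDifferential.map_surjective K K⟮x⟯ F ω'
      obtain ⟨c, rfl⟩ : ∃ c : F, c • KaehlerDifferential.D K F x = ω :=
        (finrank_eq_one_iff_of_nonzero' _ hx).1 hfr ω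
      rw [map_smul, KaehlerDifferential.map_D]
      have : algebraMap F F x = algebraMap K⟮x⟯ F ⟨x, mem_adjoin_simple_self K x⟩ := rfl
      rw [this, Derivation.map_algebraMap, smul_zero]
    have : Algebra.FormallyUnramified K⟮x⟯ F := ⟨hsub⟩
    exact Algebra.FormallyUnramified.finite_of_free K⟮x⟯ F

end Fermat.Agent.S27
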