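import Fermat.Agent.S27.Val
import Fermat.Agent.S27.LSpace.Riemann

/-!
# S27 / WP A1 : Riemann-Roch spaces `L(D) = riemannRochSpace D` (elementary facts)

All proofs are in the characteristic free files `LSpace/Core.lean`, `LSpace/Riemann.lean`
(class `FFBase K F`); this file only instantiates them for `[IsAlgClosed K] [CharZero K] [IsFF K F]`.
-/

set_option autoImplicit false

open AlgebraicCurve WithZero Module

namespace Fermat.Agent.S27

variable {K F : Type*} [Field K] [Field F] [Algebra K F]
variable [IsAlgClosed K] [CharZero K] [IsFF K F]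

instance instFFBase : FFBase K F := by
  obtain ⟨x, hx⟩ := IsFF.exists_param (K := K) (F := F)
  haveI := hx.hasPrincipalDivisors
  refine { residue_surjective := fun v => (hx.bijective_algebraMap_residueField v).2
           nonempty_place := ?_ }
  by_contra h
  have h1 := hx.sum_zeros
  haveI := hx.finite
  have h2 : 0 < finrank (IntermediateField.adjoin K {x}) F := finrank_pos
  rw [Finset.sum_eq_zero (fun v _ => absurd ⟨v⟩ h)] at h1
  omega

theorem divOf_eq_dv (f : F) : divOf (K := K) f = FFBase.dv f := Finsupp.ext fun _ => rfl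

theorem degree_poleDiv {x : F} (hx : S24.IsFiniteParam K x) :
    Divisor.degree (FFBase.poleDiv (K := K) x) = finrank (IntermediateField.adjoin K {x}) F := by
  rw [hx.degree_eq_sum_of_subset _ hx.finite_poles.toFinset]
  · have h := hx.sum_poles
    rw [← neg_inj, ← h, ← Finset.sum_neg_distrib]
    refine Finset.sum_congr rfl fun v hv => ?_
    rw [Set.Finite.mem_toFinset] at hv
    have hv' : v.ord x < 0 := hv
    rw [FFBase.poleDiv_apply, max_eq_right (by omega), neg_neg]
  · intro v hv
    rw [Finsupp.mem_support_iff, FFBase.poleDiv_apply] at hv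
    rw [Set.Finite.mem_toFinset]
    show v.ord x < 0
    by_contra h
    exact hv (max_eq_left (by omega))

theorem L_mono {D E : Divisor K F} (h : D ≤ E) : riemannRochSpace D ≤ riemannRochSpace E :=
  FFBase.L_mono h

theorem L_eq_bot_of_degree_neg {D : Divisor K F} (h : Divisor.degree D < 0) :
    riemannRochSpace D = ⊥ :=
  FFBase.L_eq_bot_of_degree_neg h

theorem mem_L_zero_iff {f : F} :
    f ∈ riemannRochSpace (0 : Divisor K F) ↔ f ∈ Set.range (algebraMap K F) :=
  FFBase.mem_L_zero_iff

theorem finrank_L_zero : finrank K (riemannRochSpace (0 : Divisor K F)) = 1 :=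
  FFBase.finrank_L_zero

instance L_finiteDimensional (D : Divisor K F) : FiniteDimensional K (riemannRochSpace D) :=
  FFBase.finiteDimensional_L D

theorem finrank_L_add_single_le (D : Divisor K F) (v : Place K F) :
    finrank K (riemannRochSpace (D + Finsupp.single v 1)) ≤ finrank K (riemannRochSpace D) + 1 :=
  FFBase.finrank_L_add_single_le D v

/-- `l(E) - l(D) ≤ deg E - deg D` for `D ≤ E`. -/
theorem finrank_L_le_add {D E : Divisor K F} (h : D ≤ E) :
    (finrank K (riemannRochSpace E) : ℤ) ≤
      finrank K (riemannRochSpace D) + (Divisor.degree E - Divisor.degree D) :=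
  FFBase.finrank_L_le_add h

/-- multiplication by `z` identifies `L(D + div z)` with `L(D)`. -/
theorem finrank_L_add_divOf (D : Divisor K F) {z : F} (hz : z ≠ 0) :
    finrank K (riemannRochSpace (D + divOf z)) = finrank K (riemannRochSpace D) := by
  rw [divOf_eq_dv]
  exact FFBase.finrank_L_add_dv D hz

theorem finrank_L_of_linEq {D E : Divisor K F} (h : LinEq D E) :
    finrank K (riemannRochSpace D) = finrank K (riemannRochSpace E) :=
  FFBase.finrank_L_of_sub_mem h

/-- a nonzero element of `L(D)` gives an effective divisor linearly equivalent to `D`. -/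
theorem effective_of_mem_L {D : Divisor K F} {f : F} (hf : f ≠ 0) (h : f ∈ riemannRochSpace D) :
    0 ≤ D + divOf f := by
  rw [divOf_eq_dv]
  exact FFBase.effective_of_mem_L hf h

/-- **Riemann's bound**: `deg D - l(D)` is bounded above. (Stichtenoth 1.4.14) -/
theorem exists_riemann_bound :
    ∃ γ : ℤ, ∀ D : Divisor K F, Divisor.degree D - finrank K (riemannRochSpace D) ≤ γ := by
  obtain ⟨x, hx⟩ := IsFF.exists_param (K := K) (F := F)
  haveI := hx.finite
  exact FFBase.exists_riemann_bound x hx.transcendental (degree_poleDiv hx).le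

end Fermat.Agent.S27
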