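import Fermat.Agent.S27.Sys
import Fermat.Agent.S27.AddPoint
import Fermat.Agent.S27.Pencil.Main

/-!
# S27 / WP C2 : the pencil lemma (local Abel + local Jacobi in one stroke)
-/

set_option autoImplicit false

open AlgebraicCurve WithZero Topology Metric

namespace Fermat.Agent.S27

variable {F : Type*} [Field F] [Algebra ℂ F] [IsFF ℂ F] {g : ℕ}

/-- **C2.**  `B(w,z) = pt w + Q z`.  Near `(w₀,z₀)` the divisors linearly equivalent to `B(w₀,z₀)`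
cover a neighbourhood of `z₀` in the `z`-coordinate, and `Psi w + I z` is constant on them.

Proof: `φ ∈ L(B(w₀,z₀))` with a pole at `c0.Q z₀` (`IsNS.exists_pencil`), `μ = 1/φ`.
`J` = set of `j` with a pole of `φ` at `pt w₀ j`. For `j ∈ J` and for `c0` the function
`μ` has a simple zero in the chart, local inverse `τ_j(σ)` (`HasStrictDerivAt.localInverse`).
`div (φ - 1/σ) = ∑ Q(τ_j σ) - ∑ Q(τ_j 0)` by counting zeros (`sum_ord_eq_zero`).
`d/dσ (Psi + I) = ∑_R lam.loc R (μ - σ)⁻¹ = 0` (`Chart.loc_inv_sub`, `WD.sum_loc`). Take `σ = μ(c0.Q z)`. -/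
theorem Sys.pencil (hg : genusFF ℂ F = g) (S : Sys F g) (b : Fin g → WD ℂ F) {ρ : ℝ}
    (hS : S.Good b ρ) (c0 : Chart F) (hdisj : ∀ j, Disjoint (S.ch j).img c0.img)
    {w₀ : Fin g → ℂ} (hw₀ : w₀ ∈ S.dom) {z₀ : ℂ} (hz₀ : z₀ ∈ c0.dom) :
    ∀ᶠ z in 𝓝 z₀, ∃ w ∈ S.dom,
      LinEq (sumDiv (S.pt w) + Finsupp.single (c0.Q z) 1)
        (sumDiv (S.pt w₀) + Finsupp.single (c0.Q z₀) 1) ∧
      S.Psi b w + c0.I b z = S.Psi b w₀ + c0.I b z₀ :=
  Pencil.pencil_main hg S b hS c0 hdisj hw₀ hz₀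

/-- **C3.** adding a point: consequence of the pencil lemma, injectivity of `Psi` and
connectedness of the disc `c0.dom`. -/
theorem Sys.add_point (hg : genusFF ℂ F = g) (S : Sys F g) (b : Fin g → WD ℂ F) {ρ : ℝ}
    (hS : S.Good b ρ) (c0 : Chart F) (hdisj : ∀ j, Disjoint (S.ch j).img c0.img)
    {w : Fin g → ℂ} (hw : w ∈ S.dom) {z : ℂ} (hz : z ∈ c0.dom)
    (hsmall : ∀ z' ∈ c0.dom, ‖S.Psi b w + c0.I b z - c0.I b z'‖ < ρ) :
    ∃ w' ∈ S.dom, S.Psi b w' = S.Psi b w + c0.I b z ∧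
      LinEq (sumDiv (S.pt w') + Finsupp.single c0.P 1)
        (sumDiv (S.pt w) + Finsupp.single (c0.Q z) 1) :=
  S.add_point_of_pencil b hS c0
    (fun _ hw₀ _ hz₀ => Sys.pencil hg S b hS c0 hdisj hw₀ hz₀) hw hz hsmall

/-- **C3'.** the same in terms of `e`. -/
theorem Sys.e_add_I (hg : genusFF ℂ F = g) (S : Sys F g) (b : Fin g → WD ℂ F) {ρ : ℝ}
    (hS : S.Good b ρ) (c0 : Chart F) (hdisj : ∀ j, Disjoint (S.ch j).img c0.img)
    {u : Fin g → ℂ} {z : ℂ} (hz : z ∈ c0.dom)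
    (hsmall : ∀ z' ∈ c0.dom, ‖u + c0.I b z - c0.I b z'‖ < ρ) :
    S.e b (u + c0.I b z) = S.e b u + pd (c0.Q z) c0.P :=
  S.e_add_I_of_pencil b hS c0
    (fun _ hw₀ _ hz₀ => Sys.pencil hg S b hS c0 hdisj hw₀ hz₀) hz hsmall

end Fermat.Agent.S27
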