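import Fermat.Agent.S27.NonSpecial

/-!
# S27 / WP PIC : classes of degree zero divisors
-/

set_option autoImplicit false
set_option linter.unusedSectionVars false

open AlgebraicCurve WithZero

namespace Fermat.Agent.S27

variable {K F : Type*} [Field K] [Field F] [Algebra K F]

open Classical in
/-- class in `Pic0` of a divisor (junk `0` if the degree is not zero). -/
noncomputable def dcl (D : Divisor K F) : Pic0 K F :=
  if h : Divisor.degree D = 0 then Pic0.mk ⟨D, h⟩ else 0

/-- the class of `R - R'`. -/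
noncomputable def pd (R R' : Place K F) : Pic0 K F :=
  dcl (Finsupp.single R 1 - Finsupp.single R' 1)

theorem dcl_of_degree {D : Divisor K F} (hD : Divisor.degree D = 0) :
    dcl D = Pic0.mk ⟨D, hD⟩ := by
  unfold dcl
  rw [dif_pos hD]

theorem dcl_of_degree_ne {D : Divisor K F} (hD : Divisor.degree D ≠ 0) : dcl D = 0 := by
  unfold dcl
  rw [dif_neg hD]

theorem dcl_zero : dcl (0 : Divisor K F) = 0 := by
  rw [dcl_of_degree (map_zero _)]
  rfl

theorem dcl_add {D E : Divisor K F} (hD : Divisor.degree D = 0) (hE : Divisor.degree E = 0) :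
    dcl (D + E) = dcl D + dcl E := by
  rw [dcl_of_degree hD, dcl_of_degree hE, dcl_of_degree (by rw [map_add, hD, hE, add_zero])]
  rfl

theorem dcl_neg (D : Divisor K F) : dcl (-D) = -dcl D := by
  by_cases hD : Divisor.degree D = 0
  · apply eq_neg_of_add_eq_zero_left
    rw [← dcl_add (by rw [map_neg, hD, neg_zero]) hD, neg_add_cancel, dcl_zero]
  · rw [dcl_of_degree_ne hD, dcl_of_degree_ne (by rwa [map_neg, neg_ne_zero]), neg_zero]

theorem dcl_sub {D E : Divisor K F} (hD : Divisor.degree D = 0) (hE : Divisor.degree E = 0) :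
    dcl (D - E) = dcl D - dcl E := by
  rw [sub_eq_add_neg, dcl_add hD (by rw [map_neg, hE, neg_zero]), dcl_neg, ← sub_eq_add_neg]

theorem dcl_eq_zero_iff {D : Divisor K F} (hD : Divisor.degree D = 0) :
    dcl D = 0 ↔ D ∈ Divisor.principal (K := K) (F := F) := by
  rw [dcl_of_degree hD]
  unfold Pic0.mk
  rw [QuotientAddGroup.eq_zero_iff, AddSubgroup.mem_addSubgroupOf]

theorem dcl_surjective (x : Pic0 K F) : ∃ D : Divisor K F, Divisor.degree D = 0 ∧ dcl D = x := by
  obtain ⟨⟨D, hD⟩, rfl⟩ := Pic0.mk_surjective x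
  exact ⟨D, hD, dcl_of_degree hD⟩

theorem dcl_sum {ι : Type*} (s : Finset ι) (D : ι → Divisor K F)
    (hD : ∀ j ∈ s, Divisor.degree (D j) = 0) : dcl (∑ j ∈ s, D j) = ∑ j ∈ s, dcl (D j) := by
  classical
  induction s using Finset.induction_on with
  | empty => simp [dcl_zero]
  | insert a s ha ih =>
    rw [Finset.sum_insert ha, Finset.sum_insert ha, dcl_add (hD a (Finset.mem_insert_self a s)),
      ih fun j hj => hD j (Finset.mem_insert_of_mem hj)]
    rw [map_sum]
    exact Finset.sum_eq_zero fun j hj => hD j (Finset.mem_insert_of_mem hj)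

theorem LinEq.refl (D : Divisor K F) : LinEq D D := by
  unfold LinEq
  rw [sub_self]
  exact zero_mem _

theorem LinEq.symm {D E : Divisor K F} (h : LinEq D E) : LinEq E D := by
  unfold LinEq at h ⊢
  rw [← neg_sub]
  exact neg_mem h

theorem LinEq.trans {D E G : Divisor K F} (h : LinEq D E) (h' : LinEq E G) : LinEq D G := by
  unfold LinEq at h h' ⊢
  rw [← sub_add_sub_cancel D E G]
  exact add_mem h h'

theorem LinEq.add {D E D' E' : Divisor K F} (h : LinEq D E) (h' : LinEq D' E') :
    LinEq (D + D') (E + E') := by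
  unfold LinEq at h h' ⊢
  rw [add_sub_add_comm]
  exact add_mem h h'

variable [IsAlgClosed K] [CharZero K] [IsFF K F]

theorem LinEq.degree_eq {D E : Divisor K F} (h : LinEq D E) :
    Divisor.degree D = Divisor.degree E := by
  obtain ⟨f, hf, hDf⟩ := mem_principal_iff.1 h
  have := degree_divOf (K := K) hf
  rw [← hDf, map_sub] at this
  exact sub_eq_zero.1 this

/-- `D ~ E` iff `D - E` has trivial class. -/
theorem dcl_sub_eq_zero_iff {D E : Divisor K F} (h : Divisor.degree D = Divisor.degree E) :
    dcl (D - E) = 0 ↔ LinEq D E := by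
  rw [dcl_eq_zero_iff (by rw [map_sub, h, sub_self])]
  rfl

theorem degree_single_one (R : Place K F) :
    Divisor.degree (Finsupp.single R 1 : Divisor K F) = 1 := by
  rw [Divisor.degree_single, deg_eq_one]
  simp

theorem degree_single_sub_single (R R' : Place K F) :
    Divisor.degree (Finsupp.single R 1 - Finsupp.single R' 1 : Divisor K F) = 0 := by
  rw [map_sub, degree_single_one, degree_single_one, sub_self]

theorem pd_self (R : Place K F) : pd R R = 0 := by
  unfold pd
  rw [sub_self, dcl_zero]

theorem pd_add_pd (R R' R'' : Place K F) : pd R R' + pd R' R'' = pd R R'' := by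
  unfold pd
  rw [← dcl_add (degree_single_sub_single _ _) (degree_single_sub_single _ _),
    sub_add_sub_cancel]

theorem pd_swap (R R' : Place K F) : pd R R' = -pd R' R := by
  unfold pd
  rw [← dcl_neg, neg_sub]

theorem dcl_sumDiv_sub {ι : Type*} [Fintype ι] (R P : ι → Place K F) :
    dcl (sumDiv R - sumDiv P) = ∑ j, pd (R j) (P j) := by
  unfold sumDiv pd
  rw [← Finset.sum_sub_distrib, dcl_sum _ _ fun j _ => degree_single_sub_single _ _]

theorem degree_sumDiv_sub {ι : Type*} [Fintype ι] (R P : ι → Place K F) :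
    Divisor.degree (sumDiv R - sumDiv P) = 0 := by
  rw [map_sub, degree_sumDiv, degree_sumDiv, sub_self]

/-- `Pic0` is generated by sums of `g` differences of places (Riemann inequality). -/
theorem exists_sum_pd {g : ℕ} (hg : genusFF K F = g) (P : Fin g → Place K F) (x : Pic0 K F) :
    ∃ R : Fin g → Place K F, x = ∑ j, pd (R j) (P j) := by
  obtain ⟨D, hD, rfl⟩ := dcl_surjective x
  obtain ⟨R, hR⟩ := exists_effective hg (D + sumDiv P)
    (by rw [map_add, hD, degree_sumDiv, Fintype.card_fin, zero_add])
  refine ⟨R, ?_⟩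
  rw [← dcl_sumDiv_sub, ← sub_eq_zero, ← dcl_sub hD (degree_sumDiv_sub R P),
    dcl_eq_zero_iff (by rw [map_sub, hD, degree_sumDiv_sub, sub_self])]
  have : D - (sumDiv R - sumDiv P) = D + sumDiv P - sumDiv R := by abel
  rw [this]
  exact hR

/-- from `A + R ~ A' + R'` to classes. -/
theorem pd_eq_of_linEq {ι : Type*} [Fintype ι] {A A' B : ι → Place K F} {R R' : Place K F}
    (h : LinEq (sumDiv A + Finsupp.single R 1) (sumDiv A' + Finsupp.single R' 1)) :
    dcl (sumDiv A - sumDiv B) = dcl (sumDiv A' - sumDiv B) + pd R' R := by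
  unfold pd
  rw [← dcl_add (degree_sumDiv_sub _ _) (degree_single_sub_single _ _), ← sub_eq_zero,
    ← dcl_sub (degree_sumDiv_sub _ _)
      (by rw [map_add, degree_sumDiv_sub, degree_single_sub_single, add_zero]),
    dcl_eq_zero_iff (by
      rw [map_sub, map_add, degree_sumDiv_sub, degree_sumDiv_sub, degree_single_sub_single]
      simp)]
  have : sumDiv A - sumDiv B - (sumDiv A' - sumDiv B + (Finsupp.single R' 1 - Finsupp.single R 1))
      = sumDiv A + Finsupp.single R 1 - (sumDiv A' + Finsupp.single R' 1) := by abel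
  rw [this]
  exact h

theorem torsion_card_eq (n : ℕ) :
    Nat.card (Pic0.torsion K F n) = Nat.card {x : Pic0 K F // n • x = 0} := by
  apply Nat.card_congr
  apply Equiv.subtypeEquivRight
  intro x
  rw [Pic0.mem_torsion, natCast_zsmul]

end Fermat.Agent.S27
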