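import Fermat.Agent.S27.LSpace
import Fermat.Agent.S27.RR1Core

/-!
# S27 / WP A2 : repartitions, `H1 D`, Riemann-Roch "part 1" (Stichtenoth 1.5.4)
All proofs are in `RR1Core.lean` (hypothesis-explicit form); here we instantiate.
-/

set_option autoImplicit false

open AlgebraicCurve WithZero Module

namespace Fermat.Agent.S27

variable {K F : Type*} [Field K] [Field F] [Algebra K F]
variable [IsAlgClosed K] [CharZero K] [IsFF K F]

variable (K F) in
theorem rrHyp : Core.RRHyp K F where
  finite_poles := finite_poles
  values := fun v _ hf => ⟨_, val_spec v hf⟩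
  deg_one := deg_eq_one
  finite_L := L_finiteDimensional
  finrank_L_zero := finrank_L_zero
  bound := exists_riemann_bound

variable (K F) in
theorem hasPrincipalDivisors : HasPrincipalDivisors K F where
  exists_divisor := fun f hf => ⟨divOf f, divOf_apply f, degree_divOf hf⟩

theorem mem_repartitions_iff {α : Place K F → F} :
    α ∈ repartitions K F ↔ {v : Place K F | ¬ v.adicValuation (α v) ≤ 1}.Finite :=
  (rrHyp K F).mem_repartitions_iff

/-- every repartition lies in some `A(D)`. -/
theorem exists_mem_repartitionsOf (α : ↥(repartitions K F)) (D₀ : Divisor K F) :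
    ∃ D : Divisor K F, D₀ ≤ D ∧ α ∈ repartitionsOf D :=
  (rrHyp K F).exists_mem_repartitionsOf α D₀

instance H1_finiteDimensional (D : Divisor K F) : FiniteDimensional K (H1 D) :=
  (rrHyp K F).H1_finiteDimensional D

/-- **Riemann-Roch, part 1.** -/
theorem rr1 (D : Divisor K F) :
    (finrank K (riemannRochSpace D) : ℤ) - finrank K (H1 D) =
      Divisor.degree D + 1 - genusFF K F :=
  (rrHyp K F).rr1 D

theorem riemann_ineq (D : Divisor K F) :
    Divisor.degree D + 1 - genusFF K F ≤ finrank K (riemannRochSpace D) :=
  (rrHyp K F).riemann_ineq D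

theorem finrank_H1_anti {D E : Divisor K F} (h : D ≤ E) : finrank K (H1 E) ≤ finrank K (H1 D) :=
  (rrHyp K F).finrank_H1_anti h

variable (K F) in
theorem exists_H1_eq_zero : ∃ c : ℤ, ∀ D : Divisor K F, c ≤ Divisor.degree D →
    finrank K (H1 D) = 0 :=
  (rrHyp K F).exists_H1_eq_zero (hasPrincipalDivisors K F)

/-- `H1 D = 0` means `A = A(D) + F`. -/
theorem finrank_H1_eq_zero_iff (D : Divisor K F) :
    finrank K (H1 D) = 0 ↔ repartitionsOf D ⊔ principalRepartitions K F = ⊤ :=
  (rrHyp K F).finrank_H1_eq_zero_iff D

/-- `A(D + v)` is spanned by `A(D)` and one more repartition. -/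
theorem repartitionsOf_add_single (D : Divisor K F) (v : Place K F) {s : F}
    (hs : v.adicValuation s = exp (D v + 1)) :
    repartitionsOf (D + Finsupp.single v 1) = repartitionsOf D ⊔ Submodule.span K {single v s} :=
  Core.repartitionsOf_add_single (rrHyp K F).values D v hs

end Fermat.Agent.S27
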