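import Fermat.Agent.S27.ChartExists
import Fermat.Agent.S27.Pic

/-!
# S27 / block C : systems of `g` charts, the map `Psi` (definitions by helper76; WP C1)
-/

set_option autoImplicit false

open AlgebraicCurve WithZero Topology Metric

namespace Fermat.Agent.S27

variable {F : Type*} [Field F] [Algebra ℂ F] {g : ℕ}

/-- vector of primitives of the differentials `b i` in the chart `ch`. -/
noncomputable def Chart.I (ch : Chart F) (b : Fin g → WD ℂ F) (z : ℂ) : Fin g → ℂ :=
  fun i => ch.prim (b i) z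

/-- the centre of a chart, as a place. -/
def Chart.P (ch : Chart F) : Place ℂ F := ch.Q ch.c

/-- shrink a chart, keeping its centre. -/
def Chart.shrink (ch : Chart F) (ε : ℝ) (hε : 0 < ε) (hle : ε ≤ ch.r) : Chart F :=
  ch.restrict ch.c ε hε (ball_subset_ball hle)

/-- a system of `g` charts with pairwise disjoint images. -/
structure Sys (F : Type*) [Field F] [Algebra ℂ F] (g : ℕ) where
  ch : Fin g → Chart F
  disj : ∀ i j, i ≠ j → Disjoint (ch i).img (ch j).img

namespace Sys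

variable (S : Sys F g)

/-- the polydisc. -/
def dom : Set (Fin g → ℂ) := {w | ∀ j, w j ∈ (S.ch j).dom}

/-- the centre of the polydisc. -/
def ctr : Fin g → ℂ := fun j => (S.ch j).c

/-- the `g` places with coordinates `w`. -/
def pt (w : Fin g → ℂ) : Fin g → Place ℂ F := fun j => (S.ch j).Q (w j)

/-- the local Abel-Jacobi map. -/
noncomputable def Psi (b : Fin g → WD ℂ F) (w : Fin g → ℂ) : Fin g → ℂ :=
  ∑ j, (S.ch j).I b (w j)

/-- the class of `pt w - pt ctr`. -/
noncomputable def cl (w : Fin g → ℂ) : Pic0 ℂ F := dcl (sumDiv (S.pt w) - sumDiv (S.pt S.ctr))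

/-- the Jacobian matrix of `Psi`. -/
noncomputable def jac (b : Fin g → WD ℂ F) (w : Fin g → ℂ) : Matrix (Fin g) (Fin g) ℂ :=
  Matrix.of fun i j => (S.ch j).h (b i) (w j)

/-- `Psi` is a bijection from the polydisc onto a set containing the ball of radius `ρ`,
with invertible Jacobian everywhere. -/
structure Good (b : Fin g → WD ℂ F) (ρ : ℝ) : Prop where
  ρ_pos : 0 < ρ
  det_ne : ∀ w ∈ S.dom, (S.jac b w).det ≠ 0
  inj : Set.InjOn (S.Psi b) S.dom
  surj : ∀ u : Fin g → ℂ, ‖u‖ < ρ → ∃ w ∈ S.dom, S.Psi b w = u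

/-- shrink all the charts of a system to radius `ε`. -/
def shrink (ε : ℝ) (hε : 0 < ε) (hle : ∀ j, ε ≤ (S.ch j).r) : Sys F g where
  ch j := (S.ch j).shrink ε hε (hle j)
  disj i j hij := (S.disj i j hij).mono (Set.image_mono (ball_subset_ball (hle i)))
    (Set.image_mono (ball_subset_ball (hle j)))

open Classical in
/-- the local inverse of `Psi` followed by `cl`: the local exponential. -/
noncomputable def e (b : Fin g → WD ℂ F) (u : Fin g → ℂ) : Pic0 ℂ F :=
  if h : ∃ w ∈ S.dom, S.Psi b w = u then S.cl h.choose else 0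

end Sys

variable [IsFF ℂ F]

theorem Chart.isOpen_dom (ch : Chart F) : IsOpen ch.dom := isOpen_ball

theorem Chart.hasStrictDerivAt_prim (ch : Chart F) (lam : WD ℂ F) {z : ℂ} (hz : z ∈ ch.dom) :
    HasStrictDerivAt (ch.prim lam) (ch.h lam z) z := by
  have hd : DifferentiableOn ℂ (ch.prim lam) ch.dom := fun y hy =>
    (ch.hasDerivAt_prim lam hy).differentiableAt.differentiableWithinAt
  have ha : AnalyticAt ℂ (ch.prim lam) z := hd.analyticAt (ch.isOpen_dom.mem_nhds hz)
  have := ha.hasStrictDerivAt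
  rwa [(ch.hasDerivAt_prim lam hz).deriv] at this

theorem Chart.continuousAt_h (ch : Chart F) (lam : WD ℂ F) {z : ℂ} (hz : z ∈ ch.dom) :
    ContinuousAt (ch.h lam) z :=
  ((ch.differentiableOn_h lam).differentiableAt (ch.isOpen_dom.mem_nhds hz)).continuousAt

namespace Sys

variable (S : Sys F g) (b : Fin g → WD ℂ F)

theorem ctr_mem : S.ctr ∈ S.dom := fun j => (S.ch j).center_mem

theorem Psi_apply (w : Fin g → ℂ) (i : Fin g) :
    S.Psi b w i = ∑ j, (S.ch j).prim (b i) (w j) := by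
  unfold Psi
  rw [Finset.sum_apply]
  rfl

theorem Psi_ctr : S.Psi b S.ctr = 0 := by
  funext i
  rw [Psi_apply]
  exact Finset.sum_eq_zero fun j _ => (S.ch j).prim_center (b i)

theorem cl_ctr : S.cl S.ctr = 0 := by
  unfold cl
  rw [sub_self, dcl_zero]

theorem pt_mem_img {w : Fin g → ℂ} (hw : w ∈ S.dom) (j : Fin g) : S.pt w j ∈ (S.ch j).img :=
  ⟨w j, hw j, rfl⟩

theorem eq_of_pt_eq {w w' : Fin g → ℂ} (hw : w ∈ S.dom) (hw' : w' ∈ S.dom) {i j : Fin g}
    (h : S.pt w i = S.pt w' j) : i = j := by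
  by_contra hij
  exact Set.disjoint_left.mp (S.disj i j hij) (S.pt_mem_img hw i) (h ▸ S.pt_mem_img hw' j)

theorem pt_injective {w : Fin g → ℂ} (hw : w ∈ S.dom) : Function.Injective (S.pt w) :=
  fun _ _ h => S.eq_of_pt_eq hw hw h

theorem e_Psi {ρ : ℝ} (h : S.Good b ρ) {w : Fin g → ℂ} (hw : w ∈ S.dom) :
    S.e b (S.Psi b w) = S.cl w := by
  have hex : ∃ w' ∈ S.dom, S.Psi b w' = S.Psi b w := ⟨w, hw, rfl⟩
  unfold e
  rw [dif_pos hex]
  congr 1
  exact h.inj hex.choose_spec.1 hw hex.choose_spec.2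

/-- the points of the polydisc are non special divisors. -/
theorem isNS_pt (hg : genusFF ℂ F = g) {ρ : ℝ} (h : S.Good b ρ) {w : Fin g → ℂ} (hw : w ∈ S.dom) :
    IsNS (S.pt w) :=
  isNS_of_det hg b (S.pt w) (S.pt_injective hw) (fun j => (S.ch j).t - algebraMap ℂ F (w j))
    (fun j => (S.ch j).unif (w j) (hw j)) (h.det_ne w hw)

/-- `e` is injective near `0`. -/
theorem e_eq_zero (hg : genusFF ℂ F = g) {ρ : ℝ} (h : S.Good b ρ) {u : Fin g → ℂ} (hu : ‖u‖ < ρ)
    (h0 : S.e b u = 0) : u = 0 := by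
  obtain ⟨w, hw, rfl⟩ := h.surj u hu
  rw [S.e_Psi b h hw] at h0
  unfold cl at h0
  rw [dcl_sub_eq_zero_iff (by rw [degree_sumDiv, degree_sumDiv])] at h0
  have heq := (S.isNS_pt b hg h S.ctr_mem).eq_of_linEq (NS.sumDiv_nonneg _) h0
  have hwc : w = S.ctr := by
    funext j
    have h1 : 1 ≤ sumDiv (S.pt S.ctr) (S.pt w j) := by
      rw [← heq]; exact NS.one_le_sumDiv_apply _ j
    have h2 : ∃ k, S.pt S.ctr k = S.pt w j := by
      by_contra hcon
      push Not at hcon
      rw [NS.sumDiv_apply_of_ne _ hcon] at h1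
      omega
    obtain ⟨k, hk⟩ := h2
    have hkj := S.eq_of_pt_eq S.ctr_mem hw hk
    subst hkj
    exact ((S.ch k).injOn (S.ctr_mem k) (hw k) hk).symm
  rw [hwc, Psi_ctr]

theorem hasStrictFDerivAt_Psi {w : Fin g → ℂ} (hw : w ∈ S.dom) :
    HasStrictFDerivAt (S.Psi b) (Matrix.toLin' (S.jac b w)).toContinuousLinearMap w := by
  rw [hasStrictFDerivAt_pi']
  intro i
  have h1 : ∀ j ∈ (Finset.univ : Finset (Fin g)),
      HasStrictFDerivAt (fun y : Fin g → ℂ => (S.ch j).prim (b i) (y j))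
        ((S.ch j).h (b i) (w j) • (ContinuousLinearMap.proj j : (Fin g → ℂ) →L[ℂ] ℂ)) w := by
    intro j _
    exact ((S.ch j).hasStrictDerivAt_prim (b i) (hw j)).comp_hasStrictFDerivAt w
      (ContinuousLinearMap.proj j : (Fin g → ℂ) →L[ℂ] ℂ).hasStrictFDerivAt
  have h2 := HasStrictFDerivAt.fun_sum h1
  have h3 : (fun x => S.Psi b x i) = fun y : Fin g → ℂ => ∑ j, (S.ch j).prim (b i) (y j) :=
    funext fun y => S.Psi_apply b y i
  rw [h3]
  convert h2 using 1
  ext y
  simp only [ContinuousLinearMap.coe_comp, Function.comp_apply, ContinuousLinearMap.proj_apply,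
    LinearMap.coe_toContinuousLinearMap', Matrix.toLin'_apply, FunLike.coe_sum,
    Finset.sum_apply, FunLike.coe_smul, Pi.smul_apply, smul_eq_mul]
  rfl

/-- **C1a.** a system whose Jacobian is invertible at the centre becomes good after shrinking,
for every sufficiently small radius. -/
theorem exists_good_shrink (hdet : (S.jac b S.ctr).det ≠ 0) :
    ∃ ε₀ : ℝ, 0 < ε₀ ∧ ∀ (ε : ℝ) (hε : 0 < ε) (hle : ∀ j, ε ≤ (S.ch j).r), ε ≤ ε₀ →
      ∃ ρ : ℝ, (S.shrink ε hε hle).Good b ρ := by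
  classical
  -- the derivative at the centre as a continuous linear equivalence
  let M := S.jac b S.ctr
  let _ : Invertible M := Matrix.invertibleOfIsUnitDet M (isUnit_iff_ne_zero.mpr hdet)
  let f' : (Fin g → ℂ) ≃L[ℂ] (Fin g → ℂ) :=
    (Matrix.toLinearEquiv' M inferInstance).toContinuousLinearEquiv
  have hf' : HasStrictFDerivAt (S.Psi b) (f' : (Fin g → ℂ) →L[ℂ] (Fin g → ℂ)) S.ctr := by
    have := S.hasStrictFDerivAt_Psi b S.ctr_mem
    convert this using 1
    ext y i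
    rfl
  -- injectivity near the centre
  have hinj : (hf'.toOpenPartialHomeomorph (S.Psi b)).source ∈ 𝓝 S.ctr :=
    (hf'.toOpenPartialHomeomorph (S.Psi b)).open_source.mem_nhds
      hf'.mem_toOpenPartialHomeomorph_source
  have hinjOn : Set.InjOn (S.Psi b) (hf'.toOpenPartialHomeomorph (S.Psi b)).source := by
    have := (hf'.toOpenPartialHomeomorph (S.Psi b)).injOn
    rwa [hf'.toOpenPartialHomeomorph_coe] at this
  -- the determinant is nonzero near the centre
  have hcont : ContinuousAt (fun w => (S.jac b w).det) S.ctr := by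
    have h1 : ContinuousAt (fun w => S.jac b w) S.ctr := by
      refine continuousAt_pi.2 fun i => continuousAt_pi.2 fun j => ?_
      show ContinuousAt (fun w : Fin g → ℂ => (S.ch j).h (b i) (w j)) S.ctr
      exact ContinuousAt.comp (f := fun w : Fin g → ℂ => w j) (g := (S.ch j).h (b i))
        ((S.ch j).continuousAt_h (b i) (S.ctr_mem j)) (continuous_apply j).continuousAt
    exact (continuous_id.matrix_det (n := Fin g) (R := ℂ)).continuousAt.comp h1
  have hdetn : {w | (S.jac b w).det ≠ 0} ∈ 𝓝 S.ctr := hcont.eventually_ne hdet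
  obtain ⟨ε₀, hε₀, hsub⟩ := Metric.mem_nhds_iff.mp (Filter.inter_mem hinj hdetn)
  refine ⟨ε₀, hε₀, fun ε hε hle hεε₀ => ?_⟩
  have hdom : (S.shrink ε hε hle).dom = ball S.ctr ε := by
    rw [ball_pi _ hε]
    ext w
    simp only [Set.mem_pi, Set.mem_univ, true_implies]
    rfl
  have hsub' : (S.shrink ε hε hle).dom ⊆ _ := hdom ▸ (ball_subset_ball hεε₀).trans hsub
  have himg : S.Psi b '' ball S.ctr ε ∈ 𝓝 (0 : Fin g → ℂ) := by
    rw [← S.Psi_ctr b, ← hf'.map_nhds_eq_of_equiv]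
    exact Filter.image_mem_map (ball_mem_nhds _ hε)
  obtain ⟨ρ, hρ, hρsub⟩ := Metric.mem_nhds_iff.mp himg
  refine ⟨ρ, hρ, fun w hw => (hsub' hw).2, hinjOn.mono fun w hw => (hsub' hw).1, fun u hu => ?_⟩
  obtain ⟨w, hw, hwu⟩ := hρsub (mem_ball_zero_iff.mpr hu)
  exact ⟨w, hdom ▸ hw, hwu⟩

theorem shrink_Psi (ε : ℝ) (hε : 0 < ε) (hle : ∀ j, ε ≤ (S.ch j).r) :
    (S.shrink ε hε hle).Psi b = S.Psi b := rfl

theorem shrink_cl (ε : ℝ) (hε : 0 < ε) (hle : ∀ j, ε ≤ (S.ch j).r) :
    (S.shrink ε hε hle).cl = S.cl := rfl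

/-- shrinking does not change `e` near `0`. -/
theorem shrink_e {ρ ρ' : ℝ} (h : S.Good b ρ) (ε : ℝ) (hε : 0 < ε) (hle : ∀ j, ε ≤ (S.ch j).r)
    (h' : (S.shrink ε hε hle).Good b ρ') {u : Fin g → ℂ} (hu : ‖u‖ < ρ') :
    (S.shrink ε hε hle).e b u = S.e b u := by
  obtain ⟨w, hw, rfl⟩ := h'.surj u hu
  have hw' : w ∈ S.dom := fun j => ball_subset_ball (hle j) (hw j)
  rw [(S.shrink ε hε hle).e_Psi b h' hw]
  exact (S.e_Psi b h hw').symm

end Sys

/-- **C1b.** finitely many distinct places have charts with pairwise disjoint images. -/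
theorem exists_disjoint_charts {ι : Type*} [Finite ι] (P : ι → Place ℂ F)
    (hP : Function.Injective P) (ch : ι → Chart F) (hch : ∀ k, (ch k).P = P k) :
    ∃ ε₀ : ℝ, 0 < ε₀ ∧ (∀ k, ε₀ ≤ (ch k).r) ∧
      ∀ k l, k ≠ l → Disjoint ((ch k).Q '' ball (ch k).c ε₀) ((ch l).Q '' ball (ch l).c ε₀) := by
  classical
  have := Fintype.ofFinite ι
  obtain ⟨f, hreg, hinj⟩ := exists_sep_finset (Finset.univ.image P)
  have hregk : ∀ k, ((ch k).Q (ch k).c).adicValuation f ≤ 1 := fun k => by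
    have := hreg (P k) (Finset.mem_image_of_mem _ (Finset.mem_univ k))
    rwa [← hch k] at this
  -- separate the finitely many values
  have hval : Function.Injective fun k => val (P k) f := by
    intro k l hkl
    exact hP (hinj (by simp) (by simp) hkl)
  obtain ⟨δ, hδ, hsep⟩ : ∃ δ : ℝ, 0 < δ ∧ ∀ k l, k ≠ l →
      2 * δ ≤ dist (val (P k) f) (val (P l) f) := by
    by_cases hne : (Finset.univ.offDiag : Finset (ι × ι)).Nonempty
    · obtain ⟨⟨k₀, l₀⟩, hmem, hmin⟩ := Finset.exists_min_image Finset.univ.offDiag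
        (fun p : ι × ι => dist (val (P p.1) f) (val (P p.2) f)) hne
      have hkl₀ : k₀ ≠ l₀ := by simpa using hmem
      refine ⟨dist (val (P k₀) f) (val (P l₀) f) / 2, ?_, fun k l hkl => ?_⟩
      · have : 0 < dist (val (P k₀) f) (val (P l₀) f) := dist_pos.mpr fun h => hkl₀ (hval h)
        linarith
      · have := hmin (k, l) (by simpa using hkl)
        simp only at this
        linarith
    · refine ⟨1, one_pos, fun k l hkl => ?_⟩
      exact absurd ⟨(k, l), by simpa using hkl⟩ hne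
  have hev : ∀ k, ∀ᶠ ε in 𝓝[>] (0 : ℝ), ε ≤ (ch k).r ∧ ∀ w ∈ ball (ch k).c ε,
      dist (val ((ch k).Q w) f) (val (P k) f) < δ := by
    intro k
    have hc : ContinuousAt (fun w => val ((ch k).Q w) f) (ch k).c :=
      ((ch k).analytic f _ (ch k).center_mem (hregk k)).continuousAt
    have h1 : ∀ᶠ w in 𝓝 (ch k).c, dist (val ((ch k).Q w) f) (val (P k) f) < δ := by
      have := hc.eventually (ball_mem_nhds _ hδ)
      have hPk : val ((ch k).Q (ch k).c) f = val (P k) f := by rw [← hch k]; rfl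
      simp only [hPk] at this
      exact this
    obtain ⟨ε₁, hε₁, hsub⟩ := Metric.eventually_nhds_iff_ball.mp h1
    have h2 : ∀ᶠ ε in 𝓝[>] (0 : ℝ), ε < min ε₁ (ch k).r :=
      nhdsWithin_le_nhds (Iio_mem_nhds (lt_min hε₁ (ch k).r_pos))
    filter_upwards [h2] with ε hε
    exact ⟨(hε.trans_le (min_le_right _ _)).le, fun w hw =>
      hsub w (ball_subset_ball (hε.trans_le (min_le_left _ _)).le hw)⟩
  obtain ⟨ε₀, ⟨hall, hpos⟩⟩ := ((Filter.eventually_all.mpr hev).and self_mem_nhdsWithin).exists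
  refine ⟨ε₀, hpos, fun k => (hall k).1, fun k l hkl => ?_⟩
  rw [Set.disjoint_left]
  rintro _ ⟨w, hw, rfl⟩ ⟨w', hw', heq⟩
  have h1 := (hall k).2 w hw
  have h2 := (hall l).2 w' hw'
  rw [heq] at h2
  have h3 := hsep k l hkl
  have h4 := dist_triangle_left (val (P k) f) (val (P l) f) (val ((ch k).Q w) f)
  linarith

/-- **C1c.** existence of a good system with centres outside a given finite set. -/
theorem exists_good_sys (b : Fin g → WD ℂ F) (hb : LinearIndependent ℂ b)
    (Z : Set (Place ℂ F)) (hZ : Z.Finite) :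
    ∃ (S : Sys F g) (ρ : ℝ), S.Good b ρ ∧ ∀ j, (S.ch j).P ∉ Z := by
  obtain ⟨P, hPinj, hPZ, hdet⟩ := exists_det_ne_zero b hb Z hZ
  choose t ht using fun j => exists_unif (P j)
  choose ch hcht hchc hchQ using fun j => exists_chart (P j) (t j) (ht j)
  have hchP : ∀ j, (ch j).P = P j := fun j => by
    unfold Chart.P; rw [hchc j, hchQ j]
  obtain ⟨ε₀, hε₀, hle, hdisj⟩ := exists_disjoint_charts P hPinj ch hchP
  let S₀ : Sys F g :=
    { ch := fun j => (ch j).shrink ε₀ hε₀ (hle j)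
      disj := hdisj }
  have hjac : (S₀.jac b S₀.ctr).det ≠ 0 := by
    have h1 := hdet t ht
    have h2 : S₀.jac b S₀.ctr = cfMatrix b P t := by
      ext i j
      show (b i).loc ((ch j).Q (ch j).c) ((ch j).t - algebraMap ℂ F (ch j).c)⁻¹ =
        (b i).loc (P j) (t j)⁻¹
      rw [hchc j, hchQ j, hcht j, map_zero, sub_zero]
    rwa [h2]
  obtain ⟨ε₁, hε₁, hgood⟩ := S₀.exists_good_shrink b hjac
  obtain ⟨ρ, hρ⟩ := hgood (min ε₀ ε₁) (lt_min hε₀ hε₁) (fun _ => min_le_left _ _)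
    (min_le_right _ _)
  refine ⟨_, ρ, hρ, fun j => ?_⟩
  have : ((S₀.shrink (min ε₀ ε₁) (lt_min hε₀ hε₁) (fun _ => min_le_left _ _)).ch j).P = P j :=
    hchP j
  rw [this]
  exact hPZ j

end Fermat.Agent.S27
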